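import Fermat.Agent.MazurP.Disc
import Fermat.Agent.QComp.ModMain

/-!
# Functions attached to torsion classes fixed by a group of automorphisms
-/

set_option autoImplicit false
set_option linter.unusedSectionVars false
set_option linter.style.haveILetI false
set_option linter.unusedVariables false

noncomputable section
open AlgebraicCurve ModularCurve IntermediateField Module

namespace Fermat.Agent.MazurP

open Fermat.Agent.FF Fermat.Agent.Red Fermat.Agent.QVal Fermat.Agent.JZ Fermat.Agent.QComp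

local notation "Qb" => AlgebraicClosure ℚ
local notation "Γℚ" => (AlgebraicClosure ℚ ≃ₐ[ℚ] AlgebraicClosure ℚ)

variable {N : ℕ} [NeZero N]

theorem leadingCoeff_const_mul (c : Qb) (z : FB N) :
    ((algebraMap Qb (FB N) c * z : FB N) : LaurentSeries Qb).leadingCoeff =
      c * (z : LaurentSeries Qb).leadingCoeff := by
  have hcoe : ((algebraMap Qb (FB N) c * z : FB N) : LaurentSeries Qb) =
      algebraMap Qb (LaurentSeries Qb) c * (z : LaurentSeries Qb) := rfl
  rw [hcoe, HahnSeries.leadingCoeff_mul, algebraMap_laurentSeries_eq_single,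
    HahnSeries.leadingCoeff_of_single]

theorem leadingCoeff_gal (σ : Γℚ) (z : FB N) :
    (gal N σ z : LaurentSeries Qb).leadingCoeff = σ (z : LaurentSeries Qb).leadingCoeff := by
  rw [coe_gal, Top.leadingCoeff_coeffMap]
  rfl

theorem leadingCoeff_ne_zero {f : FB N} (hf : f ≠ 0) :
    (f : LaurentSeries Qb).leadingCoeff ≠ 0 :=
  HahnSeries.leadingCoeff_ne_zero.2 fun h => hf (Subtype.ext h)

/-- a function whose divisor is invariant is invariant up to constants; with leading coefficient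
one it is invariant -/
theorem mem_fixField_of_ord [IsFnField Qb (FB N)] {U : Subgroup Γℚ} {f : FB N} (hf0 : f ≠ 0)
    (h1 : (f : LaurentSeries Qb).leadingCoeff = 1)
    (h : ∀ σ ∈ U, ∀ P : Place Qb (FB N), P.ord (gal N σ f) = P.ord f) : f ∈ fixField N U := by
  intro σ hσ
  have hg0 : gal N σ f ≠ 0 := by rw [Ne, map_eq_zero]; exact hf0
  obtain ⟨a, ha⟩ := RR.exists_algebraMap_eq_of_forall_ord_nonneg (K := Qb) (f := gal N σ f / f)
    (fun v => by
      rw [div_eq_mul_inv, v.ord_mul hg0 (inv_ne_zero hf0), v.ord_inv, h σ hσ]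
      omega)
  have h4 : gal N σ f = algebraMap Qb (FB N) a * f := by rw [ha, div_mul_cancel₀ _ hf0]
  have h5 := leadingCoeff_gal σ f
  rw [h1, map_one, h4, leadingCoeff_const_mul, h1, mul_one] at h5
  rw [h4, h5, map_one, one_mul]

/-- **Descent of torsion classes fixed by a group of automorphisms.** -/
theorem exists_fixed_fn (U : Subgroup Γℚ) (x : JZero N) (n : ℕ) (hn : n ≠ 0)
    (hnx : n • x = 0) (hx : ∀ s ∈ U, s • x = x) :
    ∃ D : Divisor.degZero (K := Qb) (F := FB N), Pic0.mk D = x ∧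
      ∃ f : FB N, f ≠ 0 ∧ f ∈ fixField N U ∧
        ∀ P, (n : ℤ) * (D : Divisor Qb (FB N)) P = P.ord f := by
  haveI : IsFnField Qb (FB N) := JZ.modularFieldInputsBar.fnField N
  obtain ⟨D, hD, hinv⟩ := exists_invariant_divisor (cuspI N)
    {g | ∃ s ∈ U, g = arithmeticGalois (modularFunctionFieldFull N) s}
    (by rintro _ ⟨s, -, rfl⟩; exact smul_cuspI s) x
    (by rintro _ ⟨s, hs, rfl⟩; exact hx s hs)
  refine ⟨D, hD, ?_⟩
  rw [← hD] at hnx
  have h1 : n • Pic0.mk D = Pic0.mk (n • D) := rfl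
  rw [h1, Top.mk_eq_zero_iff] at hnx
  obtain ⟨f, hf0, hf⟩ := hnx
  have hf' : ∀ P : Place Qb (FB N), (n : ℤ) * (D : Divisor Qb (FB N)) P = P.ord f := by
    intro P
    rw [← hf P]
    change _ = (n • (D : Divisor Qb (FB N))) P
    rw [Finsupp.smul_apply, nsmul_eq_mul]
  have hc0 := leadingCoeff_ne_zero hf0
  set c : Qb := (f : LaurentSeries Qb).leadingCoeff with hc
  set g : FB N := algebraMap Qb (FB N) c⁻¹ * f with hg
  have hgc : algebraMap Qb (FB N) c⁻¹ ≠ 0 := by simpa using hc0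
  have hg0 : g ≠ 0 := mul_ne_zero hgc hf0
  have hgord : ∀ P : Place Qb (FB N), P.ord g = P.ord f := by
    intro P
    rw [hg, P.ord_mul hgc hf0, FF.ord_algebraMap, zero_add]
  refine ⟨g, hg0, mem_fixField_of_ord hg0 ?_ ?_, fun P => by rw [hf', hgord]⟩
  · rw [hg, leadingCoeff_const_mul, ← hc, inv_mul_cancel₀ hc0]
  · intro s hs P
    set G := arithmeticGalois (modularFunctionFieldFull N) s with hG
    have hGD : G • (D : Divisor Qb (FB N)) = D := hinv G ⟨s, hs, rfl⟩
    have h2 := SemilinearAut.ord_smul G (G⁻¹ • P) g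
    rw [smul_inv_smul] at h2
    have h3 : P.ord (gal N s g) = P.ord (G • g) := rfl
    rw [h3, h2, hgord, hgord, ← hf', ← hf']
    have h4 := SemilinearAut.divisor_smul_apply G (D : Divisor Qb (FB N)) P
    rw [hGD] at h4
    rw [h4]

/-- roots of fixed functions are fixed up to constants -/
theorem exists_fixed_root [IsFnField Qb (FB N)] {U : Subgroup Γℚ} {f h : FB N}
    (hf : f ∈ fixField N U) (hf0 : f ≠ 0) {n : ℕ} (hn : n ≠ 0) (hh : h ^ n = f) :
    ∃ c : Qb, c ≠ 0 ∧ ∃ g ∈ fixField N U, f = algebraMap Qb (FB N) c * g ^ n := by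
  have hh0 : h ≠ 0 := by
    rintro rfl
    rw [zero_pow hn] at hh
    exact hf0 hh.symm
  have hl0 := leadingCoeff_ne_zero hh0
  set l : Qb := (h : LaurentSeries Qb).leadingCoeff with hl
  have hl' : algebraMap Qb (FB N) l ≠ 0 := by simpa using hl0
  have hw0 : algebraMap Qb (FB N) l⁻¹ * h ≠ 0 := mul_ne_zero (by simpa using hl0) hh0
  refine ⟨l ^ n, pow_ne_zero _ hl0, algebraMap Qb (FB N) l⁻¹ * h,
    mem_fixField_of_ord hw0 ?_ ?_, ?_⟩
  · rw [leadingCoeff_const_mul, ← hl, inv_mul_cancel₀ hl0]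
  · intro σ hσ P
    have hn' : (n : ℤ) ≠ 0 := by exact_mod_cast hn
    have h1 : ∀ z : FB N, (n : ℤ) * P.ord z = P.ord (z ^ n) := fun z => (ord_pow P z n).symm
    apply mul_left_cancel₀ hn'
    rw [h1, h1, ← map_pow, mul_pow, hh, map_mul, ← map_pow, QComp.gal_algebraMap, hf σ hσ,
      P.ord_mul (by simp [hl0]) hf0, P.ord_mul (by simp [hl0]) hf0, FF.ord_algebraMap,
      FF.ord_algebraMap]
  · rw [mul_pow, ← mul_assoc, ← map_pow, ← map_mul, ← mul_pow, mul_inv_cancel₀ hl0, one_pow,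
      map_one, one_mul, hh]

end Fermat.Agent.MazurP
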