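import Fermat.Agent.MazurP.Contract

/-!
# Changing the auxiliary level
-/

set_option autoImplicit false
set_option linter.unusedSectionVars false
set_option linter.style.haveILetI false
set_option linter.unusedVariables false

noncomputable section
open AlgebraicCurve ModularCurve IntermediateField Module

namespace Fermat.Agent.MazurP

open Fermat.Agent.FF Fermat.Agent.Red Fermat.Agent.QVal Fermat.Agent.JZ Fermat.Agent.QComp

local notation "Qb" => AlgebraicClosure ℚ
local notation "Γℚ" => (AlgebraicClosure ℚ ≃ₐ[ℚ] AlgebraicClosure ℚ)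

section Incl

theorem FB_le {N N' : ℕ} [NeZero N] [NeZero N'] (h : N ∣ N') : FB N ≤ FB N' :=
  FN_mono (L := Qb) h

/-- inclusion of intermediate fields of `L((q))` -/
def inclE {L : Type*} [Field L] {E E' : IntermediateField L (LaurentSeries L)} (h : E ≤ E') :
    E →ₐ[L] E' where
  toFun x := ⟨(x : LaurentSeries L), h x.2⟩
  map_one' := rfl
  map_mul' _ _ := rfl
  map_zero' := rfl
  map_add' _ _ := rfl
  commutes' _ := rfl

theorem coe_inclE {L : Type*} [Field L] {E E' : IntermediateField L (LaurentSeries L)} (h : E ≤ E')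
    (x : E) : (inclE h x : LaurentSeries L) = x := rfl

variable {N N' : ℕ} [NeZero N] [NeZero N'] (h : N ∣ N')

/-- the inclusion of function fields -/
def incl (h : N ∣ N') : FB N →ₐ[Qb] FB N' := inclE (FB_le h)

theorem coe_incl (x : FB N) : (incl h x : LaurentSeries Qb) = x := coe_inclE _ _

theorem incl_gal (σ : Γℚ) (x : FB N) : incl h (gal N σ x) = gal N' σ (incl h x) := by
  apply Subtype.ext
  rw [coe_incl, coe_gal, coe_gal, coe_incl]

theorem incl_mem_fixField {U : Subgroup Γℚ} {x : FB N} (hx : x ∈ fixField N U) :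
    incl h x ∈ fixField N' U := by
  intro σ hσ
  rw [← incl_gal, hx σ hσ]

theorem incl_mem_ifixField {A : ValuationSubring Qb} {x : FB N} (hx : x ∈ ifixField N A) :
    incl h x ∈ ifixField N' A := by
  intro σ hσ
  have h1 := hx σ hσ
  rw [← incl_gal, h1]

theorem fullC_le (k : Type*) [Field k] (h : N ∣ N') :
    modularFunctionFieldFullC k N ≤ modularFunctionFieldFullC k N' := full_degeneracyC_le k h

/-- the inclusion of function fields in characteristic `p` -/
def inclK (k : Type*) [Field k] (h : N ∣ N') :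
    modularFunctionFieldFullC k N →ₐ[k] modularFunctionFieldFullC k N' := inclE (fullC_le k h)

theorem coe_inclK {k : Type*} [Field k] (x : modularFunctionFieldFullC k N) :
    (inclK k h x : LaurentSeries k) = x := coe_inclE _ _

end Incl

section Level

variable {k : Type*} [Field k] {A : ValuationSubring Qb} {π : A →+* k} {M₀ M q : ℕ} [NeZero M₀]
  [NeZero M] [NeZero q] [hqf : Fact q.Prime] {hA : A.LiesOverPrime q}
  {hπ : ∀ a : A, π a = 0 ↔ ¬ IsUnit a} {hs : Function.Surjective π} {hM₀ : ¬ q ∣ M₀}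
  {hM : ¬ q ∣ M} (h : M₀ ∣ M)

/-- the inclusion at levels divisible by `q` -/
abbrev inclq (q : ℕ) [NeZero q] (h : M₀ ∣ M) : FB (M₀ * q) →ₐ[Qb] FB (M * q) :=
  incl (mul_dvd_mul_right h q)

theorem inclq_al1 (x : FB M₀) : inclq q h (al1 M₀ q x) = al1 M q (incl h x) := by
  apply Subtype.ext
  rw [coe_incl, coe_al1, coe_al1, coe_incl]

theorem inclq_be1 (x : FB M₀) : inclq q h (be1 M₀ q x) = be1 M q (incl h x) := by
  apply Subtype.ext
  rw [coe_incl, coe_be1, coe_be1, coe_incl]

theorem inclq_w1 (x : FB (M₀ * q)) :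
    inclq q h (w1 hqf.out hM₀ x) = w1 hqf.out hM (inclq q h x) := by
  have h1 : RingHom.eqLocusField
      ((inclq q h : FB (M₀ * q) →+* FB (M * q)).comp (w1 hqf.out hM₀ : FB (M₀ * q) →+* FB (M₀ * q)))
      ((w1 hqf.out hM : FB (M * q) →+* FB (M * q)).comp
        (inclq q h : FB (M₀ * q) →+* FB (M * q))) = ⊤ := by
    apply gen1 M₀ q
    · intro x
      change inclq q h (w1 hqf.out hM₀ (al1 M₀ q x)) = w1 hqf.out hM (inclq q h (al1 M₀ q x))
      rw [w1_al, inclq_be1, inclq_al1, w1_al]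
    · change inclq q h (w1 hqf.out hM₀ (be1 M₀ q _)) = w1 hqf.out hM (inclq q h (be1 M₀ q _))
      rw [w1_be, inclq_be1, inclq_al1, w1_be]
  have h2 : x ∈ RingHom.eqLocusField
      ((inclq q h : FB (M₀ * q) →+* FB (M * q)).comp (w1 hqf.out hM₀ : FB (M₀ * q) →+* FB (M₀ * q)))
      ((w1 hqf.out hM : FB (M * q) →+* FB (M * q)).comp
        (inclq q h : FB (M₀ * q) →+* FB (M * q))) := by rw [h1]; trivial
  exact h2

theorem isRed_inf_incl {f : FB (M₀ * q)} {b : modularFunctionFieldFullC k M₀}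
    (hf : (rInf1 M₀ q hA hπ hs hM₀).IsRed f b) :
    (rInf1 M q hA hπ hs hM).IsRed (inclq q h f) (inclK k h b) := by
  rw [isRed_rInf1] at hf ⊢
  rw [coe_incl, coe_inclK]
  exact hf

theorem isRed_zero_incl {f : FB (M₀ * q)} {b : modularFunctionFieldFullC k M₀}
    (hf : (rZero1 M₀ q hA hπ hs hM₀).IsRed f b) :
    (rZero1 M q hA hπ hs hM).IsRed (inclq q h f) (inclK k h b) := by
  rw [isRed_rZero1] at hf ⊢
  rw [← inclq_w1 (hM₀ := hM₀) (hM := hM)]
  exact isRed_inf_incl h hf

theorem mem_inf_incl {f : FB (M₀ * q)} (hf : f ∈ (rInf1 M₀ q hA hπ hs hM₀).O) :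
    inclq q h f ∈ (rInf1 M q hA hπ hs hM).O := by
  obtain ⟨z, hz⟩ := (rInf1 M₀ q hA hπ hs hM₀).exists_isRed_of_mem hf
  exact (isRed_inf_incl (hM := hM) h hz).mem

theorem mem_zero_incl {f : FB (M₀ * q)} (hf : f ∈ (rZero1 M₀ q hA hπ hs hM₀).O) :
    inclq q h f ∈ (rZero1 M q hA hπ hs hM).O := by
  obtain ⟨z, hz⟩ := (rZero1 M₀ q hA hπ hs hM₀).exists_isRed_of_mem hf
  exact (isRed_zero_incl (hM := hM) h hz).mem

theorem one_inf_incl {t : A} {f : FB (M₀ * q)} (hf : One (rInf1 M₀ q hA hπ hs hM₀) t f) :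
    One (rInf1 M q hA hπ hs hM) t (inclq q h f) := by
  obtain ⟨y, hy, rfl⟩ := hf
  exact ⟨inclq q h y, mem_inf_incl h hy, by rw [map_add, map_one, map_mul, AlgHom.commutes]⟩

theorem one_zero_incl {t : A} {f : FB (M₀ * q)} (hf : One (rZero1 M₀ q hA hπ hs hM₀) t f) :
    One (rZero1 M q hA hπ hs hM) t (inclq q h f) := by
  obtain ⟨y, hy, rfl⟩ := hf
  exact ⟨inclq q h y, mem_zero_incl h hy, by rw [map_add, map_one, map_mul, AlgHom.commutes]⟩

/-- from the component at `∞` to the component at `0` -/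
theorem one_zero_of_w1 {t : A} {f : FB (M * q)}
    (hf : One (rInf1 M q hA hπ hs hM) t (w1 hqf.out hM f)) :
    One (rZero1 M q hA hπ hs hM) t f := by
  obtain ⟨y, hy, hf⟩ := hf
  refine ⟨w1 hqf.out hM y, ?_, ?_⟩
  · rw [mem_rZero1, w1_w1]
    exact hy
  · have h1 := congrArg (w1 hqf.out hM) hf
    rw [w1_w1, map_add, map_one, map_mul, AlgEquiv.commutes] at h1
    exact h1

end Level

section Ord

variable {N N' : ℕ} [NeZero N] [NeZero N'] (h : N ∣ N')

/-- divisibility of orders is preserved by inclusions -/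
theorem dvd_ord_incl [IsFnField Qb (FB N)] [IsFnField Qb (FB N')] {f : FB N} {n : ℤ}
    (hf : ∀ P : Place Qb (FB N), n ∣ P.ord f) (P : Place Qb (FB N')) : n ∣ P.ord (incl h f) := by
  rw [Place.ord_restrictAlong (incl h) (isIntegralAlong _) P f]
  exact Dvd.dvd.mul_left (hf _) _

end Ord

end Fermat.Agent.MazurP
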