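import Fermat.Agent.MazurP.Contract

/-!
# The element `t = ζ - 1`
-/

set_option autoImplicit false
set_option linter.unusedSectionVars false
set_option linter.style.haveILetI false
set_option linter.unusedVariables false

noncomputable section
open AlgebraicCurve ModularCurve IntermediateField Module Polynomial

namespace Fermat.Agent.MazurP

open Fermat.Agent.FF Fermat.Agent.Red Fermat.Agent.QVal Fermat.Agent.JZ Fermat.Agent.QComp

local notation "Qb" => AlgebraicClosure ℚ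
local notation "Γℚ" => (AlgebraicClosure ℚ ≃ₐ[ℚ] AlgebraicClosure ℚ)

variable {k : Type*} [Field k] {A : ValuationSubring Qb} {π : A →+* k} {q : ℕ}
  [hqf : Fact q.Prime]

theorem root_mem {A : ValuationSubring Qb} {n : ℕ} (hn : n ≠ 0) {ζ : Qb} (h : ζ ^ n = 1) :
    ζ ∈ A := mem_of_pow_mem A hn (by rw [h]; exact one_mem A)

theorem au_div_root {A : ValuationSubring Qb} {ζ μ : Qb} (hζ : IsPrimitiveRoot ζ q)
    (hμ : IsPrimitiveRoot μ q) : (1 - μ) / (1 - ζ) ∈ A := by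
  obtain ⟨i, -, rfl⟩ := hζ.eq_pow_of_pow_eq_one hμ.pow_eq_one
  have h1 : (1 : Qb) - ζ ≠ 0 := by
    intro h
    exact hζ.ne_one hqf.out.one_lt (sub_eq_zero.1 h).symm
  have h2 : (1 - ζ ^ i) / (1 - ζ) = ∑ j ∈ Finset.range i, ζ ^ j := by
    rw [div_eq_iff h1, geom_sum_mul_neg]
  rw [h2]
  exact sum_mem fun j _ => pow_mem (root_mem hqf.out.ne_zero hζ.pow_eq_one) j

/-- **the element `t`** -/
theorem exists_t (hA : A.LiesOverPrime q) (hπ : ∀ a : A, π a = 0 ↔ ¬ IsUnit a) :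
    ∃ t : A, t ≠ 0 ∧ π t = 0 ∧ t ∣ (q : A) ∧ TDvd q t ∧
      AU A ((t : Qb) ^ (q - 1) / (q : Qb)) := by
  classical
  haveI : NeZero q := ⟨hqf.out.ne_zero⟩
  haveI : NeZero (q : Qb) := ⟨by exact_mod_cast hqf.out.ne_zero⟩
  have hq0 : (q : Qb) ≠ 0 := by exact_mod_cast hqf.out.ne_zero
  obtain ⟨ζ, hζ⟩ := HasEnoughRootsOfUnity.exists_primitiveRoot Qb q
  have hζA : ζ ∈ A := root_mem hqf.out.ne_zero hζ.pow_eq_one
  have h0 : (1 : Qb) - ζ ≠ 0 := by
    intro h
    exact hζ.ne_one hqf.out.one_lt (sub_eq_zero.1 h).symm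
  set t : A := ⟨1 - ζ, sub_mem (one_mem A) hζA⟩ with ht
  have htc : (t : Qb) = 1 - ζ := rfl
  -- the product formula
  have h1 : (q : Qb) = ∏ μ ∈ primitiveRoots q Qb, (1 - μ) := by
    have h2 := congrArg (Polynomial.eval 1) (cyclotomic_eq_prod_X_sub_primitiveRoots hζ)
    rw [Polynomial.eval_one_cyclotomic_prime] at h2
    rw [h2, Polynomial.eval_prod]
    refine Finset.prod_congr rfl fun μ _ => ?_
    simp
  have hcard : (primitiveRoots q Qb).card = q - 1 := by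
    rw [hζ.card_primitiveRoots, Nat.totient_prime hqf.out]
  have h3 : AU A (∏ μ ∈ primitiveRoots q Qb, ((1 - μ) / (1 - ζ))) := by
    refine AU.prod fun μ hμ => ?_
    have hμ' := isPrimitiveRoot_of_mem_primitiveRoots hμ
    exact ⟨au_div_root hζ hμ', by rw [inv_div]; exact au_div_root hμ' hζ⟩
  rw [Finset.prod_div_distrib, Finset.prod_const, hcard, ← h1] at h3
  have h4 : AU A ((t : Qb) ^ (q - 1) / (q : Qb)) := by
    have := h3.inv
    rwa [inv_div] at this
  have hπt : π t = 0 := by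
    by_contra hne
    have hu : IsUnit t := by
      by_contra h5
      exact hne ((hπ t).2 h5)
    obtain ⟨v, hv⟩ := hu.exists_right_inv
    have hv' : (t : Qb) * v = 1 := congrArg Subtype.val hv
    have h6 : (q : Qb)⁻¹ ∈ A := by
      have h7 : (q : Qb)⁻¹ = ((t : Qb) ^ (q - 1) / (q : Qb)) * (v : Qb) ^ (q - 1) := by
        rw [div_mul_eq_mul_div, ← mul_pow, hv', one_pow, one_div]
      rw [h7]
      exact A.mul_mem _ _ h4.1 (pow_mem v.2 _)
    have h8 : (q : Qb) ∈ A.nonunits := hA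
    rw [Frob.mem_nonunits_iff_inv] at h8
    exact h8.resolve_left hq0 h6
  refine ⟨t, ?_, hπt, ?_, ?_, h4⟩
  · intro h
    exact h0 (congrArg Subtype.val h)
  · -- `t` divides `q`
    obtain ⟨m, hm⟩ : ∃ m, q - 1 = m + 1 := ⟨q - 2, by have := hqf.out.two_le; omega⟩
    refine ⟨⟨(t : Qb) ^ m * ((t : Qb) ^ (q - 1) / (q : Qb))⁻¹,
      A.mul_mem _ _ (pow_mem t.2 m) h4.2⟩, Subtype.ext ?_⟩
    have h5 : (t : Qb) ≠ 0 := h0
    change ((q : A) : Qb) = (t : Qb) * ((t : Qb) ^ m * ((t : Qb) ^ (q - 1) / (q : Qb))⁻¹)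
    rw [inv_div, hm, show ((q : A) : Qb) = (q : Qb) by simp]
    have h6 : (t : Qb) ^ (m + 1) ≠ 0 := pow_ne_zero _ h5
    rw [← mul_assoc, ← pow_succ', mul_div_cancel₀ _ h6]
  · intro ξ hξ
    have hξ' : ((ξ : A) : Qb) ^ q = 1 := by
      have := congrArg (fun u : Aˣ => ((u : A) : Qb)) hξ
      simpa using this
    obtain ⟨i, -, hi⟩ := hζ.eq_pow_of_pow_eq_one hξ'
    refine ⟨-∑ j ∈ Finset.range i, (⟨ζ, hζA⟩ : A) ^ j, Subtype.ext ?_⟩
    push_cast
    rw [← hi, htc]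
    have := geom_sum_mul_neg ζ i
    linear_combination this

end Fermat.Agent.MazurP
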