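import Fermat.Agent.MazurP.Slope
import Fermat.Agent.MazurP.Transport
import Fermat.Agent.MazurP.FnFix
import Fermat.Agent.MazurP.Tval
import Fermat.Agent.MazurQ.HasRed

/-!
# The slopes of torsion classes are constant
-/

set_option autoImplicit false
set_option linter.unusedSectionVars false
set_option linter.style.haveILetI false
set_option linter.unusedVariables false

noncomputable section
open AlgebraicCurve ModularCurve IntermediateField Module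

namespace Fermat.Agent.MazurP

open Fermat.Agent.FF Fermat.Agent.Red Fermat.Agent.QVal Fermat.Agent.JZ Fermat.Agent.QComp
  Fermat.Agent.Node Fermat.Agent.MazurQ

local notation "Qb" => AlgebraicClosure ℚ
local notation "Γℚ" => (AlgebraicClosure ℚ ≃ₐ[ℚ] AlgebraicClosure ℚ)

/-- the condition `peu ramifiée` for the fixed field of a subgroup of inertia -/
def PEU (A : ValuationSubring Qb) (q : ℕ) (U : Subgroup Γℚ) (t : A) : Prop :=
  ∀ (a : Qb) (m : ℤ) (η α : A), a ≠ 0 → (∀ σ ∈ U, σ a = a) → IsUnit η →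
    (∀ σ ∈ A.inertiaSubgroupIn ℚ, σ (η : Qb) = η) →
    a ^ q = (q : Qb) ^ m * η * (1 + t * α) → (q : ℤ) ∣ m

section Main

variable {k : Type*} [Field k] {A : ValuationSubring Qb} {π : A →+* k} {M₀ M q : ℕ} [NeZero M₀]
  [NeZero M] [NeZero q] [hqf : Fact q.Prime] {hA : A.LiesOverPrime q}
  {hπ : ∀ a : A, π a = 0 ↔ ¬ IsUnit a}
  {hs : Function.Surjective π} {hM₀ : ¬ q ∣ M₀} {hM : ¬ q ∣ M}
  [CharP k q] [PerfectRing k q] [IsAlgClosed k] [IsFnField k (modularFunctionFieldFullC k M)]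
  [FiniteDimensional k⟮RedQ.xj k M⟯ (modularFunctionFieldFullC k M)]
  [Algebra.IsSeparable k⟮RedQ.xj k M⟯ (modularFunctionFieldFullC k M)]
  [IsFnField Qb (FB (M * q))] [IsFnField Qb (FB (M₀ * q))] [IsFnField Qb (FB M₀)]

local notation "𝓗" => twoLevel hA hπ hs hM

theorem one_add_ne_zero (hπ : ∀ a : A, π a = 0 ↔ ¬ IsUnit a) {t α : A} (hπt : π t = 0) :
    IsUnit (1 + t * α) := by
  by_contra h
  rw [← hπ, map_add, map_one, map_mul, hπt, zero_mul, add_zero] at h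
  exact one_ne_zero h

set_option maxHeartbeats 4000000 in
/-- **the slopes are constant** -/
theorem slopes_const (h : M₀ ∣ M) (hr : ∃ r : ℕ, r.Prime ∧ r ∣ M ∧ r % 12 = 11) {t : A}
    (ht0 : t ≠ 0) (hπt : π t = 0) (htq : t ∣ (q : A)) (htd : TDvd q t)
    (htu : AU A ((t : Qb) ^ (q - 1) / (q : Qb)))
    {U : Subgroup Γℚ} (hUI : U ≤ A.inertiaSubgroupIn ℚ)
    (hfin : (U.subgroupOf (A.inertiaSubgroupIn ℚ)).FiniteIndex)
    (hidx : (U.subgroupOf (A.inertiaSubgroupIn ℚ)).index ≤ q * (q - 1))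
    (hPEU : PEU A q U t) {x : JZero (M₀ * q)} (hx : q • x = 0) (hxU : ∀ σ ∈ U, σ • x = x)
    (hα : trA M₀ q x = 0) (hβ : trB M₀ q x = 0) :
    ∃ b₁ b₂, HasRed hA hπ hs hM₀ q x b₁ b₂ ∧
      (∀ s, (q : ℤ) ∣ (place1 𝓗 s).ord (inclK k h b₁) + (place2 𝓗 s).ord (inclK k h b₂)) ∧
      ∃ c : ℤ, ∀ s, (q : ℤ) ∣ (place2 𝓗 s).ord (inclK k h b₂) - c := by
  have hq0 : q ≠ 0 := hqf.out.ne_zero
  have htQ : (t : Qb) ≠ 0 := by simpa using ht0
  obtain ⟨D, hD, f, hf0, hfU, hfdiv⟩ := exists_fixed_fn U x q hq0 hx hxU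
  -- the norms
  have hNα : ∃ c : Qb, c ≠ 0 ∧ ∃ g ∈ fixField M₀ U,
      normAlong (al1 M₀ q) f = algebraMap Qb (FB M₀) c * g ^ q := by
    rw [← hD, trA_mk, Red.pic0_mk_eq_zero, coe_degZeroPush] at hα
    obtain ⟨g, hg⟩ := exists_norm_root _ _ (finiteAlong _) (nInputs.norm _ _ _ _) hq0 hα hf0 hfdiv
    exact exists_fixed_root (norm_al1_mem_fixField hfU)
      (normAlong_ne_zero _ (finiteAlong _) hf0) hq0 hg
  have hNβ : ∃ c : Qb, c ≠ 0 ∧ ∃ g ∈ fixField M₀ U,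
      normAlong (al1 M₀ q) (w1 hqf.out hM₀ f) = algebraMap Qb (FB M₀) c * g ^ q := by
    rw [← hD, trB_mk, Red.pic0_mk_eq_zero, coe_degZeroPush] at hβ
    obtain ⟨g, hg⟩ := exists_norm_root _ _ (finiteAlong _) (nInputs.norm _ _ _ _) hq0 hβ hf0 hfdiv
    have hg' : g ^ q = normAlong (al1 M₀ q) (w1 hqf.out hM₀ f) := by
      rw [← norm_be1_eq]; exact hg
    exact exists_fixed_root (norm_al1_mem_fixField (w1_mem_fixField (hM := hM₀) hfU))
      (normAlong_ne_zero _ (finiteAlong _) (by rw [Ne, map_eq_zero]; exact hf0)) hq0 hg'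
  obtain ⟨c₁, hc₁, g₁, hg₁, hn₁⟩ := hNα
  obtain ⟨c₂, hc₂, g₂, hg₂, hn₂⟩ := hNβ
  obtain ⟨E1, -⟩ := exists_lev_pow (M := M₀) (hA := hA) (hπ := hπ) (hs := hs) (hM := hM₀) hUI hfin
    hidx htQ htu
  obtain ⟨E1', E2'⟩ := exists_lev_pow (M := M) (hA := hA) (hπ := hπ) (hs := hs) (hM := hM) hUI
    hfin hidx htQ htu
  obtain ⟨C₁, hC₁, G₁, hG₁, γ₁, hγ₁, hGγ₁, hO₁⟩ := contract (hA := hA) (hπ := hπ) (hs := hs)
    (hM := hM₀) ht0 hπt htd htq hUI E1 hfU hf0 hc₁ hg₁ hn₁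
  obtain ⟨C₂, hC₂, G₂, hG₂, γ₂, hγ₂, hGγ₂, hO₂⟩ := contract (hA := hA) (hπ := hπ) (hs := hs)
    (hM := hM₀) ht0 hπt htd htq hUI E1 (w1_mem_fixField (hM := hM₀) hfU)
    (by rw [Ne, map_eq_zero]; exact hf0) hc₂ hg₂ hn₂
  -- the second component
  set G₂' := w1 hqf.out hM₀ G₂ with hG₂'
  have hG₂'F : G₂' ∈ ifixField (M₀ * q) A := w1_mem_fixField (hM := hM₀) hG₂
  have hGγ₂' : (rZero1 M₀ q hA hπ hs hM₀).IsRed G₂' γ₂ := isRed_rZero1_w1.2 hGγ₂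
  have hO₂' : One (rZero1 M₀ q hA hπ hs hM₀) t
      (f / (algebraMap Qb (FB (M₀ * q)) C₂ * G₂')) := by
    apply one_zero_of_w1
    rw [map_div₀, map_mul, AlgEquiv.commutes, hG₂', w1_w1]
    exact hO₂
  have hG₁0 : G₁ ≠ 0 := hGγ₁.ne_zero hγ₁
  have hG₂0 : G₂' ≠ 0 := hGγ₂'.ne_zero hγ₂
  have hC₁' : algebraMap Qb (FB (M₀ * q)) C₁ ≠ 0 := by simpa using hC₁
  have hC₂' : algebraMap Qb (FB (M₀ * q)) C₂ ≠ 0 := by simpa using hC₂
  have hR₁ : (rInf1 M₀ q hA hπ hs hM₀).IsRed (algebraMap Qb (FB (M₀ * q)) C₁⁻¹ * f) γ₁ := by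
    have h1 := (hO₁.isRed hπt).mul hGγ₁
    rw [one_mul] at h1
    convert h1 using 1
    rw [map_inv₀]
    field_simp
  have hR₂ : (rZero1 M₀ q hA hπ hs hM₀).IsRed (algebraMap Qb (FB (M₀ * q)) C₂⁻¹ * f) γ₂ := by
    have h1 := (hO₂'.isRed hπt).mul hGγ₂'
    rw [one_mul] at h1
    convert h1 using 1
    rw [map_inv₀]
    field_simp
  refine ⟨γ₁, γ₂, ⟨D, f, C₁⁻¹, C₂⁻¹, hD, hf0, hfdiv, inv_ne_zero hC₁, inv_ne_zero hC₂, hγ₁, hγ₂,
    hR₁, hR₂⟩, ?_⟩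
  -- transport to the level `M`
  have hdvd : ∀ P : Place Qb (FB (M₀ * q)), (q : ℤ) ∣ P.ord f := fun P => ⟨_, (hfdiv P).symm⟩
  have hO₁M := one_inf_incl (hM := hM) h hO₁
  have hO₂M := one_zero_incl (hM := hM) h hO₂'
  rw [map_div₀, map_mul, AlgHom.commutes] at hO₁M hO₂M
  have key := fun s => slope (hA := hA) (hπ := hπ) (hs := hs) (hM := hM) hr ht0 hπt htq hUI E1' E2'
    (incl_mem_fixField (mul_dvd_mul_right h q) hfU)
    (by rw [Ne, map_eq_zero]; exact hf0 : incl (mul_dvd_mul_right h q) f ≠ 0)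
    (dvd_ord_incl (mul_dvd_mul_right h q) hdvd) hC₁ hC₂
    (incl_mem_ifixField (mul_dvd_mul_right h q) hG₁)
    (incl_mem_ifixField (mul_dvd_mul_right h q) hG₂'F)
    (isRed_inf_incl (hM := hM) h hGγ₁) (by rw [Ne, map_eq_zero]; exact hγ₁)
    (isRed_zero_incl (hM := hM) h hGγ₂') (by rw [Ne, map_eq_zero]; exact hγ₂) hO₁M hO₂M s
  refine ⟨fun s => (key s).1, ?_⟩
  by_cases hne : Nonempty ((regAlg k (RedQ.xj k M ^ (q + 1)) ⧸ (𝓗).cond) →ₐ[k] k)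
  · obtain ⟨s₀⟩ := hne
    refine ⟨(place2 𝓗 s₀).ord (inclK k h γ₂), fun s => ?_⟩
    obtain ⟨-, a, η, α, ha0, haU, hη, hηI, e1⟩ := key s
    obtain ⟨-, a', η', α', ha0', haU', hη', hηI', e1'⟩ := key s₀
    set m := (place2 𝓗 s).ord (inclK k h γ₂) with hm
    set m' := (place2 𝓗 s₀).ord (inclK k h γ₂) with hm'
    rw [e1] at e1'
    obtain ⟨ν, hν⟩ := hη
    obtain ⟨β, hβ'⟩ := one_add_ne_zero (α := α) hπ hπt
    have hqQ : (q : Qb) ≠ 0 := by exact_mod_cast hq0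
    have hν0 : ((η : A) : Qb) ≠ 0 := by
      rw [← hν]
      intro h0
      exact ν.ne_zero (Subtype.ext h0)
    have hβ0 : (1 + (t : Qb) * α) ≠ 0 := by
      intro h0
      have : ((1 + t * α : A) : Qb) = 0 := by push_cast; exact h0
      rw [← hβ'] at this
      exact β.ne_zero (Subtype.ext this)
    have hβi : ((↑β⁻¹ : A) : Qb) = (1 + (t : Qb) * α)⁻¹ := by
      apply eq_inv_of_mul_eq_one_left
      have h1 : ((↑β⁻¹ : A) : Qb) * ((β : A) : Qb) = 1 := by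
        exact congrArg Subtype.val β.inv_mul
      rw [hβ'] at h1
      push_cast at h1
      exact h1
    have hνi : ((↑ν⁻¹ : A) : Qb) = ((η : A) : Qb)⁻¹ := by
      apply eq_inv_of_mul_eq_one_left
      have h1 : ((↑ν⁻¹ : A) : Qb) * ((ν : A) : Qb) = 1 := congrArg Subtype.val ν.inv_mul
      rw [hν] at h1
      exact h1
    refine hPEU (a / a') (m - m') (η' * ↑ν⁻¹) ((α' - α) * ↑β⁻¹) (div_ne_zero ha0 ha0')
      (fun σ hσ => by rw [map_div₀, haU σ hσ, haU' σ hσ]) (hη'.mul (Units.isUnit _)) ?_ ?_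
    · intro σ hσ
      push_cast
      rw [hνi, map_mul, map_inv₀, hηI σ hσ, hηI' σ hσ]
    · push_cast
      rw [hνi, hβi, div_pow]
      have h2 : (q : Qb) ^ (m - m') = (q : Qb) ^ (-m') / (q : Qb) ^ (-m) := by
        rw [← zpow_sub₀ hqQ]
        congr 1
        ring
      rw [h2]
      have h3 : (q : Qb) ^ (-m) ≠ 0 := zpow_ne_zero _ hqQ
      have h4 : a' ^ q ≠ 0 := pow_ne_zero _ ha0'
      field_simp
      linear_combination e1'
  · exact ⟨0, fun s => absurd ⟨s⟩ hne⟩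

end Main

end Fermat.Agent.MazurP
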