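import Fermat.Agent.MazurP.SlopeAbs
import Fermat.Agent.QVal.Units
import Fermat.Agent.Red.JHecke

set_option autoImplicit false
set_option linter.unusedSectionVars false
set_option linter.style.haveILetI false
set_option linter.unusedVariables false

/-!
# Slopes of the reduction at infinity and Hecke operators ([B-HECKE])
-/

noncomputable section

open AlgebraicCurve IntermediateField Module ModularCurve

namespace Fermat.Agent.MazurP

open Fermat.Agent.FF Fermat.Agent.Red Fermat.Agent.QVal Fermat.Agent.QComp Fermat.Agent.JZ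

local notation "Qb" => AlgebraicClosure ℚ

section Level

variable {k : Type*} [Field k] {A : ValuationSubring Qb} {π : A →+* k} {M q ℓ : ℕ} [NeZero M]
  [NeZero q] [NeZero ℓ] [hqf : Fact q.Prime] [hlf : Fact ℓ.Prime]
  (hA : A.LiesOverPrime q) (hπ : ∀ a : A, π a = 0 ↔ ¬ IsUnit a)
  (hs : Function.Surjective π)

include hA hπ hs in
theorem gRed_mem_full {N : ℕ} [NeZero N] (hN : ¬ q ∣ N) {f : FB N} {z : LaurentSeries k}
    (h : GRed π (f : LaurentSeries Qb) z) : z ∈ modularFunctionFieldFullC k N := by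
  rw [← gaussRes_bar N hA hπ hs hN]
  exact ⟨_, f.2, h⟩

variable (π M ℓ) in
theorem gRed_d1' : GRed π (d1 M ℓ : LaurentSeries Qb)
    (Igusa.deltaC k * (qExpand k ℓ (Igusa.deltaC k))⁻¹) := by
  have hne : qExpand k ℓ (Igusa.deltaC k) ≠ 0 := by
    intro h0
    exact Igusa.deltaC_ne_zero k (qExpand_injective (R := k) ℓ (h0.trans (map_zero _).symm))
  rw [coe_d1_eq]
  exact (gRed_deltaC (π := π)).mul ((gRed_qExpand (gRed_deltaC (π := π)) ℓ).inv hne)

/-- the reduction of `Δ(τ)/Δ(ℓτ)` -/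
def vR (hMℓ : ¬ q ∣ M * ℓ) : modularFunctionFieldFullC k (M * ℓ) :=
  ⟨Igusa.deltaC k * (qExpand k ℓ (Igusa.deltaC k))⁻¹,
    gRed_mem_full hA hπ hs hMℓ (gRed_d1' π M ℓ)⟩

theorem qDelta_ne : qExpand k ℓ (Igusa.deltaC k) ≠ 0 := by
  intro h0
  exact Igusa.deltaC_ne_zero k (qExpand_injective (R := k) ℓ (h0.trans (map_zero _).symm))

theorem vR_ne_zero (hMℓ : ¬ q ∣ M * ℓ) : vR hA hπ hs hMℓ ≠ 0 := by
  intro h
  have h1 := congrArg Subtype.val h
  exact mul_ne_zero (Igusa.deltaC_ne_zero k) (inv_ne_zero (qDelta_ne (ℓ := ℓ))) h1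

theorem isRed_vR (hMℓ : ¬ q ∣ M * ℓ) :
    (redX (M * ℓ) hA hπ hs hMℓ).IsRed (d1 M ℓ) (vR hA hπ hs hMℓ) :=
  isRed_redX.2 (gRed_d1' π M ℓ)

theorem isIntegral_vR (hMℓ : ¬ q ∣ M * ℓ) :
    IsIntegral (Algebra.adjoin k {RedQ.xj k (M * ℓ)}) (vR hA hπ hs hMℓ) := by
  refine (isCoord' hA hπ hs hMℓ).isIntegral_red (isRed_vR hA hπ hs hMℓ) ?_
  have h := isInt_d1' (M := M) (q := ℓ)
  rwa [al1_jB] at h

theorem isIntegral_vR_inv (hMℓ : ¬ q ∣ M * ℓ) :
    IsIntegral (Algebra.adjoin k {RedQ.xj k (M * ℓ)}) (vR hA hπ hs hMℓ)⁻¹ := by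
  refine (isCoord' hA hπ hs hMℓ).isIntegral_red
    ((isRed_vR hA hπ hs hMℓ).inv (vR_ne_zero hA hπ hs hMℓ)) ?_
  have h := isInt_d1_inv (M := M) (q := ℓ)
  rwa [al1_jB] at h

include hA hπ hs in
theorem isIntegral_betaC_xj (hM : ¬ q ∣ M) (hMℓ : ¬ q ∣ M * ℓ) :
    IsIntegral (Algebra.adjoin k {RedQ.xj k (M * ℓ)}) (betaC k M ℓ (RedQ.xj k M)) := by
  have h1 : (redX (M * ℓ) hA hπ hs hMℓ).IsRed (be1 M ℓ (jB M)) (betaC k M ℓ (RedQ.xj k M)) :=
    isRed_beta hA hπ hs hM ℓ hMℓ (isCoord' hA hπ hs hM).isRed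
  refine (isCoord' hA hπ hs hMℓ).isIntegral_red h1 ?_
  have h := isInt_be1_jB (M := M) (q := ℓ)
  rwa [al1_jB] at h

theorem ord_vR (hMℓ : ¬ q ∣ M * ℓ) (w : Place k (modularFunctionFieldFullC k (M * ℓ)))
    (hw : 0 ≤ w.ord (RedQ.xj k (M * ℓ))) : w.ord (vR hA hπ hs hMℓ) = 0 := by
  haveI := charP_of_liesOverPrime (k := k) hA hπ
  haveI : IsAlgClosed k := isAlgClosed_of_surjective hs
  haveI := isFnField_fullC (k := k) (M * ℓ) q hMℓ
  have h1 : 0 ≤ w.ord (vR hA hπ hs hMℓ) :=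
    ord_nonneg_of_mem _ (mem_of_isIntegral w hw (isIntegral_vR hA hπ hs hMℓ))
  have h2 : 0 ≤ w.ord (vR hA hπ hs hMℓ)⁻¹ :=
    ord_nonneg_of_mem _ (mem_of_isIntegral w hw (isIntegral_vR_inv hA hπ hs hMℓ))
  rw [Place.ord_inv] at h2
  omega

/-- `h ∘ α` and `h ∘ β` differ by a power of `Δ(τ)/Δ(ℓτ)`. -/
theorem alpha_hasse (hMℓ : ¬ q ∣ M * ℓ) {h : modularFunctionFieldFullC k M}
    (hh : (h : LaurentSeries k) * (Igusa.deltaC k) ^ (q - 1) = 1) :
    alphaC k M ℓ h * vR hA hπ hs hMℓ ^ (q - 1) = betaC k M ℓ h := by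
  apply Subtype.ext
  have h1 : qExpand k ℓ (h : LaurentSeries k) * (qExpand k ℓ (Igusa.deltaC k)) ^ (q - 1) = 1 := by
    rw [← map_pow, ← map_mul, hh, map_one]
  have h2 := pow_ne_zero (q - 1) (qDelta_ne (k := k) (ℓ := ℓ))
  change (alphaC k M ℓ h : LaurentSeries k) *
    (Igusa.deltaC k * (qExpand k ℓ (Igusa.deltaC k))⁻¹) ^ (q - 1) =
    qExpand k ℓ (h : LaurentSeries k)
  rw [coe_alphaC, mul_pow, ← mul_assoc, hh, one_mul, inv_pow]
  exact (eq_inv_of_mul_eq_one_left h1).symm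

include hA hπ hs in
theorem ord_alpha_hasse (hMℓ : ¬ q ∣ M * ℓ) {h : modularFunctionFieldFullC k M}
    (hh : (h : LaurentSeries k) * (Igusa.deltaC k) ^ (q - 1) = 1)
    (w : Place k (modularFunctionFieldFullC k (M * ℓ)))
    (hw : 0 ≤ w.ord (RedQ.xj k (M * ℓ))) :
    w.ord (alphaC k M ℓ h) = w.ord (betaC k M ℓ h) := by
  have h0 : h ≠ 0 := by
    rintro rfl
    simp at hh
  rw [← alpha_hasse hA hπ hs hMℓ hh, Place.ord_mul _ ((map_ne_zero _).2 h0)
    (pow_ne_zero _ (vR_ne_zero hA hπ hs hMℓ)), ord_pow, ord_vR hA hπ hs hMℓ w hw]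
  simp

/-- the reduction at infinity at a level equal to `N q` -/
def rInfL {N L : ℕ} [NeZero N] [NeZero L] (hL : L = N * q) (hN : ¬ q ∣ N) :
    ConstRed A π (FB L) (modularFunctionFieldFullC k N) :=
  gaussConstRed (gaussFB hA L) hπ _
    (fun f z hf h => by
      subst hL
      exact mem_of_gRed_level1 hA hπ hs hN (f := ⟨f, hf⟩) h)
    (fun z hz => by
      subst hL
      exact exists_lift_level1 hA hπ hs hN hz)

theorem isRed_rInfL {N L : ℕ} [NeZero N] [NeZero L] (hL : L = N * q) (hN : ¬ q ∣ N)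
    {f : FB L} {z : modularFunctionFieldFullC k N} :
    (rInfL hA hπ hs hL hN).IsRed f z ↔ GRed π (f : LaurentSeries Qb) z :=
  gaussConstRed_isRed

theorem lvl_comm (M q ℓ : ℕ) : M * q * ℓ = M * ℓ * q := by ring

theorem isRed_alphaL (hM : ¬ q ∣ M) (hMℓ : ¬ q ∣ M * ℓ) {f : FB (M * q)}
    {z : modularFunctionFieldFullC k M} (h : (rInf1 M q hA hπ hs hM).IsRed f z) :
    (rInfL hA hπ hs (lvl_comm M q ℓ) hMℓ).IsRed (heckeAlphaBar Qb (M * q) ℓ f)
      (alphaC k M ℓ z) := by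
  rw [isRed_rInfL, coe_heckeAlphaBar, coe_alphaC]
  exact isRed_rInf1.1 h

theorem isRed_betaL (hM : ¬ q ∣ M) (hMℓ : ¬ q ∣ M * ℓ) {f : FB (M * q)}
    {z : modularFunctionFieldFullC k M} (h : (rInf1 M q hA hπ hs hM).IsRed f z) :
    (rInfL hA hπ hs (lvl_comm M q ℓ) hMℓ).IsRed (heckeBetaBar Qb (M * q) ℓ f)
      (betaC k M ℓ z) := by
  rw [isRed_rInfL, coe_betaC]
  exact gRed_qExpand (isRed_rInf1.1 h) ℓ

include hA hπ hs in
theorem finrank_alphaC (hM : ¬ q ∣ M) (hMℓ : ¬ q ∣ M * ℓ) (hℓM : ¬ ℓ ∣ M) :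
    finrankAlong k (alphaC k M ℓ) = ℓ + 1 := by
  haveI := charP_of_liesOverPrime (k := k) hA hπ
  haveI : IsAlgClosed k := isAlgClosed_of_surjective hs
  have h1 := finrankAlong_alpha_eq (k := k) (N := M) (ℓ := q) ℓ hMℓ hM
  rw [← h1]
  exact finrank_al1 hlf.out hℓM

theorem finrank_alpha_level (hℓ : ¬ ℓ ∣ M * q) :
    finrankAlong Qb (heckeAlphaBar Qb (M * q) ℓ) = ℓ + 1 :=
  finrank_al1 hlf.out hℓ

theorem finrank_al1_of_dvd {N r : ℕ} [NeZero N] [NeZero r] (hr : r.Prime) (h : r ∣ N) :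
    finrankAlong Qb (heckeAlphaBar Qb N r) = r := by
  rw [heckeAlphaBar_eq_inclusion N r (FN_mono (L := Qb) (dvd_mul_right N r)),
    finrankAlong_inclusion]
  have := relfinrank_FN_prime (L := Qb) modularFieldInputsBar (M := N) (p := r) hr
  rw [if_pos h] at this
  exact this

include hA hπ hs in
/-- the degrees of the two first degeneracy maps agree (`ℓ ∣ M` allowed) -/
theorem finrank_alpha_eq (hM : ¬ q ∣ M) (hMℓ : ¬ q ∣ M * ℓ) :
    finrankAlong Qb (heckeAlphaBar Qb (M * q) ℓ) = finrankAlong k (alphaC k M ℓ) := by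
  haveI := charP_of_liesOverPrime (k := k) hA hπ
  haveI : IsAlgClosed k := isAlgClosed_of_surjective hs
  have h1 := finrankAlong_alpha_eq (k := k) (N := M) (ℓ := q) ℓ hMℓ hM
  rw [← h1]
  by_cases hℓM : ℓ ∣ M
  · rw [finrank_al1_of_dvd hlf.out hℓM, finrank_al1_of_dvd hlf.out (hℓM.mul_right q)]
  · have hℓ : ¬ ℓ ∣ M * q := by
      intro h
      rcases (Nat.Prime.dvd_mul hlf.out).1 h with h | h
      · exact hℓM h
      · have := (Nat.prime_dvd_prime_iff_eq hlf.out hqf.out).1 h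
        subst this
        exact hMℓ (dvd_mul_left _ _)
    exact (finrank_al1 hlf.out hℓ).trans (finrank_al1 hlf.out hℓM).symm

/-- the reduction at infinity commutes with the norm (`ℓ ∣ M` allowed). -/
theorem isRed_normL (hM : ¬ q ∣ M) (hMℓ : ¬ q ∣ M * ℓ) {f : FB (M * q * ℓ)}
    {z : modularFunctionFieldFullC k (M * ℓ)}
    (h : (rInfL hA hπ hs (lvl_comm M q ℓ) hMℓ).IsRed f z) :
    (rInf1 M q hA hπ hs hM).IsRed (normAlong (heckeAlphaBar Qb (M * q) ℓ) f)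
      (normAlong (alphaC k M ℓ) z) := by
  haveI := charP_of_liesOverPrime (k := k) hA hπ
  haveI : IsAlgClosed k := isAlgClosed_of_surjective hs
  haveI := isFnField_bar (M * q)
  haveI := isFnField_bar (M * q * ℓ)
  haveI := isFnField_fullC (k := k) M q hM
  haveI := isFnField_fullC (k := k) (M * ℓ) q hMℓ
  have hdeg : finrankAlong Qb (heckeAlphaBar Qb (M * q) ℓ) = finrankAlong k (alphaC k M ℓ) :=
    finrank_alpha_eq hA hπ hs hM hMℓ
  have hfin : FiniteAlong Qb (heckeAlphaBar Qb (M * q) ℓ) := JZ.finiteAlong _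
  have hfink : FiniteAlong k (alphaC k M ℓ) := JZ.finiteAlong _
  letI := algebraAlong (heckeAlphaBar Qb (M * q) ℓ)
  haveI := isScalarTower_along (heckeAlphaBar Qb (M * q) ℓ)
  letI := algebraAlong (alphaC k M ℓ)
  haveI := isScalarTower_along (alphaC k M ℓ)
  haveI : Module.Finite (FB (M * q)) (FB (M * q * ℓ)) := hfin
  haveI : Module.Finite (modularFunctionFieldFullC k M) (modularFunctionFieldFullC k (M * ℓ)) :=
    hfink
  have hcomp' : Compat (rInf1 M q hA hπ hs hM) (rInfL hA hπ hs (lvl_comm M q ℓ) hMℓ) :=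
    fun f z h => isRed_alphaL hA hπ hs hM hMℓ h
  exact hcomp'.isRed_norm hdeg h

/-- **(i)** the reduction at infinity commutes with the Hecke correspondence on functions
(`ℓ ∣ M` allowed). -/
theorem isRed_norm_beta (hM : ¬ q ∣ M) (hMℓ : ¬ q ∣ M * ℓ) {f : FB (M * q)}
    {z : modularFunctionFieldFullC k M} (h : (rInf1 M q hA hπ hs hM).IsRed f z) :
    (rInf1 M q hA hπ hs hM).IsRed
      (normAlong (heckeAlphaBar Qb (M * q) ℓ) (heckeBetaBar Qb (M * q) ℓ f))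
      (normAlong (alphaC k M ℓ) (betaC k M ℓ z)) :=
  isRed_normL hA hπ hs hM hMℓ (isRed_betaL hA hπ hs hM hMℓ h)

theorem isRed_scal {K F Fk : Type*} [Field K] [Field F] [Algebra K F] [Field Fk] [Algebra k Fk]
    {B : ValuationSubring K} {π' : B →+* k} {R : ConstRed B π' F Fk} {f : F} {a b : K}
    {z1 z2 : Fk} (h1 : R.IsRed (algebraMap K F a * f) z1) (h2 : R.IsRed (algebraMap K F b * f) z2)
    (hz1 : z1 ≠ 0) (hz2 : z2 ≠ 0) : ∃ u : k, u ≠ 0 ∧ z2 = algebraMap k Fk u * z1 := by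
  have h3 := h2.div h1 hz1
  have hne := h1.ne_zero hz1
  have hf : f ≠ 0 := fun h => hne (by rw [h, mul_zero])
  have e1 : algebraMap K F b * f / (algebraMap K F a * f) = algebraMap K F (b / a) := by
    rw [mul_div_mul_right _ _ hf, map_div₀]
  rw [e1] at h3
  have hb : b / a ∈ B := (R.algebraMap_mem_iff _).1 h3.mem
  have h4 := h3.unique (R.isRed_algebraMap hb)
  refine ⟨π' ⟨b / a, hb⟩, ?_, ?_⟩
  · intro h0
    rw [h0, map_zero] at h4
    exact div_ne_zero hz2 hz1 h4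
  · rw [← h4, div_mul_cancel₀ _ hz1]

theorem normAlong_const' {K F F' : Type*} [Field K] [Field F] [Field F'] [Algebra K F]
    [Algebra K F'] (φ : F →ₐ[K] F') (a : K) :
    normAlong φ (algebraMap K F' a) = algebraMap K F (a ^ finrankAlong K φ) := by
  let _ := algebraAlong φ
  have := isScalarTower_along φ
  change Algebra.norm F (algebraMap K F' a) = _
  rw [IsScalarTower.algebraMap_apply K F F', Algebra.norm_algebraMap, ← map_pow]
  rfl

theorem ramPos {K F F' : Type*} [Field K] [Field F] [Field F'] [Algebra K F]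
    [Algebra K F'] (φ : F →ₐ[K] F') (hφ : φ.toRingHom.IsIntegral) (W : Place K F') :
    0 < W.ramificationIndexAlong φ := by
  let _ := algebraAlong φ
  have := isScalarTower_along φ
  have := isIntegral_along φ hφ
  exact W.ramificationIndex_pos (F := F)

include hA hπ hs in
/-- **(iii)** places over a node along `α` are balanced. -/
theorem balanced (hM : ¬ q ∣ M) (hMℓ : ¬ q ∣ M * ℓ) {h : modularFunctionFieldFullC k M}
    (hh : (h : LaurentSeries k) * (Igusa.deltaC k) ^ (q - 1) = 1)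
    (h12 : ∀ Q : Place k (modularFunctionFieldFullC k M), 0 ≤ Q.ord (RedQ.xj k M) →
      0 < Q.ord h → Q.ord h = 12)
    (hα : (alphaC k M ℓ).toRingHom.IsIntegral) (hβ : (betaC k M ℓ).toRingHom.IsIntegral)
    (w : Place k (modularFunctionFieldFullC k (M * ℓ)))
    (hw : 0 ≤ (w.restrictAlong (alphaC k M ℓ) hα).ord (RedQ.xj k M))
    (hw' : 0 < (w.restrictAlong (alphaC k M ℓ) hα).ord h) :
    0 ≤ (w.restrictAlong (betaC k M ℓ) hβ).ord (RedQ.xj k M) ∧
    0 < (w.restrictAlong (betaC k M ℓ) hβ).ord h ∧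
    w.ramificationIndexAlong (alphaC k M ℓ) = w.ramificationIndexAlong (betaC k M ℓ) := by
  haveI := charP_of_liesOverPrime (k := k) hA hπ
  haveI : IsAlgClosed k := isAlgClosed_of_surjective hs
  haveI := isFnField_fullC (k := k) (M * ℓ) q hMℓ
  have hpα : (0 : ℤ) < w.ramificationIndexAlong (alphaC k M ℓ) := by
    exact_mod_cast ramPos _ hα w
  have hpβ : (0 : ℤ) < w.ramificationIndexAlong (betaC k M ℓ) := by
    exact_mod_cast ramPos _ hβ w
  have e1 : alphaC k M ℓ (RedQ.xj k M) = RedQ.xj k (M * ℓ) := Subtype.ext (coe_alphaC _ _ _ _)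
  have h1 : 0 ≤ w.ord (RedQ.xj k (M * ℓ)) := by
    rw [← e1, Place.ord_restrictAlong _ hα]
    exact mul_nonneg hpα.le hw
  have h2 : 0 ≤ w.ord (betaC k M ℓ (RedQ.xj k M)) :=
    ord_nonneg_of_mem _ (mem_of_isIntegral w h1 (isIntegral_betaC_xj hA hπ hs hM hMℓ))
  have h3 : 0 ≤ (w.restrictAlong (betaC k M ℓ) hβ).ord (RedQ.xj k M) := by
    rw [Place.ord_restrictAlong _ hβ] at h2
    exact nonneg_of_mul_nonneg_right h2 hpβ
  have h4 := ord_alpha_hasse hA hπ hs hMℓ hh w h1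
  rw [Place.ord_restrictAlong _ hα, Place.ord_restrictAlong _ hβ, h12 _ hw hw'] at h4
  have h5 : 0 < (w.restrictAlong (betaC k M ℓ) hβ).ord h := by
    have h5 : (0 : ℤ) < w.ramificationIndexAlong (betaC k M ℓ) *
        (w.restrictAlong (betaC k M ℓ) hβ).ord h := by
      rw [← h4]
      exact mul_pos hpα (by norm_num)
    exact (mul_pos_iff_of_pos_left hpβ).1 h5
  refine ⟨h3, h5, ?_⟩
  rw [h12 _ h3 h5] at h4
  have h6 : (w.ramificationIndexAlong (alphaC k M ℓ) : ℤ) =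
      w.ramificationIndexAlong (betaC k M ℓ) := by
    have := mul_right_cancel₀ (by norm_num : (12 : ℤ) ≠ 0) h4
    exact this
  exact_mod_cast h6

/-- **[B-HECKE]** slopes at the nodes and Hecke operators. -/
theorem hecke_slope (hM : ¬ q ∣ M) (hMℓ : ¬ q ∣ M * ℓ) (hℓ : ¬ ℓ ∣ M * q)
    {h : modularFunctionFieldFullC k M}
    (hh : (h : LaurentSeries k) * (Igusa.deltaC k) ^ (q - 1) = 1)
    (h12 : ∀ Q : Place k (modularFunctionFieldFullC k M), 0 ≤ Q.ord (RedQ.xj k M) →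
      0 < Q.ord h → Q.ord h = 12)
    {f : FB (M * q)} {a b : Qb} {f1 g1 : modularFunctionFieldFullC k M}
    (h1 : (rInf1 M q hA hπ hs hM).IsRed (algebraMap Qb _ a * f) f1) (hf1 : f1 ≠ 0)
    (h2 : (rInf1 M q hA hπ hs hM).IsRed (algebraMap Qb _ b *
      normAlong (heckeAlphaBar Qb (M * q) ℓ) (heckeBetaBar Qb (M * q) ℓ f)) g1) (hg1 : g1 ≠ 0)
    (n c : ℤ) (hc : ∀ Q : Place k (modularFunctionFieldFullC k M), 0 ≤ Q.ord (RedQ.xj k M) →
      0 < Q.ord h → n ∣ Q.ord f1 - c)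
    (Q : Place k (modularFunctionFieldFullC k M)) (hQ : 0 ≤ Q.ord (RedQ.xj k M))
    (hQ' : 0 < Q.ord h) : n ∣ Q.ord g1 - (ℓ + 1) * c := by
  haveI := charP_of_liesOverPrime (k := k) hA hπ
  haveI : IsAlgClosed k := isAlgClosed_of_surjective hs
  haveI := isFnField_bar (M * q)
  haveI := isFnField_bar (M * q * ℓ)
  haveI := isFnField_fullC (k := k) M q hM
  haveI := isFnField_fullC (k := k) (M * ℓ) q hMℓ
  haveI : HasPrincipalDivisors k (modularFunctionFieldFullC k M) := RR.hasPrincipalDivisors k _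
  haveI : HasPrincipalDivisors k (modularFunctionFieldFullC k (M * ℓ)) :=
    RR.hasPrincipalDivisors k _
  have hℓM : ¬ ℓ ∣ M := fun h => hℓ (h.mul_right q)
  have hα : (alphaC k M ℓ).toRingHom.IsIntegral := JZ.isIntegralAlong _
  have hβ : (betaC k M ℓ).toRingHom.IsIntegral := JZ.isIntegralAlong _
  -- the reduction of the norm
  have h3 := isRed_norm_beta hA hπ hs hM hMℓ h1
  have e1 : normAlong (heckeAlphaBar Qb (M * q) ℓ) (heckeBetaBar Qb (M * q) ℓ
      (algebraMap Qb _ a * f)) = algebraMap Qb _ (a ^ (ℓ + 1)) *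
      normAlong (heckeAlphaBar Qb (M * q) ℓ) (heckeBetaBar Qb (M * q) ℓ f) := by
    rw [map_mul, AlgHom.commutes, map_mul, normAlong_const', finrank_alpha_level hℓ]
  rw [e1] at h3
  have hN0 : normAlong (alphaC k M ℓ) (betaC k M ℓ f1) ≠ 0 :=
    normAlong_ne_zero _ (JZ.finiteAlong _) ((map_ne_zero _).2 hf1)
  obtain ⟨u, hu, hg⟩ := isRed_scal h3 h2 hN0 hg1
  have h4 : Q.ord g1 = Q.ord (normAlong (alphaC k M ℓ) (betaC k M ℓ f1)) := by
    rw [hg, Place.ord_mul _ ((map_ne_zero _).2 hu) hN0, ord_algebraMap, zero_add]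
  have h5 := dvd_ord_normAlong_sub (K := k) (betaC k M ℓ) (alphaC k M ℓ) hβ hα
    (fundamentalIdentityAlong_fn _ _) (JZ.finiteAlong _)
    (normFormulaAlong (alphaC k M ℓ) (JZ.finiteAlong _) (isSeparable_alphaC k M ℓ hMℓ))
    (fun v => RR.deg_eq_one v) (fun v => RR.deg_eq_one v) hf1 n c Q (by
      intro w hw
      obtain ⟨h6, h7, h8⟩ := balanced hA hπ hs hM hMℓ hh h12 hα hβ w (by rw [hw]; exact hQ)
        (by rw [hw]; exact hQ')
      exact ⟨h8, hc _ h6 h7⟩)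
  rw [finrank_alphaC hA hπ hs hM hMℓ hℓM] at h5
  rw [h4]
  push_cast at h5
  exact h5

end Level

end Fermat.Agent.MazurP
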