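import Fermat.Agent.MazurP.Disc
import Fermat.Agent.QVal.LevelOneB
import Fermat.Agent.QComp.RatLift

/-!
# The contraction property of `Phi v = ∏ v(ζ^i q^{1/p})`
-/

set_option autoImplicit false
set_option linter.unusedSectionVars false
set_option linter.style.haveILetI false
set_option linter.unusedVariables false

noncomputable section
open AlgebraicCurve ModularCurve IntermediateField Fermat.Agent.JZ Polynomial Fermat.Agent.Red

namespace Fermat.Agent.MazurP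

open ModFn Fermat.Agent.QVal Fermat.Agent.FF

local notation "Qb" => AlgebraicClosure ℚ
local notation "Γℚ" => (AlgebraicClosure ℚ ≃ₐ[ℚ] AlgebraicClosure ℚ)

section Twist

variable {L k : Type*} [Field L] [Field k] {A : ValuationSubring L} {π : A →+* k}

theorem dvd_zpow_sub_one {R : Type*} [CommRing R] {t : R} {ζ : Rˣ} (ht : t ∣ (ζ : R) - 1)
    (n : ℤ) : t ∣ ((ζ ^ n : Rˣ) : R) - 1 := by
  have key : ∀ m : ℕ, t ∣ ((ζ ^ m : Rˣ) : R) - 1 := by
    intro m
    rw [Units.val_pow_eq_pow_val]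
    exact ht.trans (sub_one_dvd_pow_sub_one _ _)
  cases n with
  | ofNat m => simpa using key m
  | negSucc m =>
    rw [zpow_negSucc]
    have h1 : (((ζ ^ (m + 1))⁻¹ : Rˣ) : R) - 1 =
        -(((ζ ^ (m + 1))⁻¹ : Rˣ) : R) * (((ζ ^ (m + 1) : Rˣ) : R) - 1) := by
      have h2 : (((ζ ^ (m + 1))⁻¹ : Rˣ) : R) * ((ζ ^ (m + 1) : Rˣ) : R) = 1 := Units.inv_mul _
      linear_combination h2
    rw [h1]
    exact Dvd.dvd.mul_left (key _) _

/-- twisting is congruent to the identity -/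
theorem exists_twist_eq {R : Type*} [CommRing R] {t : R} {ζ : Rˣ} (ht : t ∣ (ζ : R) - 1)
    (a : LaurentSeries R) : ∃ a' : LaurentSeries R, twist ζ a = a + HahnSeries.C t * a' := by
  choose c hc using dvd_zpow_sub_one ht
  refine ⟨⟨fun n => c n * a.coeff n, a.isPWO_support.mono fun n hn h0 => hn (by
    simp only [h0, mul_zero])⟩, ?_⟩
  ext n
  rw [twist_coeff, HahnSeries.coeff_add, HahnSeries.C_mul_eq_smul, HahnSeries.coeff_smul,
    smul_eq_mul]
  change _ = a.coeff n + t * (c n * a.coeff n)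
  have h1 := hc n
  linear_combination (a.coeff n) * h1

/-- twists of integral series -/
theorem exists_twist_gauss {t : A} (ht0 : t ≠ 0) (hπt : π t = 0) {ζ : Aˣ}
    (ht : t ∣ (ζ : A) - 1) {f : LaurentSeries L} (hf : f ∈ gaussS π) :
    ∃ g ∈ gaussS π, twist (Units.map A.subtype.toMonoidHom ζ) f =
      f + algebraMap L (LaurentSeries L) (t : L) * g := by
  obtain ⟨z, a, b, hb, h1, h2⟩ := hf
  obtain ⟨a', ha'⟩ := exists_twist_eq ht a
  obtain ⟨b', hb'⟩ := exists_twist_eq ht b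
  have hρ : rhoA π (twist ζ b) = rhoA π b := by
    rw [hb', map_add, map_mul, rhoA, coeffMap_single_zero, hπt, map_zero, zero_mul, add_zero]
  have htL : (t : L) ≠ 0 := by simpa using ht0
  have htL' : algebraMap L (LaurentSeries L) (t : L) ≠ 0 := by simpa using htL
  have hιt : iotaA A (HahnSeries.C t) = algebraMap L (LaurentSeries L) (t : L) := by
    rw [iotaA, coeffMap_single_zero, algebraMap_eq_C]
    rfl
  set τ := twist (Units.map A.subtype.toMonoidHom ζ) f with hτ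
  have h3 : τ * iotaA A (twist ζ b) = iotaA A (twist ζ a) := by
    rw [hτ, iotaA, coeffMap_twist, coeffMap_twist]
    exact (map_mul _ _ _).symm.trans (congrArg _ h1)
  refine ⟨(τ - f) / algebraMap L (LaurentSeries L) (t : L), ?_, ?_⟩
  · refine ⟨rhoA π (a' * b - a * b') / rhoA π (twist ζ b * b), a' * b - a * b', twist ζ b * b,
      ?_, ?_, ?_⟩
    · rw [map_mul, hρ]
      exact mul_ne_zero hb hb
    · have h4 : (τ - f) * iotaA A (twist ζ b * b) =
          algebraMap L (LaurentSeries L) (t : L) * iotaA A (a' * b - a * b') := by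
        have h5 : (τ - f) * iotaA A (twist ζ b * b) =
            (τ * iotaA A (twist ζ b)) * iotaA A b - (f * iotaA A b) * iotaA A (twist ζ b) := by
          rw [map_mul]; ring
        rw [h5, h3, h1, ha', hb', ← hιt, ← map_mul, ← map_mul, ← map_sub, ← map_mul]
        congr 1
        ring
      rw [div_mul_eq_mul_div, h4, mul_div_cancel_left₀ _ htL']
    · refine div_mul_cancel₀ _ ?_
      rw [map_mul, hρ]
      exact mul_ne_zero hb hb
  · rw [mul_div_cancel₀ _ htL']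
    ring

end Twist

section Phi

variable {k : Type*} [Field k] {A : ValuationSubring Qb} {π : A →+* k} {M q : ℕ} [NeZero M]
  [NeZero q] [hqf : Fact q.Prime] {hA : A.LiesOverPrime q} {hπ : ∀ a : A, π a = 0 ↔ ¬ IsUnit a}
  {hs : Function.Surjective π} {hM : ¬ q ∣ M}

theorem algebraMap_mem_gaussS (a : A) : algebraMap Qb (LaurentSeries Qb) a ∈ gaussS π :=
  ⟨_, gRed_algebraMap π a⟩

/-- `t` divides `ζ - 1` for all `q`-th roots of unity -/
def TDvd (q : ℕ) (t : A) : Prop := ∀ ζ : Aˣ, ζ ^ q = 1 → t ∣ (ζ : A) - 1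

theorem exists_twist_root (hA : A.LiesOverPrime q) (hπ : ∀ a : A, π a = 0 ↔ ¬ IsUnit a) {t : A}
    (ht0 : t ≠ 0) (hπt : π t = 0) (ht : TDvd q t) (ζ : RU q) {f : LaurentSeries Qb}
    (hf : f ∈ gaussS π) : ∃ g ∈ gaussS π, twist (ζ : Qbˣ) f =
      f + algebraMap Qb (LaurentSeries Qb) (t : Qb) * g := by
  obtain ⟨ζA, h1, -⟩ := exists_unit_root hA hπ (RU.pow ζ)
  have h2 : ζA ^ q = 1 := by
    apply Units.ext
    apply Subtype.ext
    have h3 := congrArg (fun u : Qbˣ => (u : Qb)) (RU.pow ζ)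
    rw [← h1] at h3
    simpa using h3
  have := exists_twist_gauss (π := π) ht0 hπt (ht ζA h2) hf
  rwa [h1] at this

theorem exists_prod_twist (hA : A.LiesOverPrime q) (hπ : ∀ a : A, π a = 0 ↔ ¬ IsUnit a) {t : A}
    (ht0 : t ≠ 0) (hπt : π t = 0) (ht : TDvd q t) {f : LaurentSeries Qb} (hf : f ∈ gaussS π)
    (s : Finset (RU q)) : ∃ g ∈ gaussS π, ∏ ζ ∈ s, twist (ζ : Qbˣ) f =
      f ^ s.card + algebraMap Qb (LaurentSeries Qb) (t : Qb) * g := by
  classical
  induction s using Finset.induction_on with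
  | empty => exact ⟨0, zero_mem _, by simp⟩
  | insert ζ s hζ ih =>
    obtain ⟨g, hg, h⟩ := ih
    obtain ⟨g', hg', h'⟩ := exists_twist_root hA hπ ht0 hπt ht ζ hf
    refine ⟨f * g + g' * f ^ s.card + algebraMap Qb (LaurentSeries Qb) (t : Qb) * (g' * g),
      add_mem (add_mem (mul_mem hf hg) (mul_mem hg' (pow_mem hf _)))
        (mul_mem (algebraMap_mem_gaussS t) (mul_mem hg' hg)), ?_⟩
    rw [Finset.prod_insert hζ, h, h', Finset.card_insert_of_notMem hζ, pow_succ]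
    ring

variable (hM) in
/-- `Phi v = ∏ v(ζ^i q^{1/p})` -/
def Phi (v : FB (M * q)) : FB (M * q) :=
  al1 M q (normAlong (al1 M q) (w1 hqf.out hM v)) / w1 hqf.out hM v

theorem qExpand_Phi {v : FB (M * q)} (hv : v ≠ 0) :
    qExpand Qb q (Phi hM v : LaurentSeries Qb) =
      ∏ ζ : RU q, twist (ζ : Qbˣ) (v : LaurentSeries Qb) := by
  have h := qExpand_norm_al1 hqf.out hM (w1 hqf.out hM v)
  rw [w1_w1] at h
  have h0 : (w1 hqf.out hM v : LaurentSeries Qb) ≠ 0 := by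
    intro h1
    have h2 : w1 hqf.out hM v = 0 := Subtype.ext h1
    rw [map_eq_zero] at h2
    exact hv h2
  have h0' : qExpand Qb q (w1 hqf.out hM v : LaurentSeries Qb) ≠ 0 := by
    rw [Ne, map_eq_zero]; exact h0
  rw [Phi, IntermediateField.coe_div, map_div₀, coe_al1, h, mul_div_cancel_left₀ _ h0']

theorem Phi_mul (u v : FB (M * q)) : Phi hM (u * v) = Phi hM u * Phi hM v := by
  rw [Phi, Phi, Phi, map_mul, map_mul, map_mul, mul_div_mul_comm]

theorem Phi_ne_zero {v : FB (M * q)} (hv : v ≠ 0) : Phi hM v ≠ 0 := by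
  intro h
  have h1 := qExpand_Phi (hM := hM) hv
  rw [h] at h1
  have h2 : (((0 : FB (M * q)) : FB (M * q)) : LaurentSeries Qb) = 0 := rfl
  rw [h2, map_zero] at h1
  have h3 := Finset.prod_ne_zero_iff.2 (fun (ζ : RU q) (_ : ζ ∈ Finset.univ) =>
    (show twist (ζ : Qbˣ) (v : LaurentSeries Qb) ≠ 0 from fun h4 => hv (Subtype.ext
      (twist_injective _ (h4.trans (map_zero _).symm)))))
  exact h3 h1.symm

theorem Phi_one : Phi hM (1 : FB (M * q)) = 1 := by
  rw [Phi, map_one, map_one, map_one, div_one]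

theorem Phi_inv (v : FB (M * q)) : Phi hM v⁻¹ = (Phi hM v)⁻¹ := by
  rcases eq_or_ne v 0 with rfl | hv
  · rw [inv_zero, Phi, map_zero, div_zero, inv_zero]
  · rw [← mul_eq_one_iff_eq_inv₀ (Phi_ne_zero hv), ← Phi_mul, inv_mul_cancel₀ hv, Phi_one]

theorem Phi_const (c : Qb) (hc : c ≠ 0) :
    Phi hM (algebraMap Qb (FB (M * q)) c) = algebraMap Qb (FB (M * q)) (c ^ q) := by
  apply Subtype.ext
  apply qExpand_injective q
  have hc' : algebraMap Qb (FB (M * q)) c ≠ 0 := by simpa using hc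
  rw [qExpand_Phi hc']
  have h1 : ∀ ζ : RU q, twist (ζ : Qbˣ) ((algebraMap Qb (FB (M * q)) c : FB (M * q)) :
      LaurentSeries Qb) = algebraMap Qb (LaurentSeries Qb) c := by
    intro ζ
    have h2 : ((algebraMap Qb (FB (M * q)) c : FB (M * q)) : LaurentSeries Qb) =
      algebraMap Qb (LaurentSeries Qb) c := rfl
    rw [h2]
    ext n
    rw [twist_coeff, algebraMap_laurentSeries_eq_single, HahnSeries.coeff_single]
    split_ifs with hn
    · rw [hn]; simp
    · simp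
  simp_rw [h1]
  rw [Finset.prod_const, Finset.card_univ, card_RU]
  have h2 : ((algebraMap Qb (FB (M * q)) (c ^ q) : FB (M * q)) : LaurentSeries Qb) =
      algebraMap Qb (LaurentSeries Qb) (c ^ q) := rfl
  rw [h2, qExpand_algebraMap, map_pow]

theorem mem_rInf1_of_qExpand {y : FB (M * q)}
    (h : qExpand Qb q (y : LaurentSeries Qb) ∈ gaussS π) : y ∈ (rInf1 M q hA hπ hs hM).O := by
  obtain ⟨z, hz⟩ := h
  obtain ⟨z', hz', -⟩ := gRed_of_qExpand (gaussFB hA (M * q)) hπ q y.2 hz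
  exact (isRed_rInf1 (z := ⟨z', mem_of_gRed_level1 hA hπ hs hM hz'⟩).2 hz').mem

theorem gaussS_of_mem {y : FB (M * q)} (h : y ∈ (rInf1 M q hA hπ hs hM).O) :
    (y : LaurentSeries Qb) ∈ gaussS π := by
  obtain ⟨z, hz⟩ := (rInf1 M q hA hπ hs hM).exists_isRed_of_mem h
  exact ⟨_, isRed_rInf1.1 hz⟩

theorem qExpand_mem_gaussS {y : LaurentSeries Qb} (h : y ∈ gaussS π) :
    qExpand Qb q y ∈ gaussS π := by
  obtain ⟨z, hz⟩ := h
  exact ⟨_, gRed_qExpand hz q⟩

/-- **contraction** -/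
theorem one_Phi {t : A} (ht0 : t ≠ 0) (hπt : π t = 0) (ht : TDvd q t) {v : FB (M * q)}
    (hv0 : v ≠ 0) (hv : v ∈ (rInf1 M q hA hπ hs hM).O)
    (h1 : One (rInf1 M q hA hπ hs hM) t (v ^ q)) :
    One (rInf1 M q hA hπ hs hM) t (Phi hM v) := by
  have htL' : algebraMap Qb (FB (M * q)) (t : Qb) ≠ 0 := by simpa using ht0
  obtain ⟨g, hg, h2⟩ := exists_prod_twist hA hπ ht0 hπt ht (gaussS_of_mem hv) Finset.univ
  rw [← qExpand_Phi (hM := hM) hv0, Finset.card_univ, card_RU] at h2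
  obtain ⟨y, hy, h3⟩ := h1
  set y' : FB (M * q) := (Phi hM v - 1) / algebraMap Qb (FB (M * q)) (t : Qb) with hy'
  have e1 : ((v : FB (M * q)) : LaurentSeries Qb) ^ q =
      1 + algebraMap Qb (LaurentSeries Qb) (t : Qb) * (y : LaurentSeries Qb) :=
    congrArg Subtype.val h3
  have e2 : qExpand Qb q (y' : LaurentSeries Qb) = (y : LaurentSeries Qb) + g := by
    have e3 : (y' : LaurentSeries Qb) = ((Phi hM v : FB (M * q)) - 1 : LaurentSeries Qb) /
        algebraMap Qb (LaurentSeries Qb) (t : Qb) := by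
      rw [hy', IntermediateField.coe_div]
      rfl
    rw [e3, map_div₀, map_sub, map_one, h2, e1, qExpand_algebraMap]
    have : algebraMap Qb (LaurentSeries Qb) (t : Qb) ≠ 0 := by simpa using ht0
    field_simp
    ring
  refine ⟨y', mem_rInf1_of_qExpand ?_, ?_⟩
  · rw [e2]
    exact add_mem (gaussS_of_mem hy) hg
  · rw [hy', mul_div_cancel₀ _ htL']
    ring

theorem Phi_mem {v : FB (M * q)} (hv0 : v ≠ 0) (hv : v ∈ (rInf1 M q hA hπ hs hM).O) :
    Phi hM v ∈ (rInf1 M q hA hπ hs hM).O := by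
  apply mem_rInf1_of_qExpand
  rw [qExpand_Phi hv0]
  refine prod_mem fun ζ _ => ?_
  obtain ⟨z, hz⟩ := gaussS_of_mem hv
  exact ⟨_, gRed_twist_root hA hπ (RU.pow ζ) hz⟩

theorem Phi_isRed {v : FB (M * q)} {b : modularFunctionFieldFullC k M}
    (hv : (rInf1 M q hA hπ hs hM).IsRed v b) (hb : b ≠ 0) :
    ∃ c : modularFunctionFieldFullC k M, c ≠ 0 ∧ (rInf1 M q hA hπ hs hM).IsRed (Phi hM v) c := by
  have hv0 := hv.ne_zero hb
  have h1 := Phi_mem hv0 hv.mem
  have h2 := Phi_mem (inv_ne_zero hv0) (hv.inv hb).mem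
  rw [Phi_inv] at h2
  obtain ⟨c, hc⟩ := (rInf1 M q hA hπ hs hM).exists_isRed_of_mem h1
  obtain ⟨c', hc'⟩ := (rInf1 M q hA hπ hs hM).exists_isRed_of_mem h2
  refine ⟨c, ?_, hc⟩
  rintro rfl
  have h3 := hc.mul hc'
  rw [mul_inv_cancel₀ (Phi_ne_zero hv0), zero_mul] at h3
  exact one_ne_zero ((rInf1 M q hA hπ hs hM).isRed_one.unique h3)

theorem al1_mem_fixField {U : Subgroup Γℚ} {f : FB M} (hf : f ∈ fixField M U) :
    al1 M q f ∈ fixField (M * q) U := by
  intro σ hσ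
  rw [gal_al1, hf σ hσ]

theorem norm_al1_mem_fixField {U : Subgroup Γℚ} {f : FB (M * q)} (hf : f ∈ fixField (M * q) U) :
    normAlong (al1 M q) f ∈ fixField M U := by
  intro σ hσ
  rw [← norm_al1_gal, hf σ hσ]

theorem Phi_mem_fixField {U : Subgroup Γℚ} {f : FB (M * q)} (hf : f ∈ fixField (M * q) U) :
    Phi hM f ∈ fixField (M * q) U :=
  div_mem (al1_mem_fixField (norm_al1_mem_fixField (w1_mem_fixField (hM := hM) hf)))
    (w1_mem_fixField (hM := hM) hf)

/-- inertia invariant lifts -/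
theorem exists_ifix_lift (b : modularFunctionFieldFullC k M) :
    ∃ φ ∈ QComp.ifixField (M * q) A, (rInf1 M q hA hπ hs hM).IsRed φ b := by
  have hch : CharP k q := charP_of_liesOverPrime hA hπ
  have hx := RedQ.transcendental_xj k M
  haveI hkc : IsAlgClosed k := isAlgClosed_of_surjective hs
  haveI : IsFnField k (modularFunctionFieldFullC k M) := isFnField_fullC (k := k) M q hM
  haveI : FiniteDimensional k⟮RedQ.xj k M⟯ (modularFunctionFieldFullC k M) :=
    IsFnField.finiteDimensional hx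
  obtain ⟨y, hy, hyf⟩ := (GoodRed.isAlgebraic_adjoin (K := k) (x := RedQ.xj k M)
    b).exists_integral_multiple
  have hyi : IsIntegral (Algebra.adjoin k {RedQ.xj k M}) (y : modularFunctionFieldFullC k M) :=
    isIntegral_algebraMap (x := y)
  have hy0 : (y : modularFunctionFieldFullC k M) ≠ 0 := fun h => hy (Subtype.ext h)
  obtain ⟨f, hf, -, -, hfx⟩ := QComp.exists_fixed_lift_jB hA hπ hs hM hyf
  obtain ⟨g, hg, -, -, hgx⟩ := QComp.exists_fixed_lift_jB hA hπ hs hM hyi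
  have h1 : al1 M q f ∈ fixField (M * q) (A.inertiaSubgroupIn ℚ) := al1_mem_fixField hfx
  have h2 : al1 M q g ∈ fixField (M * q) (A.inertiaSubgroupIn ℚ) := al1_mem_fixField hgx
  refine ⟨al1 M q f / al1 M q g, div_mem h1 h2, ?_⟩
  have h3 := (isRed_inf_al1 (q := q) (hM := hM) hf).div (isRed_inf_al1 (q := q) (hM := hM) hg) hy0
  have h4 : (y • b) / (y : modularFunctionFieldFullC k M) = b := by
    rw [Algebra.smul_def]
    exact mul_div_cancel_left₀ _ hy0
  rwa [h4] at h3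

/-- approximation by inertia invariant functions, up to constants -/
theorem exists_approx {U : Subgroup Γℚ} (hUI : U ≤ A.inertiaSubgroupIn ℚ) {u : FB (M * q)}
    (hu : u ∈ fixField (M * q) U) (hu0 : u ≠ 0) :
    ∃ c : Qb, c ≠ 0 ∧ ∃ φ ∈ QComp.ifixField (M * q) A, ∃ b : modularFunctionFieldFullC k M, b ≠ 0 ∧
      (rInf1 M q hA hπ hs hM).IsRed φ b ∧ ∃ e ∈ fixField (M * q) U,
        (rInf1 M q hA hπ hs hM).IsRed e 0 ∧ u = algebraMap Qb (FB (M * q)) c * φ * (1 + e) := by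
  obtain ⟨c, z, hc, hcU, hz, h⟩ := scale_inf1 (hA := hA) (hπ := hπ) (hs := hs) (hM := hM) hu hu0
  obtain ⟨φ, hφ, hφz⟩ := exists_ifix_lift (hA := hA) (hπ := hπ) (hs := hs) (hM := hM) z
  have hφ0 : φ ≠ 0 := hφz.ne_zero hz
  have hc' : algebraMap Qb (FB (M * q)) c ≠ 0 := by simpa using hc
  have hφU : φ ∈ fixField (M * q) U := fixField_anti hUI hφ
  refine ⟨c⁻¹, inv_ne_zero hc, φ, hφ, z, hz, hφz,
    algebraMap Qb (FB (M * q)) c * u / φ - 1, ?_, ?_, ?_⟩
  · exact sub_mem (div_mem (mul_mem (algebraMap_mem_fixField.2 hcU) hu) hφU) (one_mem _)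
  · have h1 := (h.div hφz hz).sub (rInf1 M q hA hπ hs hM).isRed_one
    rwa [div_self hz, sub_self] at h1
  · rw [add_sub_cancel, map_inv₀]
    field_simp

theorem al1_norm_eq {f : FB (M * q)} (hf : f ≠ 0) :
    al1 M q (normAlong (al1 M q) f) = f * Phi hM (w1 hqf.out hM f) := by
  rw [Phi, w1_w1, mul_div_cancel₀ _ hf]

/-- **the contraction theorem** -/
theorem contract {t : A} (ht0 : t ≠ 0) (hπt : π t = 0) (ht : TDvd q t) (htq : t ∣ (q : A))
    {U : Subgroup Γℚ} (hUI : U ≤ A.inertiaSubgroupIn ℚ)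
    (hU : ∀ e ∈ fixField (M * q) U, (rInf1 M q hA hπ hs hM).IsRed e 0 →
      ∃ y ∈ (rInf1 M q hA hπ hs hM).O, e ^ q = algebraMap Qb (FB (M * q)) t * y)
    {f : FB (M * q)} (hf : f ∈ fixField (M * q) U) (hf0 : f ≠ 0) {c : Qb} (hc : c ≠ 0) {g : FB M}
    (hg : g ∈ fixField M U)
    (h : normAlong (al1 M q) f = algebraMap Qb (FB M) c * g ^ q) :
    ∃ C : Qb, C ≠ 0 ∧ ∃ G ∈ QComp.ifixField (M * q) A, ∃ γ : modularFunctionFieldFullC k M,
      γ ≠ 0 ∧ (rInf1 M q hA hπ hs hM).IsRed G γ ∧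
        One (rInf1 M q hA hπ hs hM) t (f / (algebraMap Qb (FB (M * q)) C * G)) := by
  have hN0 : al1 M q (normAlong (al1 M q) f) ≠ 0 := by
    rw [al1_norm_eq (hM := hM) hf0]
    exact mul_ne_zero hf0 (Phi_ne_zero (by rw [Ne, map_eq_zero]; exact hf0))
  have hg0 : g ≠ 0 := by
    rintro rfl
    rw [h, zero_pow hqf.out.ne_zero, mul_zero, map_zero] at hN0
    exact hN0 rfl
  have hw0 : w1 hqf.out hM f ≠ 0 := by rw [Ne, map_eq_zero]; exact hf0
  obtain ⟨c₁, hc₁, φ₁, hφ₁, b₁, hb₁, hφb₁, e₁, he₁U, he₁, h1⟩ := exists_approx (hA := hA)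
    (hπ := hπ) (hs := hs) (hM := hM) hUI (al1_mem_fixField (q := q) hg)
    (by rw [Ne, map_eq_zero]; exact hg0)
  obtain ⟨c₂, hc₂, φ₂, hφ₂, b₂, hb₂, hφb₂, e₂, he₂U, he₂, h2⟩ := exists_approx (hA := hA)
    (hπ := hπ) (hs := hs) (hM := hM) hUI (w1_mem_fixField (hM := hM) hf) hw0
  obtain ⟨b₃, hb₃, h3⟩ := Phi_isRed (hA := hA) (hπ := hπ) (hs := hs) (hM := hM) hφb₂ hb₂
  have hφ₁0 := hφb₁.ne_zero hb₁
  have hφ₂0 := hφb₂.ne_zero hb₂
  have o1 := one_pth_pow hqf.out htq he₁.mem (hU e₁ he₁U he₁)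
  have o2 := one_pth_pow hqf.out htq he₂.mem (hU e₂ he₂U he₂)
  have hv₂ : (rInf1 M q hA hπ hs hM).IsRed (1 + e₂) 1 := by
    have := (rInf1 M q hA hπ hs hM).isRed_one.add he₂
    rwa [add_zero] at this
  have hv₁ : (rInf1 M q hA hπ hs hM).IsRed (1 + e₁) 1 := by
    have := (rInf1 M q hA hπ hs hM).isRed_one.add he₁
    rwa [add_zero] at this
  have hv₂0 := hv₂.ne_zero one_ne_zero
  have hv₁0 := hv₁.ne_zero one_ne_zero
  have o3 := one_Phi (hM := hM) ht0 hπt ht hv₂0 hv₂.mem o2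
  have hPφ := Phi_ne_zero (hM := hM) hφ₂0
  have hPv := Phi_ne_zero (hM := hM) hv₂0
  refine ⟨c * c₁ ^ q / c₂ ^ q, div_ne_zero (mul_ne_zero hc (pow_ne_zero _ hc₁))
    (pow_ne_zero _ hc₂), φ₁ ^ q / Phi hM φ₂, ?_, b₁ ^ q / b₃,
    div_ne_zero (pow_ne_zero _ hb₁) hb₃, (hφb₁.pow q).div h3 hb₃, ?_⟩
  · exact div_mem (pow_mem hφ₁ _) (Phi_mem_fixField (hM := hM) hφ₂)
  · have h4 := al1_norm_eq (hM := hM) hf0
    rw [h, map_mul, map_pow, AlgHom.commutes, h1, h2, Phi_mul, Phi_mul, Phi_const _ hc₂] at h4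
    have hcc : algebraMap Qb (FB (M * q)) c ≠ 0 := by simpa using hc
    have hcc₁ : algebraMap Qb (FB (M * q)) c₁ ≠ 0 := by simpa using hc₁
    have hcc₂ : algebraMap Qb (FB (M * q)) c₂ ≠ 0 := by simpa using hc₂
    have h5 : f / (algebraMap Qb (FB (M * q)) (c * c₁ ^ q / c₂ ^ q) * (φ₁ ^ q / Phi hM φ₂)) =
        (1 + e₁) ^ q / Phi hM (1 + e₂) := by
      rw [map_div₀, map_mul, map_pow, map_pow]
      rw [map_pow, mul_pow, mul_pow] at h4
      field_simp
      linear_combination (-1 : FB (M * q)) * h4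
    rw [h5]
    exact o1.div o3 hπt

end Phi

end Fermat.Agent.MazurP
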