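import Fermat.Agent.MazurP.Tube2

/-!
# Tubes over nodes: the main theorem
-/

set_option autoImplicit false
set_option linter.unusedSectionVars false

open AlgebraicCurve

namespace Fermat.Agent.MazurP

open Fermat.Agent.FF Fermat.Agent.Red

variable {K k : Type*} [Field K] [Field k] {A : ValuationSubring K} {π : A →+* k}
  {F κ₁ κ₂ : Type*} [Field F] [Algebra K F] [Field κ₁] [Algebra k κ₁] [Field κ₂] [Algebra k κ₂]
  {R₁ : ConstRed A π F κ₁} {R₂ : ConstRed A π F κ₂} {Q₁ : Place k κ₁} {Q₂ : Place k κ₂}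
  {T : Set (Place K F)}

variable [IsAlgClosed K] [IsFnField K F] [IsAlgClosed k] [IsFnField k κ₁] [IsFnField k κ₂]

theorem isRed_zpow {κ : Type*} [Field κ] [Algebra k κ] {R : ConstRed A π F κ} {y : F} {b : κ}
    (hy : R.IsRed y b) (hb : b ≠ 0) (n : ℤ) : R.IsRed (y ^ n) (b ^ n) := by
  cases n with
  | ofNat n => simpa using hy.pow n
  | negSucc n =>
    rw [zpow_negSucc, zpow_negSucc]
    exact (hy.pow (n + 1)).inv (pow_ne_zero _ hb)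

theorem exists_of_div_mem {κ : Type*} [Field κ] [Algebra k κ] {R : ConstRed A π F κ} {ϖ t : A}
    (hϖ : ϖ ≠ 0) (ht : t ∣ ϖ) {g : F} (hg : g / algebraMap K F ϖ ∈ R.O) :
    ∃ y ∈ R.O, g = algebraMap K F t * y := by
  obtain ⟨c, hc⟩ := ht
  refine ⟨algebraMap K F c * (g / algebraMap K F ϖ), mul_mem ((R.algebraMap_mem_iff _).2 c.2) hg,
    ?_⟩
  have h1 : algebraMap K F ϖ ≠ 0 := by simpa using hϖ
  have h2 : algebraMap K F ϖ = algebraMap K F t * algebraMap K F c := by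
    rw [← map_mul]
    exact congrArg _ (congrArg Subtype.val hc)
  rw [← mul_assoc, ← h2, mul_div_cancel₀ _ h1]

/-- if `t` does not divide `x` in a valuation ring, then `t / x` is in the maximal ideal -/
theorem exists_eq_mul_of_not_dvd {t x : A} (ht : t ≠ 0) (h : ¬ t ∣ x)
    (hπ : ∀ a : A, π a = 0 ↔ ¬ IsUnit a) :
    x ≠ 0 ∧ ∃ s : A, π s = 0 ∧ t = x * s := by
  have hx : x ≠ 0 := by
    rintro rfl
    exact h (dvd_zero _)
  have hx' : (x : K) ≠ 0 := by simpa using hx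
  have ht' : (t : K) ≠ 0 := by simpa using ht
  refine ⟨hx, ?_⟩
  rcases A.mem_or_inv_mem ((t : K) / (x : K)) with h1 | h1
  · refine ⟨⟨(t : K) / (x : K), h1⟩, ?_, Subtype.ext ?_⟩
    · rw [hπ]
      intro hu
      obtain ⟨v, hv⟩ := hu.exists_right_inv
      apply h
      refine ⟨v, Subtype.ext ?_⟩
      have hv' : (t : K) / (x : K) * v = 1 := congrArg Subtype.val hv
      change (x : K) = t * v
      field_simp at hv'
      exact hv'.symm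
    · change (t : K) = x * ((t : K) / (x : K))
      field_simp
  · exfalso
    apply h
    refine ⟨⟨_, h1⟩, Subtype.ext ?_⟩
    change (x : K) = t * ((t : K) / (x : K))⁻¹
    field_simp

/-- scaling a `1 + m` element fixed by the small group -/
theorem one_pow_of_isRed {κ : Type*} [Field κ] [Algebra k κ] {R : ConstRed A π F κ} {p : ℕ}
    (hp : p.Prime) {t : A} (hpt : t ∣ (p : A)) {E : Subfield F}
    (hE : ∀ e ∈ E, R.IsRed e 0 → ∃ y ∈ R.O, e ^ p = algebraMap K F t * y) {x : F} (hx : x ∈ E)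
    (h : R.IsRed x 1) : One R t (x ^ p) := by
  have h1 : R.IsRed (x - 1) 0 := by
    have := h.sub R.isRed_one
    rwa [sub_self] at this
  have h2 := one_pth_pow (R := R) hp hpt h1.mem (hE _ (sub_mem hx (one_mem _)) h1)
  rwa [add_sub_cancel] at h2

namespace TubeData

variable {F₀ : Subfield F} {ϖ : A} (D : TubeData R₁ R₂ Q₁ Q₂ T F₀ ϖ)

include D

/-- the comparison of the two sides of the tube -/
theorem compare {t : A} (ht : π t = 0) (ht0 : t ≠ 0) (htϖ : t ∣ ϖ) {u Γ₁ Γ₂ : F} {l : A}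
    (hu : u ∈ locRing R₁ R₂ T) (hΓ₁ : Γ₁ ∈ F₀) (hΓ₂ : Γ₂ ∈ F₀)
    {γ₂ : κ₂} (h2 : R₂.IsRed Γ₂ γ₂) (hγ₂ : γ₂ ≠ 0) (hγ₂' : Q₂.ord γ₂ = 0)
    (hu1 : ∃ y ∈ R₁.O, u = Γ₁ + algebraMap K F t * y)
    (hu2 : ∃ y ∈ R₂.O, u = algebraMap K F l * Γ₂ + algebraMap K F t * y) :
    ∃ l₀ : A, algebraMap K F l₀ ∈ F₀ ∧ t ∣ l - l₀ := by
  obtain ⟨y₁, hy₁, e1⟩ := hu1
  obtain ⟨y₂, hy₂, e2⟩ := hu2
  obtain ⟨c, hc1, hc2, -⟩ := D.glue u hu
  obtain ⟨g₀, hg₀F, hg₀, hg₀1, hg₀2⟩ := D.lift _ _ c hc1 hc2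
  obtain ⟨l₀, hl₀, hl₀F⟩ := D.const (π l)
  refine ⟨l₀, hl₀F, ?_⟩
  by_contra hnd
  obtain ⟨hx0, s, hs, hts⟩ := exists_eq_mul_of_not_dvd ht0 hnd R₁.pi_eq_zero_iff
  have ht1 : ∀ y ∈ R₁.O, R₁.IsRed (algebraMap K F t * y) 0 := by
    intro y hy
    have := (R₁.isRed_coe t).mul (R₁.isRed_rd hy)
    rwa [ht, map_zero, zero_mul] at this
  have ht2 : ∀ y ∈ R₂.O, R₂.IsRed (algebraMap K F t * y) 0 := by
    intro y hy
    have := (R₂.isRed_coe t).mul (R₂.isRed_rd hy)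
    rwa [ht, map_zero, zero_mul] at this
  -- first component
  have h3 : R₁.IsRed (Γ₁ - g₀) 0 := by
    have h4 := (R₁.isRed_rd hu.1).sub hg₀1
    rw [sub_self] at h4
    have h5 := h4.sub (ht1 y₁ hy₁)
    rw [sub_zero] at h5
    convert h5 using 1
    rw [e1]; ring
  obtain ⟨r₁, hr₁, e3⟩ := exists_of_div_mem D.lev.ne htϖ (D.lev.unif1 _ (sub_mem hΓ₁ hg₀F) h3)
  -- second component
  have h4 : R₂.IsRed (algebraMap K F l₀ * Γ₂ - g₀) 0 := by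
    have h5 := (R₂.isRed_rd hu.2.1).sub hg₀2
    rw [sub_self] at h5
    have h6 := (h5.sub (ht2 y₂ hy₂)).sub ((((R₂.isRed_coe l)).sub (R₂.isRed_coe l₀)).mul h2)
    rw [hl₀, sub_self (algebraMap k κ₂ (π l)), zero_mul, sub_zero, sub_zero] at h6
    convert h6 using 1
    rw [e2]; ring
  obtain ⟨r₂, hr₂, e4⟩ := exists_of_div_mem D.lev.ne htϖ
    (D.lev.unif2 _ (sub_mem (mul_mem hl₀F hΓ₂) hg₀F) h4)
  -- the function which contradicts the gluing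
  have hx : algebraMap K F (l - l₀ : A) ≠ 0 := by
    rw [Ne, map_eq_zero]
    exact fun h => hx0 (Subtype.ext h)
  have hts' : algebraMap K F t = algebraMap K F (l - l₀ : A) * algebraMap K F s := by
    rw [← map_mul]
    exact congrArg _ (congrArg Subtype.val hts)
  set u' := (u - g₀) / algebraMap K F (l - l₀ : A) with hu'
  have h5 : u' = algebraMap K F s * (y₁ + r₁) := by
    rw [hu', e1, div_eq_iff hx]
    have : Γ₁ + algebraMap K F t * y₁ - g₀ = algebraMap K F t * (y₁ + r₁) := by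
      rw [mul_add, ← e3]; ring
    rw [this, hts']; ring
  have h6 : u' = Γ₂ + algebraMap K F s * (y₂ + r₂) := by
    rw [hu', e2, div_eq_iff hx]
    have e5 : algebraMap K F l * Γ₂ + algebraMap K F t * y₂ - g₀ =
        algebraMap K F (l - l₀ : A) * Γ₂ + algebraMap K F t * (y₂ + r₂) := by
      have e6 : algebraMap K F (l - l₀ : A) = algebraMap K F l - algebraMap K F l₀ := by
        rw [← map_sub]; rfl
      rw [mul_add, ← e4, e6]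
      ring
    rw [e5, hts']; ring
  have h7 : R₁.IsRed u' 0 := by
    have := (R₁.isRed_coe s).mul (R₁.isRed_rd (add_mem hy₁ hr₁))
    rw [hs, map_zero, zero_mul] at this
    rwa [h5]
  have h8 : R₂.IsRed u' γ₂ := by
    have := h2.add ((R₂.isRed_coe s).mul (R₂.isRed_rd (add_mem hy₂ hr₂)))
    rw [hs, map_zero, zero_mul, add_zero] at this
    rwa [h6]
  have h9 : u' ∈ locRing R₁ R₂ T := by
    refine ⟨h7.mem, h8.mem, fun P hP => ?_⟩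
    rw [hu', div_eq_mul_inv, ← map_inv₀]
    exact mul_mem ((sub_mem hu hg₀).2.2 P hP) (P.algebraMap_mem' _)
  have := D.ord_pos_of_isRed_zero h9 h7 h8 hγ₂
  omega

/-- **(T5)** functions on the tube whose divisor is divisible by `p`, and which are approximated
on both sides by rational functions up to constants. -/
theorem main {z : F} (hz : Param R₁ R₂ Q₁ Q₂ T ϖ z) (hz₀ : z ∈ F₀) {p : ℕ} (hp : p.Prime) {t : A}
    (ht : π t = 0) (ht0 : t ≠ 0) (hpt : t ∣ (p : A)) (htϖ : t ∣ ϖ) {E : Subfield F} (hE : F₀ ≤ E)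
    (hE1 : ∀ e ∈ E, R₁.IsRed e 0 → ∃ y ∈ R₁.O, e ^ p = algebraMap K F t * y)
    (hE2 : ∀ e ∈ E, R₂.IsRed e 0 → ∃ y ∈ R₂.O, e ^ p = algebraMap K F t * y)
    {f : F} {m : Place K F → ℤ} (hdiv : ∀ P ∈ T, P.ord f = p * m P)
    {h : F} (hh0 : h ≠ 0) (hhE : h ∈ E) (hh : ∀ P ∈ T, P.ord h = m P) {d : ℤ}
    (hh1 : R₁.IsRed (h / z ^ d) 1) {a : K} (ha : a ≠ 0) (haE : algebraMap K F a ∈ E)
    (hh2 : R₂.IsRed (h / algebraMap K F a) 1)
    {C₁ C₂ : K} (hC₁ : C₁ ≠ 0) (hC₂ : C₂ ≠ 0) {G₁ G₂ : F} (hG₁ : G₁ ∈ F₀) (hG₂ : G₂ ∈ F₀)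
    {γ₁ : κ₁} {γ₂ : κ₂} (hγ₁ : R₁.IsRed G₁ γ₁) (hγ₁0 : γ₁ ≠ 0) (hγ₂ : R₂.IsRed G₂ γ₂)
    (hγ₂0 : γ₂ ≠ 0) (hf1 : One R₁ t (f / (algebraMap K F C₁ * G₁)))
    (hf2 : One R₂ t (f / (algebraMap K F C₂ * G₂))) :
    Q₁.ord γ₁ + Q₂.ord γ₂ = p * d ∧ ∃ η α : A, IsUnit η ∧ algebraMap K F η ∈ F₀ ∧
      C₂ / C₁ = a ^ p * (ϖ : K) ^ (- Q₂.ord γ₂) * η * (1 + t * α) := by
  have hϖ := D.lev.red
  obtain ⟨z₁, hz1, hz1o⟩ := hz.red1
  obtain ⟨y₂, hy2, hy2o⟩ := hz.red2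
  have hz10 : z₁ ≠ 0 := ne_zero_of_ord_eq_one hz1o
  have hy20 : y₂ ≠ 0 := ne_zero_of_ord_eq_one hy2o
  have hz0 := hz.ne_zero
  have hϖ0 := hz.ϖ_ne
  have hϖK : (ϖ : K) ≠ 0 := by simpa using D.lev.ne
  have hC₁' : algebraMap K F C₁ ≠ 0 := by simpa using hC₁
  have hC₂' : algebraMap K F C₂ ≠ 0 := by simpa using hC₂
  have ha' : algebraMap K F a ≠ 0 := by simpa using ha
  have hG₁0 := hγ₁.ne_zero hγ₁0
  have hG₂0 := hγ₂.ne_zero hγ₂0
  have hf0 : f ≠ 0 := by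
    rintro rfl
    rw [zero_div] at hf1
    exact zero_ne_one ((hf1.isRed ht).unique R₁.isRed_zero).symm
  set n₁ := Q₁.ord γ₁ with hn₁
  set n₂ := Q₂.ord γ₂ with hn₂
  set e : ℤ := n₁ - p * d with he
  set u := f / (algebraMap K F C₁ * h ^ p) * z ^ (-e) with hu
  have hzd : z ^ d ≠ 0 := zpow_ne_zero _ hz0
  have hE1' := hE hz₀
  -- the first side
  have hp1 : One R₁ t ((h / z ^ d) ^ p) := one_pow_of_isRed hp hpt hE1
    (div_mem hhE (zpow_mem hE1' _)) hh1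
  have hp2 : One R₂ t ((h / algebraMap K F a) ^ p) := one_pow_of_isRed hp hpt hE2
    (div_mem hhE haE) hh2
  have hu1 : u = G₁ * z ^ (-n₁) * (f / (algebraMap K F C₁ * G₁) / (h / z ^ d) ^ p) := by
    have e1 : z ^ (-e) = z ^ (-n₁) * (z ^ d) ^ p := by
      rw [← zpow_natCast (z ^ d) p, ← zpow_mul, ← zpow_add₀ hz0]
      congr 1
      rw [he]; ring
    rw [hu, e1, div_pow]
    field_simp
  have hΓ₁ : R₁.IsRed (G₁ * z ^ (-n₁)) (γ₁ * z₁ ^ (-n₁)) := hγ₁.mul (isRed_zpow hz1 hz10 _)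
  have hΓ₁0 : γ₁ * z₁ ^ (-n₁) ≠ 0 := mul_ne_zero hγ₁0 (zpow_ne_zero _ hz10)
  have hone1 : One R₁ t (f / (algebraMap K F C₁ * G₁) / (h / z ^ d) ^ p) := hf1.div hp1 ht
  have hur1 : R₁.IsRed u (γ₁ * z₁ ^ (-n₁)) := by
    rw [hu1]
    simpa using hΓ₁.mul (hone1.isRed ht)
  have hur1o : Q₁.ord (γ₁ * z₁ ^ (-n₁)) = 0 := by
    rw [Q₁.ord_mul hγ₁0 (zpow_ne_zero _ hz10), Q₁.ord_zpow, hz1o]
    ring
  have hu0 : u ≠ 0 := hur1.ne_zero hΓ₁0
  have huT : ∀ P ∈ T, P.ord u = 0 := by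
    intro P hP
    rw [hu, div_eq_mul_inv, P.ord_mul (mul_ne_zero hf0 (inv_ne_zero (mul_ne_zero hC₁'
      (pow_ne_zero _ hh0)))) (zpow_ne_zero _ hz0), P.ord_mul hf0 (inv_ne_zero (mul_ne_zero hC₁'
      (pow_ne_zero _ hh0))), P.ord_inv, P.ord_mul hC₁' (pow_ne_zero _ hh0), ord_algebraMap,
      ord_pow, P.ord_zpow, hz.ord_eq_zero hP, hh P hP, hdiv P hP]
    ring
  obtain ⟨huL, huL'⟩ := D.unit hu0 huT hur1 hΓ₁0 hur1o
  -- the second side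
  set lK : K := C₂ / C₁ * (a ^ p)⁻¹ * (ϖ : K) ^ (-e) with hlK
  have hlK0 : lK ≠ 0 := by
    rw [hlK]
    exact mul_ne_zero (mul_ne_zero (div_ne_zero hC₂ hC₁) (inv_ne_zero (pow_ne_zero _ ha)))
      (zpow_ne_zero _ hϖK)
  set Γ₂ := G₂ * (algebraMap K F ϖ / z) ^ e with hΓ₂
  have hΓ₂r : R₂.IsRed Γ₂ (γ₂ * y₂ ^ e) := hγ₂.mul (isRed_zpow hy2 hy20 _)
  have hΓ₂0 : γ₂ * y₂ ^ e ≠ 0 := mul_ne_zero hγ₂0 (zpow_ne_zero _ hy20)
  have hone2 : One R₂ t (f / (algebraMap K F C₂ * G₂) / (h / algebraMap K F a) ^ p) :=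
    hf2.div hp2 ht
  have hu2 : u = algebraMap K F lK * Γ₂ *
      (f / (algebraMap K F C₂ * G₂) / (h / algebraMap K F a) ^ p) := by
    rw [hu, hlK, hΓ₂, map_mul, map_mul, map_div₀, map_inv₀, map_pow, map_zpow₀, div_zpow,
      zpow_neg, zpow_neg, div_pow]
    have h1 : z ^ e ≠ 0 := zpow_ne_zero _ hz0
    have h2 : (algebraMap K F ϖ) ^ e ≠ 0 := zpow_ne_zero _ hϖ0
    field_simp
  have hΓ₂ne := hΓ₂r.ne_zero hΓ₂0
  have hone2r := hone2.isRed ht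
  have hv := hΓ₂r.mul hone2r
  rw [mul_one] at hv
  have hv0 := hv.ne_zero hΓ₂0
  have hlA : lK ∈ A := by
    rw [← R₂.algebraMap_mem_iff]
    have h1 := mul_mem huL.2.1 (hv.inv hΓ₂0).mem
    have e1 : u * (Γ₂ * (f / (algebraMap K F C₂ * G₂) / (h / algebraMap K F a) ^ p))⁻¹ =
        algebraMap K F lK := by
      rw [hu2, mul_assoc (algebraMap K F lK), mul_assoc, mul_inv_cancel₀ hv0, mul_one]
    rwa [e1] at h1
  have hlA' : lK⁻¹ ∈ A := by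
    rw [← R₂.algebraMap_mem_iff]
    have h1 := mul_mem huL'.2.1 hv.mem
    have e1 : u⁻¹ * (Γ₂ * (f / (algebraMap K F C₂ * G₂) / (h / algebraMap K F a) ^ p)) =
        algebraMap K F lK⁻¹ := by
      have h2 : algebraMap K F lK ≠ 0 := by simpa using hlK0
      rw [hu2, mul_assoc (algebraMap K F lK), mul_inv, mul_assoc, inv_mul_cancel₀ hv0, mul_one,
        map_inv₀]
    rwa [e1] at h1
  have hlu : IsUnit (⟨lK, hlA⟩ : A) :=
    IsUnit.of_mul_eq_one ⟨_, hlA'⟩ (Subtype.ext (mul_inv_cancel₀ hlK0))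
  -- order on the second side
  have hur2 : R₂.IsRed u (algebraMap k κ₂ (π ⟨lK, hlA⟩) * (γ₂ * y₂ ^ e)) := by
    rw [hu2, mul_assoc]
    exact (R₂.isRed_algebraMap hlA).mul hv
  have hπl : π ⟨lK, hlA⟩ ≠ 0 := by
    rw [Ne, R₂.pi_eq_zero_iff, not_not]
    exact hlu
  have hπl' : algebraMap k κ₂ (π ⟨lK, hlA⟩) ≠ 0 := by simpa using hπl
  have ho2 : Q₂.ord (γ₂ * y₂ ^ e) = n₂ + e := by
    rw [Q₂.ord_mul hγ₂0 (zpow_ne_zero _ hy20), Q₂.ord_zpow, hy2o]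
    ring
  have hne : n₂ + e = 0 := by
    obtain ⟨c, hc1, hc2, -⟩ := D.glue u huL
    rw [hur1.rd_eq] at hc1
    rw [hur2.rd_eq] at hc2
    have hc0 : c ≠ 0 := (hasVal_ne_zero_iff hc1).2 ⟨hΓ₁0, hur1o⟩
    have h1 := hc2.ord_eq_zero hc0
    rw [Q₂.ord_mul hπl' hΓ₂0, ord_algebraMap, ho2, zero_add] at h1
    exact h1
  refine ⟨by omega, ?_⟩
  -- the comparison
  obtain ⟨y₁', hy₁', e1⟩ := hone1
  obtain ⟨y₂', hy₂', e2⟩ := hone2
  obtain ⟨l₀, hl₀F, hl₀⟩ := D.compare (l := ⟨lK, hlA⟩) ht ht0 htϖ huL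
    (mul_mem hG₁ (zpow_mem hz₀ _)) (mul_mem hG₂ (zpow_mem (div_mem D.lev.mem hz₀) _))
    hΓ₂r hΓ₂0 (by rw [ho2, hne])
    ⟨G₁ * z ^ (-n₁) * y₁', mul_mem hΓ₁.mem hy₁', by rw [hu1, e1]; ring⟩
    ⟨algebraMap K F lK * Γ₂ * y₂', mul_mem (mul_mem ((R₂.algebraMap_mem_iff _).2 hlA) hΓ₂r.mem)
      hy₂', by rw [hu2, e2]; ring⟩
  obtain ⟨b, hb⟩ := hl₀
  have hl₀u : IsUnit l₀ := by
    have h1 : π l₀ = π ⟨lK, hlA⟩ := by
      have h2 := congrArg π hb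
      rw [map_sub, map_mul, ht, zero_mul, sub_eq_zero] at h2
      exact h2.symm
    by_contra h2
    rw [← R₂.pi_eq_zero_iff, h1] at h2
    exact hπl h2
  obtain ⟨v, hv'⟩ := hl₀u.exists_right_inv
  have hb' : lK - l₀ = t * b := congrArg Subtype.val hb
  have hv'' : (l₀ : K) * v = 1 := congrArg Subtype.val hv'
  refine ⟨l₀, v * b, hl₀u, hl₀F, ?_⟩
  have h1 : lK = l₀ * (1 + t * (v * b)) := by
    have : lK = l₀ + t * b := by rw [← hb']; ring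
    rw [this]
    linear_combination (-(t : K) * b) * hv''
  have h2 : C₂ / C₁ = a ^ p * (ϖ : K) ^ e * lK := by
    rw [hlK, zpow_neg]
    have h3 : (ϖ : K) ^ e ≠ 0 := zpow_ne_zero _ hϖK
    field_simp
  rw [h2, h1, show -n₂ = e by omega]
  push_cast
  ring

end TubeData

end Fermat.Agent.MazurP
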