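import Fermat.Agent.QComp.DivDescent2
import Fermat.Agent.QVal.Value
import Fermat.Agent.CFT.GalLevels
import Fermat.Agent.MazurP.Tube3

/-!
# Functions fixed by subgroups of finite index of inertia

The value groups of the fixed fields of subgroups of finite index of the inertia group, and the
reductions of functions fixed by such a subgroup.
-/

set_option autoImplicit false
set_option linter.unusedSectionVars false
set_option linter.style.haveILetI false
set_option linter.unusedVariables false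

noncomputable section
open AlgebraicCurve ModularCurve IntermediateField Fermat.Agent.JZ Polynomial Fermat.Agent.Red

namespace Fermat.Agent.MazurP

open ModFn Fermat.Agent.QVal

local notation "Qb" => AlgebraicClosure ℚ
local notation "Γℚ" => (AlgebraicClosure ℚ ≃ₐ[ℚ] AlgebraicClosure ℚ)

section Val

variable {L : Type*} [Field L] (A : ValuationSubring L)

theorem mem_of_pow_mem {x : L} {n : ℕ} (hn : n ≠ 0) (h : x ^ n ∈ A) : x ∈ A := by
  rcases A.mem_or_inv_mem x with h1 | h1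
  · exact h1
  · by_cases hx : x = 0
    · rw [hx]; exact A.zero_mem
    obtain ⟨m, rfl⟩ := Nat.exists_eq_succ_of_ne_zero hn
    have h2 : x = x ^ (m + 1) * x⁻¹ ^ m := by
      rw [pow_succ, inv_pow]
      field_simp
    rw [h2]
    exact A.mul_mem _ _ h (pow_mem h1 m)

/-- units of a valuation ring -/
def AU (x : L) : Prop := x ∈ A ∧ x⁻¹ ∈ A

variable {A}

theorem AU.mul {x y : L} (hx : AU A x) (hy : AU A y) : AU A (x * y) :=
  ⟨A.mul_mem _ _ hx.1 hy.1, by rw [mul_inv]; exact A.mul_mem _ _ hx.2 hy.2⟩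

theorem AU.inv {x : L} (hx : AU A x) : AU A x⁻¹ := ⟨hx.2, by rw [inv_inv]; exact hx.1⟩

theorem AU.pow {x : L} (hx : AU A x) (n : ℕ) : AU A (x ^ n) :=
  ⟨pow_mem hx.1 n, by rw [← inv_pow]; exact pow_mem hx.2 n⟩

theorem AU.div {x y : L} (hx : AU A x) (hy : AU A y) : AU A (x / y) := by
  rw [div_eq_mul_inv]; exact hx.mul hy.inv

theorem AU.one : AU A (1 : L) := ⟨one_mem A, by rw [inv_one]; exact one_mem A⟩

theorem AU.prod {ι : Type*} {s : Finset ι} {f : ι → L} (h : ∀ i ∈ s, AU A (f i)) :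
    AU A (∏ i ∈ s, f i) := by
  classical
  induction s using Finset.induction_on with
  | empty => simpa using AU.one
  | insert i s his ih =>
    rw [Finset.prod_insert his]
    exact (h i (Finset.mem_insert_self _ _)).mul
      (ih fun j hj => h j (Finset.mem_insert_of_mem hj))

end Val

section Fix

variable {A : ValuationSubring Qb} {q : ℕ} [hqf : Fact q.Prime]

theorem mem_decomp_of_inertia {σ : Γℚ} (hσ : σ ∈ A.inertiaSubgroupIn ℚ) :
    σ ∈ A.decompositionSubgroup ℚ := by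
  obtain ⟨g, -, rfl⟩ := hσ
  exact g.2

/-- the norm to the fixed field of inertia -/
theorem exists_zpow_of_finiteIndex (hA : A.LiesOverPrime q) {U : Subgroup Γℚ}
    (hfin : (U.subgroupOf (A.inertiaSubgroupIn ℚ)).FiniteIndex) {a : Qb} (ha : a ≠ 0)
    (h : ∀ σ ∈ U, σ a = a) :
    ∃ m : ℤ, AU A (a ^ (U.subgroupOf (A.inertiaSubgroupIn ℚ)).index * (q : Qb) ^ (-m)) := by
  classical
  set I := A.inertiaSubgroupIn ℚ with hI
  set V := U.subgroupOf I with hV
  have : Finite (I ⧸ V) := Subgroup.finite_quotient_of_finiteIndex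
  letI := Fintype.ofFinite (I ⧸ V)
  let F : I ⧸ V → Qb := fun c => (c.out : Γℚ) a
  have hF : ∀ g : I, F (QuotientGroup.mk g) = (g : Γℚ) a := by
    intro g
    obtain ⟨s, hs⟩ := QuotientGroup.mk_out_eq_mul V g
    show ((QuotientGroup.mk g : I ⧸ V).out : Γℚ) a = _
    rw [hs]
    show (g : Γℚ) (((s : I) : Γℚ) a) = (g : Γℚ) a
    rw [h _ (Subgroup.mem_subgroupOf.1 s.2)]
  have hF' : ∀ (g : I) (c : I ⧸ V), (g : Γℚ) (F c) = F (g • c) := by
    intro g c
    have h1 : c = QuotientGroup.mk c.out := (QuotientGroup.out_eq' c).symm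
    have h2 : g • c = QuotientGroup.mk (g * c.out) := by
      conv_lhs => rw [h1]
      rfl
    rw [h2, hF]
    rfl
  have hF0 : ∀ c, F c ≠ 0 := fun c => by
    show (c.out : Γℚ) a ≠ 0
    simpa using ha
  have hfix : ∀ τ ∈ I, τ (∏ c, F c) = ∏ c, F c := by
    intro τ hτ
    rw [map_prod]
    have h1 : ∀ c, τ (F c) = F ((⟨τ, hτ⟩ : I) • c) := fun c => hF' ⟨τ, hτ⟩ c
    simp_rw [h1]
    exact Equiv.prod_comp (MulAction.toPerm (⟨τ, hτ⟩ : I)) F
  obtain ⟨m, h1, h2⟩ := CFT.Loc.exists_zpow_of_inertia hqf.out hA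
    (Finset.prod_ne_zero_iff.2 fun c _ => hF0 c) hfix
  refine ⟨m, ?_⟩
  have h3 : AU A (∏ c, (a / F c)) := by
    refine AU.prod fun c _ => ?_
    have h4 := decomp_div_mem (A := A) (σ := (c.out : Γℚ))
      (mem_decomp_of_inertia c.out.2) ha
    exact ⟨h4.2, by rw [inv_div]; exact h4.1⟩
  have h5 : AU A ((∏ c, F c) * (q : Qb) ^ (-m)) := ⟨h1, h2⟩
  have h6 := h3.mul h5
  have hp : (∏ c, F c) ≠ 0 := Finset.prod_ne_zero_iff.2 fun c _ => hF0 c
  rwa [Finset.prod_div_distrib, Finset.prod_const, Finset.card_univ, ← Nat.card_eq_fintype_card,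
    ← mul_assoc, div_mul_cancel₀ _ hp] at h6

/-- discreteness of the value group of the fixed field of a subgroup of finite index of inertia -/
theorem exists_unif (hA : A.LiesOverPrime q) {U : Subgroup Γℚ}
    (hfin : (U.subgroupOf (A.inertiaSubgroupIn ℚ)).FiniteIndex) :
    ∃ (d : Qb) (g : ℕ), 0 < g ∧ (∀ σ ∈ U, σ d = d) ∧ d ≠ 0 ∧ d ∈ A ∧ d⁻¹ ∉ A ∧
      AU A (d ^ (U.subgroupOf (A.inertiaSubgroupIn ℚ)).index / (q : Qb) ^ g) ∧
      ∀ a : Qb, (∀ σ ∈ U, σ a = a) → a ≠ 0 → a ∈ A → a⁻¹ ∉ A → a / d ∈ A := by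
  classical
  set n := (U.subgroupOf (A.inertiaSubgroupIn ℚ)).index with hn
  have hn0 : n ≠ 0 := hfin.index_ne_zero
  have hq0 : (q : Qb) ≠ 0 := by exact_mod_cast hqf.out.ne_zero
  have hqA : (q : Qb) ∈ A := natCast_mem A q
  have hqA' : (q : Qb)⁻¹ ∉ A := by
    have h1 : (q : Qb) ∈ A.nonunits := hA
    rw [Frob.mem_nonunits_iff_inv] at h1
    exact h1.resolve_left hq0
  have hex : ∃ g : ℕ, 0 < g ∧ ∃ d : Qb, (∀ σ ∈ U, σ d = d) ∧ d ≠ 0 ∧
      AU A (d ^ n * (q : Qb) ^ (-(g : ℤ))) := by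
    refine ⟨n, Nat.pos_of_ne_zero hn0, q, fun σ _ => map_natCast σ q, hq0, ?_⟩
    rw [zpow_neg, zpow_natCast, mul_inv_cancel₀ (pow_ne_zero _ hq0)]
    exact AU.one
  -- positivity of exponents
  have hpos : ∀ (a : Qb) (m : ℤ), a ≠ 0 → a ∈ A → a⁻¹ ∉ A → AU A (a ^ n * (q : Qb) ^ (-m)) →
      0 < m := by
    intro a m ha haA haA' h
    by_contra hm
    push Not at hm
    apply haA'
    apply mem_of_pow_mem A hn0
    have h1 : (a⁻¹) ^ n = (a ^ n * (q : Qb) ^ (-m))⁻¹ * (q : Qb) ^ ((-m).toNat) := by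
      rw [← zpow_natCast (q : Qb), Int.toNat_of_nonneg (by omega), mul_inv, inv_pow, mul_assoc,
        inv_mul_cancel₀ (zpow_ne_zero _ hq0), mul_one]
    rw [h1]
    exact A.mul_mem _ _ h.2 (pow_mem hqA _)
  obtain ⟨hg, d, hdU, hd0, hd⟩ := Nat.find_spec hex
  set g := Nat.find hex with hgdef
  have hdn : d ^ n ∈ A := by
    have h1 : d ^ n = (d ^ n * (q : Qb) ^ (-(g : ℤ))) * (q : Qb) ^ g := by
      rw [zpow_neg, zpow_natCast, mul_assoc, inv_mul_cancel₀ (pow_ne_zero _ hq0), mul_one]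
    rw [h1]
    exact A.mul_mem _ _ hd.1 (pow_mem hqA _)
  have hdA : d ∈ A := mem_of_pow_mem A hn0 hdn
  have hdA' : d⁻¹ ∉ A := by
    intro h1
    apply hqA'
    apply mem_of_pow_mem A hg.ne'
    have h2 : (q : Qb)⁻¹ ^ g = (d ^ n * (q : Qb) ^ (-(g : ℤ))) * (d⁻¹) ^ n := by
      rw [zpow_neg, zpow_natCast, inv_pow, inv_pow]
      field_simp
    rw [h2]
    exact A.mul_mem _ _ hd.1 (pow_mem h1 _)
  refine ⟨d, g, hg, hdU, hd0, hdA, hdA', ?_, ?_⟩
  · rw [div_eq_mul_inv, ← zpow_natCast (q : Qb), ← zpow_neg]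
    exact hd
  · intro a haU ha0 haA haA'
    obtain ⟨m, hm⟩ := exists_zpow_of_finiteIndex hA hfin ha0 haU
    have hm0 := hpos a m ha0 haA haA' hm
    have hmin : g ≤ m.toNat := by
      refine Nat.find_min' hex ⟨by omega, a, haU, ha0, ?_⟩
      rwa [Int.toNat_of_nonneg hm0.le]
    apply mem_of_pow_mem A hn0
    have h1 : (a / d) ^ n = (a ^ n * (q : Qb) ^ (-m)) * (d ^ n * (q : Qb) ^ (-(g : ℤ)))⁻¹ *
        (q : Qb) ^ (m.toNat - g) := by
      rw [← zpow_natCast (q : Qb) (m.toNat - g), Nat.cast_sub hmin, Int.toNat_of_nonneg hm0.le,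
        zpow_sub₀ hq0, mul_inv, zpow_neg, zpow_neg, inv_inv, div_pow]
      have h2 : (q : Qb) ^ m ≠ 0 := zpow_ne_zero _ hq0
      have h3 : (q : Qb) ^ (g : ℤ) ≠ 0 := zpow_ne_zero _ hq0
      field_simp
    rw [h1]
    exact A.mul_mem _ _ (A.mul_mem _ _ hm.1 hd.2) (pow_mem hqA _)

variable {k : Type*} [Field k] {π : A →+* k}

/-- scaling of functions fixed by a group of automorphisms -/
theorem exists_scale_fixed (hA : A.LiesOverPrime q) (hπ : ∀ a : A, π a = 0 ↔ ¬ IsUnit a) {N : ℕ}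
    {f : LaurentSeries Qb} (hf : f ∈ FB N) (hf0 : f ≠ 0) {U : Subgroup Γℚ}
    (hU : ∀ σ ∈ U, coeffMap (σ : Qb →+* Qb) f = f) :
    ∃ (c : Qb) (z : LaurentSeries k), c ≠ 0 ∧ (∀ σ ∈ U, σ c = c) ∧ z ≠ 0 ∧
      GRed π (algebraMap Qb (LaurentSeries Qb) c * f) z := by
  have : Algebra.IsAlgebraic ℚ Qb := AlgebraicClosure.isAlgebraic ℚ
  have hfix : ∀ {x : Qb}, x ∈ fixedField U ↔ ∀ σ ∈ U, σ x = x := by
    intro x
    rw [IntermediateField.mem_fixedField_iff]
  have hK : ∀ n, f.coeff n ∈ (algebraMap (fixedField U) Qb).range := by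
    intro n
    have h1 : f.coeff n ∈ fixedField U := by
      rw [hfix]
      intro σ hσ
      have h2 := congrArg (fun s => HahnSeries.coeff s n) (hU σ hσ)
      simp only [coeffMap_coeff] at h2
      exact h2
    exact ⟨⟨_, h1⟩, rfl⟩
  rw [show FB N = laurentBaseChange Qb (modularFunctionFieldFull N) from rfl,
    S24Lib.laurentBaseChange_eq, IntermediateField.mem_adjoin_iff_div] at hf
  obtain ⟨r, hr, s, hs, hrs⟩ := hf
  have hG : ∀ g ∈ S24Lib.gensK Qb N, ∃ y : LaurentSeries ℤ,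
      g = coeffMap (Int.castRingHom Qb) y := by
    rintro g ⟨d, hd, hdN, rfl⟩
    exact ⟨qExpand ℤ d (jqModC ℤ), by rw [ModFn.coeffMap_qExpand, ModFn.coeffMap_jqModC]⟩
  have hs0 : s ≠ 0 := by
    rintro rfl
    rw [div_zero] at hrs
    exact hf0 hrs
  obtain ⟨m, hm⟩ : ∃ m, s.coeff m ≠ 0 := by
    by_contra h
    push Not at h
    exact hs0 (HahnSeries.ext (funext h))
  obtain ⟨lam, hlam⟩ : ∃ lam : Module.Dual (fixedField U) Qb, lam (s.coeff m) ≠ 0 := by
    by_contra h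
    push Not at h
    exact hm ((Module.forall_dual_apply_eq_zero_iff (fixedField U) _).1 h)
  have h1 : f * lamS (fixedField U) lam s = lamS (fixedField U) lam r := by
    rw [← lamS_mul lam hK, hrs, div_mul_cancel₀ _ hs0]
  have hs1 : lamS (fixedField U) lam s ≠ 0 := by
    intro h
    have h2 := congrArg (fun s => HahnSeries.coeff s m) h
    simp only [lamS_coeff, HahnSeries.coeff_zero] at h2
    exact hlam (by simpa using h2)
  have hr1 : lamS (fixedField U) lam r ≠ 0 := by rw [← h1]; exact mul_ne_zero hf0 hs1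
  obtain ⟨i, a, hi, ha, hia⟩ := (lamS_good (A := A) lam _ hG hr).exists_scale π hqf.out hA hr1
  obtain ⟨j, b, hj, hb, hjb⟩ := (lamS_good (A := A) lam _ hG hs).exists_scale π hqf.out hA hs1
  generalize hci : (lamS (fixedField U) lam r).coeff i = c at *
  generalize hdj : (lamS (fixedField U) lam s).coeff j = d at *
  have hcK : ∀ σ ∈ U, σ c = c := by
    rw [← hfix, ← hci, lamS_coeff]
    exact (lam (r.coeff i)).2
  have hdK : ∀ σ ∈ U, σ d = d := by
    rw [← hfix, ← hdj, lamS_coeff]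
    exact (lam (s.coeff j)).2
  have hd' : algebraMap Qb (LaurentSeries Qb) d ≠ 0 := by simpa using hj
  have hc' : algebraMap Qb (LaurentSeries Qb) c ≠ 0 := by simpa using hi
  have hb0 : iotaA A b ≠ 0 := by
    intro h0
    rw [hjb, h0, mul_zero] at hs1
    exact hs1 rfl
  refine ⟨d / c, rhoA π a / rhoA π b, div_ne_zero hj hi, fun σ hσ => ?_, div_ne_zero ha hb, ?_⟩
  · rw [map_div₀, hcK σ hσ, hdK σ hσ]
  · have h2 : GRed π (iotaA A a / iotaA A b) (rhoA π a / rhoA π b) :=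
      gRed_div (gRed_iota π a) (gRed_iota π b) hb
    have h5 : f = lamS (fixedField U) lam r / lamS (fixedField U) lam s :=
      (eq_div_of_mul_eq hs1 h1)
    have h4 : algebraMap Qb (LaurentSeries Qb) (d / c) * f = iotaA A a / iotaA A b := by
      rw [h5, hia, hjb, map_div₀]
      field_simp
    rw [h4]
    exact h2

end Fix

section Level

variable (N : ℕ)

/-- The subfield of functions fixed by a group of automorphisms. -/
def fixField (U : Subgroup Γℚ) : Subfield (FB N) where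
  carrier := {f | ∀ σ ∈ U, gal N σ f = f}
  mul_mem' {a b} ha hb σ hσ := by rw [map_mul, ha σ hσ, hb σ hσ]
  one_mem' σ hσ := map_one _
  add_mem' {a b} ha hb σ hσ := by rw [map_add, ha σ hσ, hb σ hσ]
  zero_mem' σ hσ := map_zero _
  neg_mem' {a} ha σ hσ := by rw [map_neg, ha σ hσ]
  inv_mem' a ha σ hσ := by rw [map_inv₀, ha σ hσ]

variable {N}

theorem mem_fixField {U : Subgroup Γℚ} {f : FB N} :
    f ∈ fixField N U ↔ ∀ σ ∈ U, gal N σ f = f := Iff.rfl

theorem fixField_anti {U V : Subgroup Γℚ} (h : U ≤ V) : fixField N V ≤ fixField N U :=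
  fun _ hf σ hσ => hf σ (h hσ)

theorem fixField_inertia (A : ValuationSubring Qb) [NeZero N] :
    fixField N (A.inertiaSubgroupIn ℚ) = QComp.ifixField N A := rfl

theorem algebraMap_mem_fixField {U : Subgroup Γℚ} {c : Qb} :
    algebraMap Qb (FB N) c ∈ fixField N U ↔ ∀ σ ∈ U, σ c = c := by
  have h1 : ∀ σ : Γℚ, gal N σ (algebraMap Qb (FB N) c) = algebraMap Qb (FB N) (σ c) := fun σ =>
    arithmeticRingAut_algebraMap (modularFunctionFieldFull N) σ c
  constructor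
  · intro h σ hσ
    have h2 := h σ hσ
    rw [h1] at h2
    exact (algebraMap Qb (FB N)).injective h2
  · intro h σ hσ
    rw [h1, h σ hσ]

variable {k : Type*} [Field k] {A : ValuationSubring Qb} {π : A →+* k} {M q : ℕ} [NeZero M]
  [NeZero q] [hqf : Fact q.Prime] {hA : A.LiesOverPrime q} {hπ : ∀ a : A, π a = 0 ↔ ¬ IsUnit a}
  {hs : Function.Surjective π} {hM : ¬ q ∣ M}

/-- scaling to a unit of the first component -/
theorem scale_inf1 {U : Subgroup Γℚ} {f : FB (M * q)} (hf : f ∈ fixField (M * q) U) (hf0 : f ≠ 0) :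
    ∃ (c : Qb) (z : modularFunctionFieldFullC k M), c ≠ 0 ∧ (∀ σ ∈ U, σ c = c) ∧ z ≠ 0 ∧
      (rInf1 M q hA hπ hs hM).IsRed (algebraMap Qb _ c * f) z := by
  obtain ⟨c, z, hc, hcU, hz, h⟩ := exists_scale_fixed (k := k) hA hπ f.2
    (fun h => hf0 (Subtype.ext h)) (U := U) (fun σ hσ => congrArg Subtype.val (hf σ hσ))
  exact ⟨c, ⟨z, mem_of_gRed_level1 hA hπ hs hM (f := algebraMap Qb _ c * f) h⟩, hc, hcU,
    fun h0 => hz (congrArg Subtype.val h0), isRed_rInf1.2 h⟩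

theorem w1_mem_fixField {U : Subgroup Γℚ} {f : FB (M * q)} (hf : f ∈ fixField (M * q) U) :
    w1 hqf.out hM f ∈ fixField (M * q) U := by
  intro σ hσ
  rw [← w1_gal, hf σ hσ]

/-- scaling to a unit of the second component -/
theorem scale_zero1 {U : Subgroup Γℚ} {f : FB (M * q)} (hf : f ∈ fixField (M * q) U)
    (hf0 : f ≠ 0) :
    ∃ (c : Qb) (z : modularFunctionFieldFullC k M), c ≠ 0 ∧ (∀ σ ∈ U, σ c = c) ∧ z ≠ 0 ∧
      (rZero1 M q hA hπ hs hM).IsRed (algebraMap Qb _ c * f) z := by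
  obtain ⟨c, z, hc, hcU, hz, h⟩ := scale_inf1 (hA := hA) (hπ := hπ) (hs := hs) (hM := hM)
    (w1_mem_fixField (hM := hM) hf) (by rw [Ne, map_eq_zero]; exact hf0)
  refine ⟨c, z, hc, hcU, hz, isRed_rZero1.2 ?_⟩
  rw [map_mul, AlgEquiv.commutes]
  exact h

theorem div_mem_of_scale {κ : Type*} [Field κ] [Algebra k κ] {F : Type*} [Field F] [Algebra Qb F]
    (R : ConstRed A π F κ) {U : Subgroup Γℚ} {d : Qb}
    (hd : ∀ a : Qb, (∀ σ ∈ U, σ a = a) → a ≠ 0 → a ∈ A → a⁻¹ ∉ A → a / d ∈ A)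
    {g : F} (h0 : R.IsRed g 0) {c : Qb} {z : κ} (hc : c ≠ 0) (hcU : ∀ σ ∈ U, σ c = c)
    (hz : z ≠ 0) (hr : R.IsRed (algebraMap Qb F c * g) z) : g / algebraMap Qb F d ∈ R.O := by
  have hcA : c ∉ A := by
    intro hcA
    have h1 := (R.isRed_algebraMap hcA).mul h0
    rw [mul_zero] at h1
    exact hz (hr.unique h1)
  have hcA' : c⁻¹ ∈ A := (A.mem_or_inv_mem c).resolve_left hcA
  have h2 := hd c⁻¹ (fun σ hσ => by rw [map_inv₀, hcU σ hσ]) (inv_ne_zero hc) hcA'
    (by rwa [inv_inv])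
  have h3 := mul_mem ((R.algebraMap_mem_iff _).2 h2) hr.mem
  have hc' : algebraMap Qb F c ≠ 0 := by simpa using hc
  have e : algebraMap Qb F (c⁻¹ / d) * (algebraMap Qb F c * g) = g / algebraMap Qb F d := by
    rw [map_div₀, map_inv₀]
    field_simp
  rwa [e] at h3

/-- **levels** -/
theorem lev_fixField {U : Subgroup Γℚ} {d : Qb} (hdU : ∀ σ ∈ U, σ d = d) (hd0 : d ≠ 0)
    (hdA : d ∈ A) (hdA' : d⁻¹ ∉ A)
    (hd : ∀ a : Qb, (∀ σ ∈ U, σ a = a) → a ≠ 0 → a ∈ A → a⁻¹ ∉ A → a / d ∈ A) :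
    Lev (rInf1 M q hA hπ hs hM) (rZero1 M q hA hπ hs hM) (fixField (M * q) U) ⟨d, hdA⟩ where
  mem := algebraMap_mem_fixField.2 hdU
  ne := by
    intro h
    exact hd0 (congrArg Subtype.val h)
  red := by
    rw [hπ]
    intro hu
    obtain ⟨v, hv⟩ := hu.exists_right_inv
    have hv' : d * (v : Qb) = 1 := congrArg Subtype.val hv
    apply hdA'
    rw [inv_eq_of_mul_eq_one_right hv']
    exact v.2
  unif1 g hg h0 := by
    rcases eq_or_ne g 0 with rfl | hg0
    · rw [zero_div]; exact zero_mem _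
    obtain ⟨c, z, hc, hcU, hz, h⟩ := scale_inf1 (hA := hA) (hπ := hπ) (hs := hs) (hM := hM) hg hg0
    exact div_mem_of_scale _ hd h0 hc hcU hz h
  unif2 g hg h0 := by
    rcases eq_or_ne g 0 with rfl | hg0
    · rw [zero_div]; exact zero_mem _
    obtain ⟨c, z, hc, hcU, hz, h⟩ := scale_zero1 (hA := hA) (hπ := hπ) (hs := hs) (hM := hM) hg hg0
    exact div_mem_of_scale _ hd h0 hc hcU hz h

/-- the field `disc` of `TubeData` -/
theorem exists_lev (s : Finset (FB (M * q))) :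
    ∃ (E : Subfield (FB (M * q))) (d : A), QComp.ifixField (M * q) A ≤ E ∧ (∀ x ∈ s, x ∈ E) ∧
      Lev (rInf1 M q hA hπ hs hM) (rZero1 M q hA hπ hs hM) E d := by
  have : IsGalois ℚ Qb := inferInstance
  obtain ⟨L₀, hfd, hL₀⟩ := JZ.exists_level_finset (F₀ := modularFunctionFieldFull (M * q)) s
  have hfi : L₀.fixingSubgroup.FiniteIndex := CFT.finiteIndex_fixingSubgroup L₀
  set U := A.inertiaSubgroupIn ℚ ⊓ L₀.fixingSubgroup with hU
  have hfin : (U.subgroupOf (A.inertiaSubgroupIn ℚ)).FiniteIndex := by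
    rw [hU, Subgroup.inf_subgroupOf_left]
    infer_instance
  obtain ⟨d, g, hg, hdU, hd0, hdA, hdA', -, hd⟩ := exists_unif hA hfin
  refine ⟨fixField (M * q) U, ⟨d, hdA⟩, fixField_anti inf_le_left, fun x hx σ hσ => ?_,
    lev_fixField hdU hd0 hdA hdA' hd⟩
  exact hL₀ σ (fun y hy => (IntermediateField.mem_fixingSubgroup_iff _ _).1 hσ.2 y hy) x hx

/-- the level of a subgroup of small index -/
theorem exists_lev_pow {U : Subgroup Γℚ} (hUI : U ≤ A.inertiaSubgroupIn ℚ)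
    (hfin : (U.subgroupOf (A.inertiaSubgroupIn ℚ)).FiniteIndex)
    (hidx : (U.subgroupOf (A.inertiaSubgroupIn ℚ)).index ≤ q * (q - 1)) {t : A} (ht : (t : Qb) ≠ 0)
    (htq : AU A ((t : Qb) ^ (q - 1) / (q : Qb))) :
    (∀ e ∈ fixField (M * q) U, (rInf1 M q hA hπ hs hM).IsRed e 0 →
      ∃ y ∈ (rInf1 M q hA hπ hs hM).O, e ^ q = algebraMap Qb (FB (M * q)) t * y) ∧
    (∀ e ∈ fixField (M * q) U, (rZero1 M q hA hπ hs hM).IsRed e 0 →
      ∃ y ∈ (rZero1 M q hA hπ hs hM).O, e ^ q = algebraMap Qb (FB (M * q)) t * y) := by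
  obtain ⟨d, g, hg, hdU, hd0, hdA, hdA', hdn, hd⟩ := exists_unif hA hfin
  set n := (U.subgroupOf (A.inertiaSubgroupIn ℚ)).index with hn
  have hn0 : n ≠ 0 := hfin.index_ne_zero
  have hq0 : (q : Qb) ≠ 0 := by exact_mod_cast hqf.out.ne_zero
  have hq1 : 0 < q - 1 := Nat.sub_pos_of_lt hqf.out.one_lt
  have hL := lev_fixField (M := M) (hA := hA) (hπ := hπ) (hs := hs) (hM := hM) hdU hd0 hdA hdA' hd
  have ht' : algebraMap Qb (FB (M * q)) t ≠ 0 := by simpa using ht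
  have hd' : algebraMap Qb (FB (M * q)) d ≠ 0 := by simpa using hd0
  -- `t` divides `d ^ q`
  have hkey : d ^ q / (t : Qb) ∈ A := by
    apply mem_of_pow_mem A (n := n * (q - 1)) (Nat.mul_ne_zero hn0 hq1.ne')
    have h1 : (d ^ q / (t : Qb)) ^ (n * (q - 1)) =
        (d ^ n / (q : Qb) ^ g) ^ (q * (q - 1)) * (((t : Qb) ^ (q - 1) / (q : Qb)) ^ n)⁻¹ *
          (q : Qb) ^ (g * (q * (q - 1)) - n) := by
      have hle : n ≤ g * (q * (q - 1)) := by nlinarith
      have h2 : (q : Qb) ^ (g * (q * (q - 1)) - n) * (q : Qb) ^ n =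
          (q : Qb) ^ (g * (q * (q - 1))) := by
        rw [← pow_add, Nat.sub_add_cancel hle]
      have h3 : (q : Qb) ^ (g * (q * (q - 1))) ≠ 0 := pow_ne_zero _ hq0
      have h4 : (t : Qb) ^ (n * (q - 1)) ≠ 0 := pow_ne_zero _ ht
      have e1 : (d ^ q / (t : Qb)) ^ (n * (q - 1)) =
          d ^ (q * (n * (q - 1))) / (t : Qb) ^ (n * (q - 1)) := by
        rw [div_pow, ← pow_mul]
      have e2 : (d ^ n / (q : Qb) ^ g) ^ (q * (q - 1)) =
          d ^ (q * (n * (q - 1))) / (q : Qb) ^ (g * (q * (q - 1))) := by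
        rw [div_pow, ← pow_mul, ← pow_mul]
        congr 2
        ring
      have e3 : (((t : Qb) ^ (q - 1) / (q : Qb)) ^ n)⁻¹ = (q : Qb) ^ n / (t : Qb) ^ (n * (q - 1)) := by
        rw [div_pow, inv_div, ← pow_mul, mul_comm n]
      rw [e1, e2, e3, ← h2]
      have h5 : (q : Qb) ^ (g * (q * (q - 1)) - n) ≠ 0 := pow_ne_zero _ hq0
      have h6 : (q : Qb) ^ n ≠ 0 := pow_ne_zero _ hq0
      field_simp
    rw [h1]
    exact A.mul_mem _ _ (A.mul_mem _ _ (hdn.pow _).1 (htq.pow n).2) (pow_mem (natCast_mem A q) _)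
  have main : ∀ {κ : Type _} [Field κ] [Algebra k κ] (R : ConstRed A π (FB (M * q)) κ) (e : FB (M * q)),
      e / algebraMap Qb (FB (M * q)) d ∈ R.O →
        ∃ y ∈ R.O, e ^ q = algebraMap Qb (FB (M * q)) t * y := by
    intro κ _ _ R e he
    refine ⟨(e / algebraMap Qb (FB (M * q)) d) ^ q * algebraMap Qb (FB (M * q)) (d ^ q / t),
      mul_mem (pow_mem he q) ((R.algebraMap_mem_iff _).2 hkey), ?_⟩
    rw [map_div₀, map_pow, div_pow]
    field_simp
  exact ⟨fun e he h0 => main _ e (hL.unif1 e he h0), fun e he h0 => main _ e (hL.unif2 e he h0)⟩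

end Level

end Fermat.Agent.MazurP
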