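import Fermat.Agent.QComp.TwoReg
import Fermat.Agent.Red.Chart

/-!
# The algebra of regular functions: points, separation, denominators
-/

set_option autoImplicit false
set_option linter.unusedSectionVars false

open AlgebraicCurve IntermediateField Module IsDedekindDomain

namespace Fermat.Agent.MazurP

open Fermat.Agent.FF Fermat.Agent.Red Fermat.Agent.QComp

variable {K F : Type*} [Field K] [Field F] [Algebra K F] [IsAlgClosed K] [IsFnField K F]

theorem isIntegral_of_mem_regAlg' {x f : F} [Algebra.IsSeparable K⟮x⟯ F]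
    [FiniteDimensional K⟮x⟯ F] (hf : f ∈ regAlg K x) : IsIntegral (Algebra.adjoin K {x}) f :=
  isIntegral_of_forall (mem_regAlg_iff.1 hf)

/-- points of the algebra of regular functions are places -/
theorem exists_place_of_point {x : F} (hx : Transcendental K x) [Algebra.IsSeparable K⟮x⟯ F]
    [FiniteDimensional K⟮x⟯ F] (e : regAlg K x →ₐ[K] K) :
    ∃ Q : Place K F, 0 ≤ Q.ord x ∧ ∀ b : regAlg K x, HasVal Q (b : F) (e b) := by
  have hmem : ∀ z : IntCl K x, (z : F) ∈ regAlg K x := fun z =>
    mem_regAlg_of_isIntegral z.2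
  let ι : IntCl K x →+* regAlg K x :=
    { toFun := fun z => ⟨z, hmem z⟩
      map_one' := rfl
      map_mul' := fun _ _ => rfl
      map_zero' := rfl
      map_add' := fun _ _ => rfl }
  let φ : IntCl K x →+* K := (e : regAlg K x →+* K).comp ι
  set I := RingHom.ker φ with hI
  have hIp : I.IsPrime := RingHom.ker_isPrime φ
  set a : K := e ⟨x, self_mem_regAlg x⟩ with ha
  have hmax := isMaximal_span_genSub hx a
  have hIo : I.LiesOver (Ideal.span {(genSub x a : Algebra.adjoin K {x})}) := by
    constructor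
    refine hmax.eq_of_le (Ideal.IsPrime.ne_top (Ideal.IsPrime.under _ I)) ?_
    rw [Ideal.span_singleton_le_iff_mem, Ideal.under, Ideal.mem_comap, hI, RingHom.mem_ker]
    change e ⟨x - algebraMap K F a, _⟩ = 0
    have h1 : (⟨x - algebraMap K F a, hmem (algebraMap _ _ (genSub x a))⟩ : regAlg K x) =
        ⟨x, self_mem_regAlg x⟩ - algebraMap K (regAlg K x) a := Subtype.ext rfl
    rw [h1, map_sub, AlgHom.commutes, ← ha]
    exact sub_self _
  obtain ⟨w, Q, hw, hwQ, hQx, hQ⟩ := exists_place_of_prime (a := a) hx I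
  refine ⟨Q, hQx.nonneg, fun b => ?_⟩
  have hb := isIntegral_of_mem_regAlg' b.2
  have hc : IsIntegral (Algebra.adjoin K {x}) ((b : F) - algebraMap K F (e b)) :=
    hb.sub (isIntegral_const x _)
  have h1 : (⟨(b : F) - algebraMap K F (e b), hc⟩ : IntCl K x) ∈ I := by
    rw [hI, RingHom.mem_ker]
    change e ⟨(b : F) - algebraMap K F (e b), _⟩ = 0
    have h1 : (⟨(b : F) - algebraMap K F (e b), hmem ⟨_, hc⟩⟩ : regAlg K x) =
        b - algebraMap K (regAlg K x) (e b) := Subtype.ext rfl
    rw [h1, map_sub, AlgHom.commutes]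
    exact sub_self _
  rw [hQ] at h1
  have h2 := h1.add (hasVal_algebraMap Q (e b))
  rw [zero_add] at h2
  simpa using h2

/-- a place where `x` is regular is determined by the values of regular functions -/
theorem place_eq_of_values {x : F} (hx : Transcendental K x) [Algebra.IsSeparable K⟮x⟯ F]
    [FiniteDimensional K⟮x⟯ F] {Q Q' : Place K F} (hQ : 0 ≤ Q.ord x) (hQ' : 0 ≤ Q'.ord x)
    (h : ∀ b ∈ regAlg K x, ∀ c, HasVal Q b c → HasVal Q' b c) : Q' = Q := by
  by_contra hne
  obtain ⟨z, hz, hz', hz0, hzQ⟩ := exists_separate hx (Q := Q') (Q' := Q) (Ne.symm hne) hQ' hQ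
  have h1 := h z (mem_regAlg_of_isIntegral hz) 0 hz'
  rcases hasVal_zero_iff.1 h1 with h2 | h2
  · exact hz0 h2
  · omega

/-- regular functions with value `1` at `Q` and vanishing to high order at finitely many other
places -/
theorem exists_reg_vanish {x : F} (hx : Transcendental K x) [Algebra.IsSeparable K⟮x⟯ F]
    [FiniteDimensional K⟮x⟯ F] {Q : Place K F} (hQ : 0 ≤ Q.ord x) (s : Finset (Place K F))
    (n : ℕ) : ∃ z ∈ regAlg K x, HasVal Q z 1 ∧ ∀ Q' ∈ s, Q' ≠ Q → 0 ≤ Q'.ord x → 
      (n : ℤ) ≤ Q'.ord z ∧ (0 < n → HasVal Q' z 0) := by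
  classical
  induction s using Finset.induction_on with
  | empty => exact ⟨1, one_mem _, hasVal_one Q, by simp⟩
  | insert P s hP ih =>
    obtain ⟨z, hz, hz1, hzs⟩ := ih
    by_cases hne : P = Q
    · refine ⟨z, hz, hz1, fun Q' hQ's hQ'Q hQ' => hzs Q' ?_ hQ'Q hQ'⟩
      rcases Finset.mem_insert.1 hQ's with h | h
      · exact absurd (h.trans hne) hQ'Q
      · exact h
    by_cases hPx : 0 ≤ P.ord x
    · obtain ⟨u, hu, huP, hu0, huQ⟩ := exists_separate hx (Q := Q) (Q' := P) hne hQ hPx
      have huR := mem_regAlg_of_isIntegral hu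
      obtain ⟨c, hc⟩ := exists_hasVal huQ.ge
      have hc0 : c ≠ 0 := by
        rintro rfl
        rcases hasVal_zero_iff.1 hc with h | h
        · exact hu0 h
        · omega
      set u' := algebraMap K F c⁻¹ * u with hu'
      have hu'R : u' ∈ regAlg K x := mul_mem ((regAlg K x).algebraMap_mem _) huR
      have hu'Q : HasVal Q u' 1 := by
        have := (hasVal_algebraMap Q c⁻¹).mul hc
        rwa [inv_mul_cancel₀ hc0] at this
      have hu'P : HasVal P u' 0 := by
        have := (hasVal_algebraMap P c⁻¹).mul huP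
        rwa [mul_zero] at this
      have hz0 : z ≠ 0 := by
        rintro rfl
        exact one_ne_zero (hz1.unique (hasVal_zero Q))
      have hu'0 : u' ≠ 0 := by
        rintro h
        rw [h] at hu'Q
        exact one_ne_zero (hu'Q.unique (hasVal_zero Q))
      refine ⟨z * u' ^ n, mul_mem hz (pow_mem hu'R n), ?_, ?_⟩
      · simpa using hz1.mul (hu'Q.pow n)
      · intro Q' hQ's hQ'Q hQ'
        have h1 : (n : ℤ) ≤ Q'.ord (z * u' ^ n) := by
          rw [Q'.ord_mul hz0 (pow_ne_zero _ hu'0), ord_pow]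
          have h3 := mem_regAlg_iff.1 hz Q' hQ'
          have h4 := mem_regAlg_iff.1 hu'R Q' hQ'
          rcases Finset.mem_insert.1 hQ's with h | h
          · subst h
            have h2 : 0 < Q'.ord u' := (hasVal_zero_iff.1 hu'P).resolve_left hu'0
            nlinarith
          · have h2 := (hzs Q' h hQ'Q hQ').1
            nlinarith
        refine ⟨h1, fun hn => hasVal_zero_iff.2 (Or.inr ?_)⟩
        have : (0 : ℤ) < n := by exact_mod_cast hn
        omega
    · refine ⟨z, hz, hz1, fun Q' hQ's hQ'Q hQ' => hzs Q' ?_ hQ'Q hQ'⟩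
      rcases Finset.mem_insert.1 hQ's with h | h
      · rw [h] at hQ'; exact absurd hQ' hPx
      · exact h

/-- denominators at a place, vanishing at finitely many other places together with the numerator -/
theorem exists_denominator {x : F} (hx : Transcendental K x) [Algebra.IsSeparable K⟮x⟯ F]
    [FiniteDimensional K⟮x⟯ F] {Q : Place K F} (hQ : 0 ≤ Q.ord x) (s : Finset (Place K F))
    {b : F} (hb : 0 ≤ Q.ord b) : ∃ z ∈ regAlg K x, HasVal Q z 1 ∧ z * b ∈ regAlg K x ∧
      ∀ Q' ∈ s, Q' ≠ Q → 0 ≤ Q'.ord x → HasVal Q' z 0 ∧ HasVal Q' (z * b) 0 := by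
  classical
  set s' := s ∪ (RR.divOf (K := K) b).support with hs'
  set n : ℕ := (RR.divOf (K := K) b).support.sup (fun P => (P.ord b).natAbs) + 1 with hn
  obtain ⟨z, hz, hz1, hzs⟩ := exists_reg_vanish hx hQ s' n
  have hz0 : z ≠ 0 := by
    rintro rfl
    exact one_ne_zero (hz1.unique (hasVal_zero Q))
  have hbn : ∀ P : Place K F, -(P.ord b) < n := by
    intro P
    by_cases hP : P ∈ (RR.divOf (K := K) b).support
    · have h3 := Finset.le_sup (f := fun P : Place K F => (P.ord b).natAbs) hP
      omega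
    · rw [Finsupp.mem_support_iff, RR.divOf_apply, not_not] at hP
      rw [hP]
      push_cast [hn]
      positivity
  have key : ∀ Q' ∈ s', Q' ≠ Q → 0 ≤ Q'.ord x → 0 < Q'.ord z ∧ (b ≠ 0 → 0 < Q'.ord (z * b)) := by
    intro Q' hQ's hne hQ'
    have h1 := (hzs Q' hQ's hne hQ').1
    refine ⟨by omega, fun hb0 => ?_⟩
    rw [Q'.ord_mul hz0 hb0]
    have := hbn Q'
    omega
  refine ⟨z, hz, hz1, ?_, ?_⟩
  · rcases eq_or_ne b 0 with rfl | hb0
    · rw [mul_zero]; exact zero_mem _
    rw [mem_regAlg_iff]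
    intro P hP
    by_cases hPQ : P = Q
    · subst hPQ
      rw [P.ord_mul hz0 hb0]
      have := hz1.nonneg
      omega
    by_cases hPs : P ∈ s'
    · exact ((key P hPs hPQ hP).2 hb0).le
    · rw [P.ord_mul hz0 hb0]
      have h1 := mem_regAlg_iff.1 hz P hP
      have h2 : P ∉ (RR.divOf (K := K) b).support := fun h => hPs (by
        rw [hs']; exact Finset.mem_union_right _ h)
      rw [Finsupp.mem_support_iff, RR.divOf_apply, not_not] at h2
      omega
  · intro Q' hQ's hne hQ'
    have h1 := key Q' (Finset.mem_union_left _ hQ's) hne hQ'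
    refine ⟨hasVal_zero_iff.2 (Or.inr h1.1), ?_⟩
    rcases eq_or_ne b 0 with rfl | hb0
    · rw [mul_zero]; exact hasVal_zero Q'
    · exact hasVal_zero_iff.2 (Or.inr (h1.2 hb0))

end Fermat.Agent.MazurP
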