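import Fermat.Agent.MazurP.Contract
import Fermat.Agent.Node.TubeMain
import Fermat.Agent.FFM.SmulRed

/-!
# The tube theorem for functions fixed by a subgroup of inertia
-/

set_option autoImplicit false
set_option linter.unusedSectionVars false
set_option linter.style.haveILetI false
set_option linter.unusedVariables false

noncomputable section
open AlgebraicCurve ModularCurve IntermediateField Module

namespace Fermat.Agent.MazurP

open Fermat.Agent.FF Fermat.Agent.Red Fermat.Agent.QVal Fermat.Agent.JZ Fermat.Agent.QComp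
  Fermat.Agent.Node

local notation "Qb" => AlgebraicClosure ℚ
local notation "Γℚ" => (AlgebraicClosure ℚ ≃ₐ[ℚ] AlgebraicClosure ℚ)

/-- the Galois action on functions and places -/
abbrev G (N : ℕ) (σ : Γℚ) : SemilinearAut Qb (FB N) :=
  arithmeticGalois (modularFunctionFieldFull N) σ

theorem G_smul (N : ℕ) (σ : Γℚ) (f : FB N) : G N σ • f = gal N σ f := rfl

theorem G_inv (N : ℕ) (σ : Γℚ) : (G N σ)⁻¹ = G N σ⁻¹ := (map_inv _ σ).symm

theorem hasVal_G {N : ℕ} [NeZero N] [IsFnField Qb (FB N)] {σ : Γℚ} {P : Place Qb (FB N)}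
    {f : FB N} {a : Qb} (h : HasVal P f a) : HasVal (G N σ • P) (gal N σ f) (σ a) := by
  have h1 := FFM.hasVal_smul (σ := G N σ) h
  rw [baseAut_arithmeticGalois] at h1
  exact h1

theorem hasVal_of_G {N : ℕ} [NeZero N] [IsFnField Qb (FB N)] {σ : Γℚ} {P : Place Qb (FB N)}
    {f : FB N} {a : Qb} (h : HasVal (G N σ • P) f a) :
    HasVal P (gal N σ⁻¹ f) (σ⁻¹ a) := by
  have h1 := hasVal_G (σ := σ⁻¹) h
  rwa [← G_inv, inv_smul_smul] at h1

theorem ord_G {N : ℕ} (σ : Γℚ) (P : Place Qb (FB N)) (f : FB N) :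
    (G N σ • P).ord (gal N σ f) = P.ord f := SemilinearAut.ord_smul (G N σ) P f

section Main

variable {k : Type*} [Field k] {A : ValuationSubring Qb} {π : A →+* k} {M q : ℕ} [NeZero M]
  [NeZero q] [hqf : Fact q.Prime] {hA : A.LiesOverPrime q} {hπ : ∀ a : A, π a = 0 ↔ ¬ IsUnit a}
  {hs : Function.Surjective π} {hM : ¬ q ∣ M}
  [CharP k q] [PerfectRing k q] [IsAlgClosed k] [IsFnField k (modularFunctionFieldFullC k M)]
  [FiniteDimensional k⟮RedQ.xj k M⟯ (modularFunctionFieldFullC k M)]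
  [Algebra.IsSeparable k⟮RedQ.xj k M⟯ (modularFunctionFieldFullC k M)]
  [IsFnField Qb (FB (M * q))]

local notation "𝓗" => twoLevel hA hπ hs hM

theorem smul_mem_tube {σ : Γℚ} (hσ : σ ∈ A.inertiaSubgroupIn ℚ)
    {s : (regAlg k (RedQ.xj k M ^ (q + 1)) ⧸ (𝓗).cond) →ₐ[k] k} {P : Place Qb (FB (M * q))}
    (hP : P ∈ tube 𝓗 s) : G (M * q) σ • P ∈ tube 𝓗 s := by
  have hS := semiRed_inertia hA hπ hs hM hσ
  have hσ' := inv_mem hσ
  have hS' := semiRed_inertia hA hπ hs hM hσ'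
  rw [mem_tube_iff] at hP ⊢
  obtain ⟨h1, h2⟩ := hP
  refine ⟨?_, fun f hf b₁ b₂ hb₁ hb₂ c hc a ha => ?_⟩
  · have h3 := hS.fix
    rw [← h3]
    exact h1.trans_eq (ord_G σ P _).symm
  · have hf' : gal (M * q) σ⁻¹ f ∈ regAlg Qb (al1 M q (jB M) *
        (w1 hqf.out hM : FB (M * q) →ₐ[Qb] FB (M * q)) (al1 M q (jB M))) := by
      rw [mem_regAlg_iff] at hf ⊢
      intro P' hP'
      have h4 := hf (G (M * q) σ • P') (by
        have h3 := hS.fix
        rw [← h3]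
        exact hP'.trans_eq (ord_G σ P' _).symm)
      have h5 := ord_G σ P' (gal (M * q) σ⁻¹ f)
      have h6 : gal (M * q) σ (gal (M * q) σ⁻¹ f) = f := by
        rw [← G_smul, ← G_smul, ← G_inv, smul_inv_smul]
      rw [h6] at h5
      rwa [← h5]
    obtain ⟨ha', hac⟩ := h2 _ hf' b₁ b₂ (hS'.red1 f b₁ hb₁) (hS'.red2 f b₂ hb₂) c hc _
      (hasVal_of_G ha)
    have h7 := inertia_mem hσ ha'
    have h8 := inertia_pi hπ hσ ⟨_, ha'⟩
    have h9 : σ (σ⁻¹ a) = a := by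
      rw [← AlgEquiv.mul_apply, mul_inv_cancel, AlgEquiv.one_apply]
    have h10 : (⟨σ (σ⁻¹ a), h7⟩ : A) = ⟨a, by rw [← h9]; exact h7⟩ := Subtype.ext h9
    refine ⟨by rw [← h9]; exact h7, ?_⟩
    rw [← hac, ← h8]
    exact congrArg π h10.symm

theorem smul_mem_tube_iff {σ : Γℚ} (hσ : σ ∈ A.inertiaSubgroupIn ℚ)
    {s : (regAlg k (RedQ.xj k M ^ (q + 1)) ⧸ (𝓗).cond) →ₐ[k] k} {P : Place Qb (FB (M * q))} :
    G (M * q) σ • P ∈ tube 𝓗 s ↔ P ∈ tube 𝓗 s := by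
  refine ⟨fun h => ?_, smul_mem_tube hσ⟩
  have h1 := smul_mem_tube (inv_mem hσ) h
  rwa [← G_inv, inv_smul_smul] at h1

set_option maxHeartbeats 2000000 in
/-- **the tube theorem at a node of `X₀(M q)` for functions fixed by a subgroup of inertia** -/
theorem slope (hr : ∃ r : ℕ, r.Prime ∧ r ∣ M ∧ r % 12 = 11) {t : A} (ht0 : t ≠ 0) (hπt : π t = 0)
    (htq : t ∣ (q : A)) {U : Subgroup Γℚ} (hUI : U ≤ A.inertiaSubgroupIn ℚ)
    (hE1 : ∀ e ∈ fixField (M * q) U, (rInf1 M q hA hπ hs hM).IsRed e 0 →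
      ∃ y ∈ (rInf1 M q hA hπ hs hM).O, e ^ q = algebraMap Qb (FB (M * q)) t * y)
    (hE2 : ∀ e ∈ fixField (M * q) U, (rZero1 M q hA hπ hs hM).IsRed e 0 →
      ∃ y ∈ (rZero1 M q hA hπ hs hM).O, e ^ q = algebraMap Qb (FB (M * q)) t * y)
    {f : FB (M * q)} (hfU : f ∈ fixField (M * q) U) (hf0 : f ≠ 0)
    (hdiv : ∀ P : Place Qb (FB (M * q)), (q : ℤ) ∣ P.ord f)
    {C₁ C₂ : Qb} (hC₁ : C₁ ≠ 0) (hC₂ : C₂ ≠ 0) {G₁ G₂ : FB (M * q)}
    (hG₁ : G₁ ∈ ifixField (M * q) A) (hG₂ : G₂ ∈ ifixField (M * q) A)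
    {γ₁ γ₂ : modularFunctionFieldFullC k M} (hγ₁ : (rInf1 M q hA hπ hs hM).IsRed G₁ γ₁)
    (hγ₁0 : γ₁ ≠ 0) (hγ₂ : (rZero1 M q hA hπ hs hM).IsRed G₂ γ₂) (hγ₂0 : γ₂ ≠ 0)
    (hf1 : One (rInf1 M q hA hπ hs hM) t (f / (algebraMap Qb (FB (M * q)) C₁ * G₁)))
    (hf2 : One (rZero1 M q hA hπ hs hM) t (f / (algebraMap Qb (FB (M * q)) C₂ * G₂)))
    (s : (regAlg k (RedQ.xj k M ^ (q + 1)) ⧸ (𝓗).cond) →ₐ[k] k) :
    (q : ℤ) ∣ (place1 𝓗 s).ord γ₁ + (place2 𝓗 s).ord γ₂ ∧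
      ∃ (a : Qb) (η α : A), a ≠ 0 ∧ (∀ σ ∈ U, σ a = a) ∧ IsUnit η ∧
        (∀ σ ∈ A.inertiaSubgroupIn ℚ, σ (η : Qb) = η) ∧
        C₂ / C₁ = a ^ q * (q : Qb) ^ (- (place2 𝓗 s).ord γ₂) * η * (1 + t * α) := by
  classical
  have D := tubeData (hA := hA) (hπ := hπ) (hs := hs) (hM := hM) exists_lev s
  obtain ⟨z, hz₀, hz⟩ := exists_param (hA := hA) (hπ := hπ) (hs := hs) (hM := hM) hr s
  have hϖ := D.lev.red
  have hzT : ∀ P ∈ tube 𝓗 s, ∃ b, HasVal P z b := fun P hP =>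
    exists_hasVal (ord_nonneg_of_mem P (hz.mem.2.2 P hP))
  let b : Place Qb (FB (M * q)) → Qb := fun P => if h : ∃ b, HasVal P z b then h.choose else 0
  have hb : ∀ P ∈ tube 𝓗 s, HasVal P z (b P) := by
    intro P hP
    have h := hzT P hP
    change HasVal P z (if h : ∃ b, HasVal P z b then h.choose else 0)
    rw [dif_pos h]
    exact h.choose_spec
  let m : Place Qb (FB (M * q)) → ℤ := fun P => P.ord f / q
  have hqne : (q : ℤ) ≠ 0 := by exact_mod_cast hqf.out.ne_zero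
  have hm : ∀ P, P.ord f = q * m P := fun P => (Int.mul_ediv_cancel' (hdiv P)).symm
  set S := ((RR.divOf (K := Qb) f).support).filter (fun P => P ∈ tube 𝓗 s) with hS
  have hmemS : ∀ P, P ∈ S ↔ P ∈ tube 𝓗 s ∧ P.ord f ≠ 0 := by
    intro P
    rw [hS, Finset.mem_filter, Finsupp.mem_support_iff, RR.divOf_apply]
    exact and_comm
  have hST : ∀ P ∈ S, P ∈ tube 𝓗 s := fun P hP => ((hmemS P).1 hP).1
  -- equivariance
  have hordU : ∀ σ ∈ U, ∀ P : Place Qb (FB (M * q)), (G (M * q) σ • P).ord f = P.ord f := by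
    intro σ hσ P
    have h1 := ord_G σ P f
    rwa [hfU σ hσ] at h1
  have hmU : ∀ σ ∈ U, ∀ P : Place Qb (FB (M * q)), m (G (M * q) σ • P) = m P := by
    intro σ hσ P
    change _ / _ = _ / _
    rw [hordU σ hσ]
  have hSU : ∀ σ ∈ U, ∀ P, G (M * q) σ • P ∈ S ↔ P ∈ S := by
    intro σ hσ P
    rw [hmemS, hmemS, hordU σ hσ, smul_mem_tube_iff (hUI hσ)]
  have hbU : ∀ σ ∈ U, ∀ P ∈ S, b (G (M * q) σ • P) = σ (b P) := by
    intro σ hσ P hP
    have h1 := hasVal_G (σ := σ) (hb P (hST P hP))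
    rw [hz₀ σ (hUI hσ)] at h1
    exact (hb _ (hST _ ((hSU σ hσ P).2 hP))).unique h1
  obtain ⟨T1, T2, T3⟩ := D.exists_moving hz S hST b (fun P hP => hb P (hST P hP)) m
  set h : FB (M * q) := ∏ P' ∈ S, (z - algebraMap Qb (FB (M * q)) (b P')) ^ m P' with hh
  set a : Qb := ∏ P' ∈ S, (- b P') ^ m P' with ha
  have hinj : ∀ σ : Γℚ, Function.Injective (fun P : Place Qb (FB (M * q)) => G (M * q) σ • P) :=
    fun σ => MulAction.injective (G (M * q) σ)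
  have hhU : h ∈ fixField (M * q) U := by
    intro σ hσ
    have h1 : gal (M * q) σ h = ∏ P' ∈ S, (z - algebraMap Qb (FB (M * q))
        (b (G (M * q) σ • P'))) ^ m (G (M * q) σ • P') := by
      rw [hh, map_prod]
      refine Finset.prod_congr rfl fun P hP => ?_
      rw [map_zpow₀, map_sub, hz₀ σ (hUI hσ), QComp.gal_algebraMap, hbU σ hσ P hP, hmU σ hσ P]
    rw [h1]
    refine Finset.prod_nbij (fun P => G (M * q) σ • P) (fun P hP => (hSU σ hσ P).2 hP)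
      (fun P _ P' _ h => hinj σ h) (fun P hP => ?_) (fun P _ => rfl)
    refine ⟨G (M * q) σ⁻¹ • P, ?_, ?_⟩
    · exact (hSU σ⁻¹ (inv_mem hσ) P).2 hP
    · change G (M * q) σ • G (M * q) σ⁻¹ • P = P
      rw [← G_inv, smul_inv_smul]
  have haU : ∀ σ ∈ U, σ a = a := by
    intro σ hσ
    have h1 : σ a = ∏ P' ∈ S, (- b (G (M * q) σ • P')) ^ m (G (M * q) σ • P') := by
      rw [ha, map_prod]
      refine Finset.prod_congr rfl fun P hP => ?_
      rw [map_zpow₀, map_neg, hbU σ hσ P hP, hmU σ hσ P]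
    rw [h1]
    refine Finset.prod_nbij (fun P => G (M * q) σ • P) (fun P hP => (hSU σ hσ P).2 hP)
      (fun P _ P' _ h => hinj σ h) (fun P hP => ?_) (fun P _ => rfl)
    refine ⟨G (M * q) σ⁻¹ • P, ?_, ?_⟩
    · exact (hSU σ⁻¹ (inv_mem hσ) P).2 hP
    · change G (M * q) σ • G (M * q) σ⁻¹ • P = P
      rw [← G_inv, smul_inv_smul]
  have hb0 : ∀ P ∈ S, b P ≠ 0 := fun P hP =>
    (hz.value D.toNode hϖ (hST P hP) (hb P (hST P hP))).1
  have ha0 : a ≠ 0 := Finset.prod_ne_zero_iff.2 fun P hP =>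
    zpow_ne_zero _ (neg_ne_zero.2 (hb0 P hP))
  have hh0 : h ≠ 0 := by
    intro h0
    rw [h0, zero_div] at T2
    exact one_ne_zero (T2.unique (rInf1 M q hA hπ hs hM).isRed_zero)
  have hhord : ∀ P ∈ tube 𝓗 s, P.ord h = m P := by
    intro P hP
    by_cases hPS : P ∈ S
    · exact (T1 P hP).1 hPS
    · rw [(T1 P hP).2 hPS]
      have h1 : P.ord f = 0 := by
        by_contra h2
        exact hPS ((hmemS P).2 ⟨hP, h2⟩)
      change 0 = P.ord f / q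
      rw [h1, Int.zero_ediv]
  have htϖ : t ∣ (q : A) := htq
  obtain ⟨e1, η, α, hη, hηF, e2⟩ := D.main hz hz₀ hqf.out hπt ht0 htq htϖ
    (E := fixField (M * q) U) (fixField_anti hUI) hE1 hE2 (f := f) (m := m)
    (fun P _ => hm P) hh0 hhU hhord T2 ha0 (algebraMap_mem_fixField.2 haU) T3 hC₁ hC₂ hG₁ hG₂
    hγ₁ hγ₁0 hγ₂ hγ₂0 hf1 hf2
  have hq' : ((q : A) : Qb) = (q : Qb) := by simp
  rw [hq'] at e2
  exact ⟨⟨_, e1⟩, a, η, α, ha0, haU, hη, algebraMap_mem_fixField.1 hηF, e2⟩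

end Main

end Fermat.Agent.MazurP
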