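import Fermat.Agent.QComp.TrHecke

set_option autoImplicit false
set_option linter.unusedSectionVars false

/-!
# Slopes and correspondences (abstract part)
-/

namespace Fermat.Agent.MazurP

open AlgebraicCurve Fermat.Agent.JZ

section Abs

variable {K F F' : Type*} [Field K] [Field F] [Field F'] [Algebra K F] [Algebra K F']
  [HasPrincipalDivisors K F']

/-- If `D` is congruent to the constant `c` at the places related to `Q`, and the correspondence
is "balanced" over `Q`, then the image of `D` is congruent to `deg · c` at `Q`. -/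
theorem dvd_correspondence_sub (be al : F →ₐ[K] F') (hbe : be.toRingHom.IsIntegral)
    (hal : al.toRingHom.IsIntegral) (hFI : FundamentalIdentityAlong K al hal)
    (hdeg : ∀ v : Place K F, v.deg = 1) (hdeg' : ∀ v : Place K F', v.deg = 1)
    (D : Divisor K F) (n c : ℤ) (Q : Place K F)
    (hQ : ∀ w : Place K F', w.restrictAlong al hal = Q →
      w.ramificationIndexAlong al = w.ramificationIndexAlong be ∧
        n ∣ D (w.restrictAlong be hbe) - c) :
    n ∣ Divisor.correspondence be al hbe hal D Q - (finrankAlong K al : ℤ) * c := by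
  classical
  rw [Divisor.correspondence_apply]
  set D1 := Divisor.pullbackAlong be hbe D with hD1
  set D2 := Divisor.pullbackAlong al hal (Finsupp.single Q c) with hD2
  set E : Divisor K F' := Finsupp.mapRange (fun x : ℤ => x / n) (Int.zero_ediv n) (D1 - D2) with hE
  have h1 : ∀ w : Place K F', w.restrictAlong al hal = Q → D1 w = (D2 + n • E) w := by
    intro w hw
    obtain ⟨he, hd⟩ := hQ w hw
    have e1 : D1 w = (w.ramificationIndexAlong be : ℤ) * D (w.restrictAlong be hbe) :=
      Divisor.pullbackAlong_apply be hbe D w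
    have e2 : D2 w = (w.ramificationIndexAlong be : ℤ) * c := by
      rw [hD2, Divisor.pullbackAlong_apply, hw, Finsupp.single_eq_same, he]
    have e3 : n ∣ D1 w - D2 w := by
      rw [e1, e2, ← mul_sub]
      exact hd.mul_left _
    have e4 : (n • E) w = n * ((D1 w - D2 w) / n) := rfl
    rw [Finsupp.add_apply, e4, Int.mul_ediv_cancel' e3]
    ring
  rw [pushforwardAlong_apply_congr al hal Q h1, map_add, map_zsmul, Finsupp.add_apply,
    QComp.pushforwardAlong_pullbackAlong al hal hFI hdeg hdeg']
  have e5 : (finrankAlong K al • (Finsupp.single Q c : Divisor K F)) Q =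
      (finrankAlong K al : ℤ) * c := by
    rw [Finsupp.smul_apply, Finsupp.single_eq_same, nsmul_eq_mul]
  rw [e5, add_sub_cancel_left]
  exact ⟨Divisor.pushforwardAlong al hal E Q, by
    rw [Finsupp.smul_apply, smul_eq_mul]⟩

/-- The version for functions. -/
theorem dvd_ord_normAlong_sub [HasPrincipalDivisors K F] (be al : F →ₐ[K] F')
    (hbe : be.toRingHom.IsIntegral)
    (hal : al.toRingHom.IsIntegral) (hFI : FundamentalIdentityAlong K al hal)
    (hfin : FiniteAlong K al) (hN : NormFormulaAlong K al hfin)
    (hdeg : ∀ v : Place K F, v.deg = 1) (hdeg' : ∀ v : Place K F', v.deg = 1)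
    {u : F} (hu : u ≠ 0) (n c : ℤ) (Q : Place K F)
    (hQ : ∀ w : Place K F', w.restrictAlong al hal = Q →
      w.ramificationIndexAlong al = w.ramificationIndexAlong be ∧
        n ∣ (w.restrictAlong be hbe).ord u - c) :
    n ∣ Q.ord (normAlong al (be u)) - (finrankAlong K al : ℤ) * c := by
  obtain ⟨D, hD, -⟩ := HasPrincipalDivisors.exists_divisor (K := K) u hu
  have h1 := dvd_correspondence_sub be al hbe hal hFI hdeg hdeg' D n c Q
    (fun w hw => ⟨(hQ w hw).1, by rw [hD]; exact (hQ w hw).2⟩)
  rw [Divisor.correspondence_apply] at h1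
  have hbu : be u ≠ 0 := (map_ne_zero be).2 hu
  have h2 := pushforwardAlong_apply_of_ord al hal hfin hN hbu
    (D := Divisor.pullbackAlong be hbe D) (fun w => by
      rw [Divisor.pullbackAlong_apply, hD, ← Place.ord_restrictAlong]) Q
  rwa [h2] at h1

end Abs

end Fermat.Agent.MazurP
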