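import Fermat.Agent.Red.Eval

/-!
# Tubes over nodes

An elementary substitute for the analytic theory of annuli over the ordinary double points of a
semistable reduction: `T` is the set of places of `F / K` specialising to a node, which is given
by places `Q₁`, `Q₂` of the two components meeting there.
-/

set_option autoImplicit false
set_option linter.unusedSectionVars false

open AlgebraicCurve

namespace Fermat.Agent.MazurP

open Fermat.Agent.FF Fermat.Agent.Red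

variable {K k : Type*} [Field K] [Field k] {A : ValuationSubring K} {π : A →+* k}
  {F κ₁ κ₂ : Type*} [Field F] [Algebra K F] [Field κ₁] [Algebra k κ₁] [Field κ₂] [Algebra k κ₂]

/-- the functions which are integral on both components and regular on the tube -/
def locRing (R₁ : ConstRed A π F κ₁) (R₂ : ConstRed A π F κ₂) (T : Set (Place K F)) :
    Subring F where
  carrier := {g | g ∈ R₁.O ∧ g ∈ R₂.O ∧ ∀ P ∈ T, g ∈ P.toValuationSubring}
  mul_mem' ha hb := ⟨mul_mem ha.1 hb.1, mul_mem ha.2.1 hb.2.1, fun P hP =>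
    mul_mem (ha.2.2 P hP) (hb.2.2 P hP)⟩
  one_mem' := ⟨one_mem _, one_mem _, fun _ _ => one_mem _⟩
  add_mem' ha hb := ⟨add_mem ha.1 hb.1, add_mem ha.2.1 hb.2.1, fun P hP =>
    add_mem (ha.2.2 P hP) (hb.2.2 P hP)⟩
  zero_mem' := ⟨zero_mem _, zero_mem _, fun _ _ => zero_mem _⟩
  neg_mem' ha := ⟨neg_mem ha.1, neg_mem ha.2.1, fun P hP => neg_mem (ha.2.2 P hP)⟩

variable {R₁ : ConstRed A π F κ₁} {R₂ : ConstRed A π F κ₂} {Q₁ : Place k κ₁} {Q₂ : Place k κ₂}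
  {T : Set (Place K F)}

theorem mem_locRing {g : F} : g ∈ locRing R₁ R₂ T ↔
    g ∈ R₁.O ∧ g ∈ R₂.O ∧ ∀ P ∈ T, g ∈ P.toValuationSubring := Iff.rfl

theorem algebraMap_mem_locRing {a : K} (ha : a ∈ A) : algebraMap K F a ∈ locRing R₁ R₂ T :=
  ⟨(R₁.algebraMap_mem_iff a).2 ha, (R₂.algebraMap_mem_iff a).2 ha, fun P _ => P.algebraMap_mem' a⟩

theorem locRing_symm {g : F} (h : g ∈ locRing R₁ R₂ T) : g ∈ locRing R₂ R₁ T :=
  ⟨h.2.1, h.1, h.2.2⟩

section Val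

variable {L E : Type*} [Field L] [Field E] [Algebra L E] [IsAlgClosed L] [IsFnField L E]
  {v : Place L E} {g : E} {c : L}

theorem hasVal_ne_zero (h : HasVal v g c) (hc : c ≠ 0) : g ≠ 0 := by
  rintro rfl
  exact hc (h.unique (hasVal_zero v))

theorem hasVal_ne_zero_iff (h : HasVal v g c) : c ≠ 0 ↔ (g ≠ 0 ∧ v.ord g = 0) := by
  constructor
  · exact fun hc => ⟨hasVal_ne_zero h hc, h.ord_eq_zero hc⟩
  · rintro ⟨h1, h2⟩ rfl
    rcases hasVal_zero_iff.1 h with h3 | h3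
    · exact h1 h3
    · omega

theorem hasVal_zero_of_pos (h : 0 < v.ord g) : HasVal v g 0 := hasVal_zero_iff.2 (Or.inr h)

theorem hasVal_ord_pos (h : HasVal v g 0) (hg : g ≠ 0) : 0 < v.ord g :=
  (hasVal_zero_iff.1 h).resolve_left hg

end Val

variable [IsAlgClosed K] [IsFnField K F] [IsAlgClosed k] [IsFnField k κ₁] [IsFnField k κ₂]

/-- The tube `T` over the node `(Q₁, Q₂)`. -/
structure Node (R₁ : ConstRed A π F κ₁) (R₂ : ConstRed A π F κ₂) (Q₁ : Place k κ₁)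
    (Q₂ : Place k κ₂) (T : Set (Place K F)) : Prop where
  glue : ∀ g ∈ locRing R₁ R₂ T, ∃ c : k, HasVal Q₁ (R₁.rd g) c ∧ HasVal Q₂ (R₂.rd g) c ∧
    ∀ P ∈ T, ∀ b : K, HasVal P g b → ∃ hb : b ∈ A, π ⟨b, hb⟩ = c

theorem Node.symm (N : Node R₁ R₂ Q₁ Q₂ T) : Node R₂ R₁ Q₂ Q₁ T where
  glue g hg := by
    obtain ⟨c, h1, h2, h3⟩ := N.glue g (locRing_symm hg)
    exact ⟨c, h2, h1, h3⟩

namespace Node

variable (N : Node R₁ R₂ Q₁ Q₂ T)

include N

/-- **(T1)** a function without zeros or poles on the tube whose reduction on the first component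
is a unit at the node, is a unit at the node. -/
theorem unit {g : F} (hg : g ≠ 0) (hT : ∀ P ∈ T, P.ord g = 0) {g₁ : κ₁} (h1 : R₁.IsRed g g₁)
    (h10 : g₁ ≠ 0) (hQ : Q₁.ord g₁ = 0) : g ∈ locRing R₁ R₂ T ∧ g⁻¹ ∈ locRing R₁ R₂ T := by
  have hT1 : ∀ P ∈ T, g ∈ P.toValuationSubring := fun P hP =>
    mem_of_ord_nonneg P (hT P hP).ge
  have hT2 : ∀ P ∈ T, g⁻¹ ∈ P.toValuationSubring := fun P hP =>
    mem_of_ord_nonneg P (by rw [P.ord_inv, hT P hP]; simp)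
  have hi1 := h1.inv h10
  -- a unit of the local ring on the first component is not in the maximal ideal of the second
  have key : ∀ g' ∈ locRing R₁ R₂ T, ∀ z : κ₁, z ≠ 0 → Q₁.ord z = 0 → R₁.IsRed g' z →
      g'⁻¹ ∈ R₂.O := by
    intro g' hg' z hz hz' hr
    obtain ⟨c, hc1, hc2, -⟩ := N.glue g' hg'
    rw [hr.rd_eq] at hc1
    have hc0 : c ≠ 0 := (hasVal_ne_zero_iff hc1).2 ⟨hz, hz'⟩
    have h3 := hasVal_ne_zero hc2 hc0
    exact ((R₂.isRed_rd hg'.2.1).inv h3).mem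
  obtain ⟨a, ha, h3, h4⟩ := R₂.exists_scale g hg
  have ha' : algebraMap K F a ≠ 0 := by simpa using ha
  rcases A.mem_or_inv_mem a with hA | hA
  · -- `g⁻¹` is integral
    have h5 : g⁻¹ ∈ R₂.O := by
      have h6 := mul_mem ((R₂.algebraMap_mem_iff a).2 hA) h4
      have e : algebraMap K F a * (algebraMap K F a * g)⁻¹ = g⁻¹ := by
        field_simp
      rwa [e] at h6
    have h6 : g⁻¹ ∈ locRing R₁ R₂ T := ⟨hi1.mem, h5, hT2⟩
    have h7 := key g⁻¹ h6 g₁⁻¹ (inv_ne_zero h10) (by rw [Q₁.ord_inv, hQ]; simp) hi1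
    rw [inv_inv] at h7
    exact ⟨⟨h1.mem, h7, hT1⟩, h6⟩
  · have h5 : g ∈ R₂.O := by
      have h6 := mul_mem ((R₂.algebraMap_mem_iff a⁻¹).2 hA) h3
      have e : algebraMap K F a⁻¹ * (algebraMap K F a * g) = g := by
        rw [map_inv₀]
        field_simp
      rwa [e] at h6
    have h6 : g ∈ locRing R₁ R₂ T := ⟨h1.mem, h5, hT1⟩
    exact ⟨h6, ⟨hi1.mem, key g h6 g₁ h10 hQ h1, hT2⟩⟩

/-- a function of the local ring with vanishing reduction on the first component has a reduction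
with value `0` on the other component. -/
theorem ord_pos_of_isRed_zero {g : F} (hg : g ∈ locRing R₁ R₂ T) (h1 : R₁.IsRed g 0) {g₂ : κ₂}
    (h2 : R₂.IsRed g g₂) (h20 : g₂ ≠ 0) : 0 < Q₂.ord g₂ := by
  obtain ⟨c, hc1, hc2, -⟩ := N.glue g hg
  rw [h1.rd_eq] at hc1
  rw [h2.rd_eq] at hc2
  rw [hc1.unique (hasVal_zero Q₁)] at hc2
  exact hasVal_ord_pos hc2 h20

/-- values of functions of the local ring at points of the tube -/
theorem value {g : F} (hg : g ∈ locRing R₁ R₂ T) {c : k} {g₁ : κ₁} (h1 : R₁.IsRed g g₁)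
    (hc : HasVal Q₁ g₁ c) {P : Place K F} (hP : P ∈ T) {b : K} (hb : HasVal P g b) :
    ∃ hb : b ∈ A, π ⟨b, hb⟩ = c := by
  obtain ⟨c', hc1, -, h3⟩ := N.glue g hg
  rw [h1.rd_eq] at hc1
  rw [hc.unique hc1]
  exact h3 P hP b hb

theorem mem_of_value {g : F} (hg : g ∈ locRing R₁ R₂ T) {P : Place K F} (hP : P ∈ T) {b : K}
    (hb : HasVal P g b) : b ∈ A := by
  obtain ⟨c', -, -, h3⟩ := N.glue g hg
  exact (h3 P hP b hb).1

end Node

/-- a regular parameter at the node: a uniformizer on the first component, with `ϖ / z` a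
uniformizer on the second component -/
structure Param (R₁ : ConstRed A π F κ₁) (R₂ : ConstRed A π F κ₂) (Q₁ : Place k κ₁)
    (Q₂ : Place k κ₂) (T : Set (Place K F)) (ϖ : A) (z : F) : Prop where
  mem : z ∈ locRing R₁ R₂ T
  mem' : algebraMap K F ϖ / z ∈ locRing R₁ R₂ T
  red1 : ∃ z₁, R₁.IsRed z z₁ ∧ Q₁.ord z₁ = 1
  red2 : ∃ y₂, R₂.IsRed (algebraMap K F ϖ / z) y₂ ∧ Q₂.ord y₂ = 1

theorem ne_zero_of_ord_eq_one {L E : Type*} [Field L] [Field E] [Algebra L E] {v : Place L E}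
    {g : E} (h : v.ord g = 1) : g ≠ 0 := by
  rintro rfl
  simp at h

namespace Param

variable {ϖ : A} {z : F} (h : Param R₁ R₂ Q₁ Q₂ T ϖ z)

include h

theorem ne_zero : z ≠ 0 := by
  obtain ⟨z₁, h1, h2⟩ := h.red1
  exact h1.ne_zero (ne_zero_of_ord_eq_one h2)

theorem div_ne_zero : algebraMap K F ϖ / z ≠ 0 := by
  obtain ⟨z₁, h1, h2⟩ := h.red2
  exact h1.ne_zero (ne_zero_of_ord_eq_one h2)

theorem red1' (hϖ : π ϖ = 0) : R₁.IsRed (algebraMap K F ϖ / z) 0 := by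
  obtain ⟨z₁, h1, h2⟩ := h.red1
  have h3 := (R₁.isRed_coe ϖ).div h1 (ne_zero_of_ord_eq_one h2)
  rwa [hϖ, map_zero, zero_div] at h3

theorem ϖ_ne : algebraMap K F ϖ ≠ 0 := by
  intro h0
  apply h.div_ne_zero
  rw [h0, zero_div]

theorem red2' (hϖ : π ϖ = 0) : R₂.IsRed z 0 := by
  obtain ⟨z₁, h1, h2⟩ := h.red2
  have h3 := (R₂.isRed_coe ϖ).div h1 (ne_zero_of_ord_eq_one h2)
  rw [hϖ, map_zero, zero_div] at h3
  convert h3 using 1
  have := h.ϖ_ne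
  have := h.ne_zero
  field_simp

theorem ord_eq_zero {P : Place K F} (hP : P ∈ T) : P.ord z = 0 := by
  have h1 := ord_nonneg_of_mem P (h.mem.2.2 P hP)
  have h2 := ord_nonneg_of_mem P (h.mem'.2.2 P hP)
  rw [div_eq_mul_inv, P.ord_mul h.ϖ_ne (inv_ne_zero h.ne_zero), P.ord_inv, ord_algebraMap] at h2
  omega

/-- values of a parameter -/
theorem value (N : Node R₁ R₂ Q₁ Q₂ T) (hϖ : π ϖ = 0) {P : Place K F} (hP : P ∈ T) {b : K}
    (hb : HasVal P z b) :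
    b ≠ 0 ∧ (∃ hb : b ∈ A, π ⟨b, hb⟩ = 0) ∧ HasVal P (algebraMap K F ϖ / z) (ϖ / b) ∧
      ∃ hb : ϖ / b ∈ A, π ⟨ϖ / b, hb⟩ = 0 := by
  obtain ⟨z₁, h1, h2⟩ := h.red1
  have hb0 : b ≠ 0 := by
    rw [hasVal_ne_zero_iff hb]
    exact ⟨h.ne_zero, h.ord_eq_zero hP⟩
  have h3 : HasVal P (algebraMap K F ϖ / z) (ϖ / b) := (hasVal_algebraMap P _).div hb hb0
  refine ⟨hb0, ?_, h3, ?_⟩
  · exact N.value h.mem h1 (hasVal_zero_of_pos (by rw [h2]; norm_num)) hP hb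
  · exact N.value h.mem' (h.red1' hϖ) (hasVal_zero Q₁) hP h3

end Param

/-- a level: a subfield of `F` on which the reductions have a uniformizer `d` -/
structure Lev (R₁ : ConstRed A π F κ₁) (R₂ : ConstRed A π F κ₂) (E : Subfield F) (d : A) :
    Prop where
  mem : algebraMap K F d ∈ E
  ne : d ≠ 0
  red : π d = 0
  unif1 : ∀ g ∈ E, R₁.IsRed g 0 → g / algebraMap K F d ∈ R₁.O
  unif2 : ∀ g ∈ E, R₂.IsRed g 0 → g / algebraMap K F d ∈ R₂.O

/-- the structure on a tube which is used in the analysis of functions on it -/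
structure TubeData (R₁ : ConstRed A π F κ₁) (R₂ : ConstRed A π F κ₂) (Q₁ : Place k κ₁)
    (Q₂ : Place k κ₂) (T : Set (Place K F)) (F₀ : Subfield F) (ϖ : A) : Prop
    extends Node R₁ R₂ Q₁ Q₂ T where
  lift : ∀ b₁ b₂ c, HasVal Q₁ b₁ c → HasVal Q₂ b₂ c → ∃ g ∈ F₀, g ∈ locRing R₁ R₂ T ∧
    R₁.IsRed g b₁ ∧ R₂.IsRed g b₂
  const : ∀ c : k, ∃ a : A, π a = c ∧ algebraMap K F a ∈ F₀
  lev : Lev R₁ R₂ F₀ ϖ
  disc : ∀ s : Finset F, ∃ (E : Subfield F) (d : A), F₀ ≤ E ∧ (∀ x ∈ s, x ∈ E) ∧ Lev R₁ R₂ E d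
  arch : ∀ a d : A, a ≠ 0 → π d = 0 → ∃ n : ℕ, ¬ d ^ n ∣ a
  sep : ∀ P ∈ T, ∀ P' ∈ T, P ≠ P' → ∃ g ∈ locRing R₁ R₂ T, ∃ a a', HasVal P g a ∧ HasVal P' g a' ∧
    a ≠ a'
  unifP : ∀ P ∈ T, ∃ g ∈ locRing R₁ R₂ T, P.ord g = 1

namespace TubeData

variable {F₀ : Subfield F} {ϖ : A} (D : TubeData R₁ R₂ Q₁ Q₂ T F₀ ϖ)

include D

/-- decomposition of functions in the local ring of the node -/
theorem decomp {z : F} (hz : Param R₁ R₂ Q₁ Q₂ T ϖ z) {E : Subfield F} {d : A} (hE : F₀ ≤ E)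
    (hL : Lev R₁ R₂ E d) (hzE : z ∈ E) {b : K} (hbE : algebraMap K F b ∈ E)
    (hb : ∃ hb : b ∈ A, π ⟨b, hb⟩ = 0) (hb' : ∃ hb : ϖ / b ∈ A, π ⟨ϖ / b, hb⟩ = 0)
    {g : F} (hg : g ∈ locRing R₁ R₂ T) (hgE : g ∈ E) :
    ∃ (c : A) (g₁ g₂ g₃ : F), g₁ ∈ locRing R₁ R₂ T ∧ g₂ ∈ locRing R₁ R₂ T ∧
      g₃ ∈ locRing R₁ R₂ T ∧ g₃ ∈ E ∧ g = algebraMap K F c + (z - algebraMap K F b) * g₁ +
        (algebraMap K F ϖ / z - algebraMap K F (ϖ / b)) * g₂ + algebraMap K F d * g₃ := by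
  obtain ⟨hbA, hb0⟩ := hb
  obtain ⟨hbA', hb0'⟩ := hb'
  obtain ⟨c₀, h1, h2, -⟩ := D.glue g hg
  obtain ⟨c, hc, hcF⟩ := D.const c₀
  obtain ⟨z₁, hz1, hz1o⟩ := hz.red1
  obtain ⟨y₂, hy2, hy2o⟩ := hz.red2
  have hz10 : z₁ ≠ 0 := ne_zero_of_ord_eq_one hz1o
  have hy20 : y₂ ≠ 0 := ne_zero_of_ord_eq_one hy2o
  have hϖ := D.lev.red
  -- the two reductions
  have hb1 : ∃ β, HasVal Q₁ ((R₁.rd g - algebraMap k κ₁ c₀) / z₁) β := by
    apply exists_hasVal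
    rcases hasVal_iff.1 h1 with h3 | h3
    · rw [h3, zero_div]; simp
    · rw [div_eq_mul_inv]
      by_cases h4 : R₁.rd g - algebraMap k κ₁ c₀ = 0
      · rw [h4, zero_mul]; simp
      rw [Q₁.ord_mul h4 (inv_ne_zero hz10), Q₁.ord_inv, hz1o]
      omega
  have hb2 : ∃ β, HasVal Q₂ ((R₂.rd g - algebraMap k κ₂ c₀) / y₂) β := by
    apply exists_hasVal
    rcases hasVal_iff.1 h2 with h3 | h3
    · rw [h3, zero_div]; simp
    · rw [div_eq_mul_inv]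
      by_cases h4 : R₂.rd g - algebraMap k κ₂ c₀ = 0
      · rw [h4, zero_mul]; simp
      rw [Q₂.ord_mul h4 (inv_ne_zero hy20), Q₂.ord_inv, hy2o]
      omega
  obtain ⟨β₁, hβ₁⟩ := hb1
  obtain ⟨β₂, hβ₂⟩ := hb2
  obtain ⟨g₁, hg₁F, hg₁, hg₁1, hg₁2⟩ := D.lift _ _ β₁ hβ₁ (hasVal_algebraMap Q₂ β₁)
  obtain ⟨g₂, hg₂F, hg₂, hg₂1, hg₂2⟩ := D.lift _ _ β₂ (hasVal_algebraMap Q₁ β₂) hβ₂
  have hzb : R₁.IsRed (z - algebraMap K F b) z₁ := by
    have := hz1.sub (R₁.isRed_algebraMap hbA)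
    rwa [hb0, map_zero, sub_zero] at this
  have hzb2 : R₂.IsRed (z - algebraMap K F b) 0 := by
    have := (hz.red2' hϖ).sub (R₂.isRed_algebraMap hbA)
    rwa [hb0, map_zero, sub_zero] at this
  have hyb : R₁.IsRed (algebraMap K F ϖ / z - algebraMap K F (ϖ / b)) 0 := by
    have := (hz.red1' hϖ).sub (R₁.isRed_algebraMap hbA')
    rwa [hb0', map_zero, sub_zero] at this
  have hyb2 : R₂.IsRed (algebraMap K F ϖ / z - algebraMap K F (ϖ / b)) y₂ := by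
    have := hy2.sub (R₂.isRed_algebraMap hbA')
    rwa [hb0', map_zero, sub_zero] at this
  set r := g - (algebraMap K F c + (z - algebraMap K F b) * g₁ +
        (algebraMap K F ϖ / z - algebraMap K F (ϖ / b)) * g₂) with hr
  have hr1 : R₁.IsRed r 0 := by
    have := (R₁.isRed_rd hg.1).sub (((R₁.isRed_coe c).add (hzb.mul hg₁1)).add (hyb.mul hg₂1))
    rw [zero_mul, add_zero, mul_div_cancel₀ _ hz10, hc, add_sub_cancel, sub_self] at this
    exact this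
  have hr2 : R₂.IsRed r 0 := by
    have := (R₂.isRed_rd hg.2.1).sub (((R₂.isRed_coe c).add (hzb2.mul hg₁2)).add (hyb2.mul hg₂2))
    rw [zero_mul, add_zero, mul_div_cancel₀ _ hy20, hc, add_sub_cancel, sub_self] at this
    exact this
  have hbL : algebraMap K F b ∈ locRing R₁ R₂ T := algebraMap_mem_locRing hbA
  have hbL' : algebraMap K F (ϖ / b) ∈ locRing R₁ R₂ T := algebraMap_mem_locRing hbA'
  have hrL : r ∈ locRing R₁ R₂ T := by
    refine sub_mem hg (add_mem (add_mem (algebraMap_mem_locRing c.2) (mul_mem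
      (sub_mem hz.mem hbL) hg₁)) (mul_mem (sub_mem hz.mem' hbL') hg₂))
  have hϖE : algebraMap K F ϖ ∈ E := hE D.lev.mem
  have hrE : r ∈ E := by
    have h5 : algebraMap K F (ϖ / b) ∈ E := by
      rw [map_div₀]
      exact div_mem hϖE hbE
    exact sub_mem hgE (add_mem (add_mem (hE hcF) (mul_mem (sub_mem hzE hbE) (hE hg₁F)))
      (mul_mem (sub_mem (div_mem hϖE hzE) h5) (hE hg₂F)))
  have hd0 : algebraMap K F d ≠ 0 := by
    simpa using hL.ne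
  refine ⟨c, g₁, g₂, r / algebraMap K F d, hg₁, hg₂, ⟨hL.unif1 r hrE hr1, hL.unif2 r hrE hr2,
    fun P hP => ?_⟩, div_mem hrE hL.mem, ?_⟩
  · rw [div_eq_mul_inv, ← map_inv₀]
    exact mul_mem (hrL.2.2 P hP) (P.algebraMap_mem' _)
  · rw [mul_div_cancel₀ _ hd0, hr]
    ring

/-- values at two points of the tube with the same parameter are congruent modulo every power -/
theorem value_sub_dvd {z : F} (hz : Param R₁ R₂ Q₁ Q₂ T ϖ z) {P P' : Place K F} (hP : P ∈ T)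
    (hP' : P' ∈ T) {b : K} (hb : HasVal P z b) (hb' : HasVal P' z b) {E : Subfield F} {d : A}
    (hE : F₀ ≤ E) (hL : Lev R₁ R₂ E d) (hzE : z ∈ E) (hbE : algebraMap K F b ∈ E) (n : ℕ) :
    ∀ g ∈ locRing R₁ R₂ T, g ∈ E → ∀ a a' : A, HasVal P g a → HasVal P' g a' → d ^ n ∣ a - a' := by
  have hϖ := D.lev.red
  obtain ⟨hb0, h1, h2, h3⟩ := hz.value D.toNode hϖ hP hb
  obtain ⟨-, -, h2', -⟩ := hz.value D.toNode hϖ hP' hb'
  induction n with
  | zero => intro g _ _ a a' _ _; simp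
  | succ n ih =>
    intro g hg hgE a a' ha ha'
    obtain ⟨c, g₁, g₂, g₃, hg₁, hg₂, hg₃, hg₃E, heq⟩ := D.decomp hz hE hL hzE hbE h1 h3 hg hgE
    obtain ⟨v₁, hv₁⟩ := exists_hasVal (ord_nonneg_of_mem P (hg₁.2.2 P hP))
    obtain ⟨v₂, hv₂⟩ := exists_hasVal (ord_nonneg_of_mem P (hg₂.2.2 P hP))
    obtain ⟨v₃, hv₃⟩ := exists_hasVal (ord_nonneg_of_mem P (hg₃.2.2 P hP))
    obtain ⟨w₁, hw₁⟩ := exists_hasVal (ord_nonneg_of_mem P' (hg₁.2.2 P' hP'))
    obtain ⟨w₂, hw₂⟩ := exists_hasVal (ord_nonneg_of_mem P' (hg₂.2.2 P' hP'))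
    obtain ⟨w₃, hw₃⟩ := exists_hasVal (ord_nonneg_of_mem P' (hg₃.2.2 P' hP'))
    have hv₃A := D.mem_of_value hg₃ hP hv₃
    have hw₃A := D.mem_of_value hg₃ hP' hw₃
    have e1 : (a : K) = c + d * v₃ := by
      have h4 := ((((hasVal_algebraMap P (c : K)).add ((hb.sub (hasVal_algebraMap P b)).mul
        hv₁)).add ((h2.sub (hasVal_algebraMap P (ϖ / b))).mul hv₂)).add
        ((hasVal_algebraMap P (d : K)).mul hv₃))
      rw [← heq] at h4
      rw [ha.unique h4]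
      ring
    have e2 : (a' : K) = c + d * w₃ := by
      have h4 := ((((hasVal_algebraMap P' (c : K)).add ((hb'.sub (hasVal_algebraMap P' b)).mul
        hw₁)).add ((h2'.sub (hasVal_algebraMap P' (ϖ / b))).mul hw₂)).add
        ((hasVal_algebraMap P' (d : K)).mul hw₃))
      rw [← heq] at h4
      rw [ha'.unique h4]
      ring
    obtain ⟨m, hm⟩ := ih g₃ hg₃ hg₃E ⟨v₃, hv₃A⟩ ⟨w₃, hw₃A⟩ hv₃ hw₃
    refine ⟨m, Subtype.ext ?_⟩
    have hm' : v₃ - w₃ = d ^ n * (m : K) := by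
      have := congrArg (Subtype.val) hm
      simpa using this
    push_cast
    rw [e1, e2, pow_succ]
    linear_combination (d : K) * hm'

/-- **(T2)** a parameter is injective on the tube -/
theorem injective {z : F} (hz : Param R₁ R₂ Q₁ Q₂ T ϖ z) {P P' : Place K F} (hP : P ∈ T)
    (hP' : P' ∈ T) {b : K} (hb : HasVal P z b) (hb' : HasVal P' z b) : P = P' := by
  classical
  by_contra hne
  obtain ⟨g, hg, a, a', ha, ha', haa'⟩ := D.sep P hP P' hP' hne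
  obtain ⟨E, d, hE, hs, hL⟩ := D.disc {z, algebraMap K F b, g}
  have haA := D.mem_of_value hg hP ha
  have haA' := D.mem_of_value hg hP' ha'
  obtain ⟨n, hn⟩ := D.arch (⟨a, haA⟩ - ⟨a', haA'⟩) d (by
    intro h
    apply haa'
    have := congrArg Subtype.val h
    simpa [sub_eq_zero] using this) hL.red
  exact hn (D.value_sub_dvd hz hP hP' hb hb' hE hL (hs z (by simp)) (hs _ (by simp)) n g hg
    (hs g (by simp)) ⟨a, haA⟩ ⟨a', haA'⟩ ha ha')

end TubeData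

end Fermat.Agent.MazurP
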