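import Fermat.Agent.MazurP.Tube
import Mathlib.Algebra.CharP.Lemmas

/-!
# Tubes over nodes: functions whose divisor is divisible by `p`
-/

set_option autoImplicit false
set_option linter.unusedSectionVars false

open AlgebraicCurve

namespace Fermat.Agent.MazurP

open Fermat.Agent.FF Fermat.Agent.Red

variable {K k : Type*} [Field K] [Field k] {A : ValuationSubring K} {π : A →+* k}
  {F κ₁ κ₂ : Type*} [Field F] [Algebra K F] [Field κ₁] [Algebra k κ₁] [Field κ₂] [Algebra k κ₂]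

section One

variable {κ : Type*} [Field κ] [Algebra k κ] {R : ConstRed A π F κ} {t : A}

theorem isRed_one_zpow {y : F} (hy : R.IsRed y 1) (n : ℤ) : R.IsRed (y ^ n) 1 := by
  cases n with
  | ofNat n => simpa using hy.pow n
  | negSucc n =>
    rw [zpow_negSucc]
    simpa using (hy.pow (n + 1)).inv (by simp)

theorem zpow_sum_eq {ι E : Type*} [Field E] (s : Finset ι) {z : E} (hz : z ≠ 0) (m : ι → ℤ) :
    z ^ (∑ i ∈ s, m i) = ∏ i ∈ s, z ^ m i := by
  classical
  induction s using Finset.induction_on with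
  | empty => simp
  | insert a s ha ih => rw [Finset.sum_insert ha, Finset.prod_insert ha, zpow_add₀ hz, ih]

/-- elements of `1 + t O` -/
def One (R : ConstRed A π F κ) (t : A) (x : F) : Prop := ∃ y ∈ R.O, x = 1 + algebraMap K F t * y

theorem one_one : One R t 1 := ⟨0, zero_mem _, by simp⟩

theorem One.mul {x y : F} (hx : One R t x) (hy : One R t y) : One R t (x * y) := by
  obtain ⟨a, ha, rfl⟩ := hx
  obtain ⟨b, hb, rfl⟩ := hy
  refine ⟨a + b + algebraMap K F t * a * b, ?_, by ring⟩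
  exact add_mem (add_mem ha hb) (mul_mem (mul_mem ((R.algebraMap_mem_iff _).2 t.2) ha) hb)

theorem One.isRed {x : F} (hx : One R t x) (ht : π t = 0) : R.IsRed x 1 := by
  obtain ⟨a, ha, rfl⟩ := hx
  obtain ⟨z, hz⟩ := R.exists_isRed_of_mem ha
  have := R.isRed_one.add ((R.isRed_coe t).mul hz)
  rwa [ht, map_zero, zero_mul, add_zero] at this

theorem One.inv {x : F} (hx : One R t x) (ht : π t = 0) : One R t x⁻¹ := by
  have h1 := hx.isRed ht
  have h2 := h1.inv one_ne_zero
  have h3 := h1.ne_zero one_ne_zero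
  obtain ⟨a, ha, hax⟩ := hx
  refine ⟨-(a * x⁻¹), neg_mem (mul_mem ha h2.mem), ?_⟩
  have e : x * x⁻¹ = 1 := mul_inv_cancel₀ h3
  have e2 : x - algebraMap K F t * a = 1 := by rw [hax]; ring
  calc x⁻¹ = (x - algebraMap K F t * a) * x⁻¹ := by rw [e2, one_mul]
    _ = x * x⁻¹ - algebraMap K F t * (a * x⁻¹) := by ring
    _ = _ := by rw [e]; ring

theorem One.div {x y : F} (hx : One R t x) (hy : One R t y) (ht : π t = 0) : One R t (x / y) := by
  rw [div_eq_mul_inv]
  exact hx.mul (hy.inv ht)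

theorem One.pow {x : F} (hx : One R t x) (n : ℕ) : One R t (x ^ n) := by
  induction n with
  | zero => rw [pow_zero]; exact one_one
  | succ n ih => rw [pow_succ]; exact ih.mul hx

/-- `p`-th powers of elements of `1 + m` with `m ^ p ⊂ t O` -/
theorem one_pth_pow {p : ℕ} (hp : p.Prime) (hpt : t ∣ (p : A)) {e : F} (he : e ∈ R.O)
    (het : ∃ y ∈ R.O, e ^ p = algebraMap K F t * y) : One R t ((1 + e) ^ p) := by
  obtain ⟨y, hy, hey⟩ := het
  obtain ⟨c, hc⟩ := hpt
  obtain ⟨r, hr⟩ := exists_add_pow_prime_eq hp (1 : R.O) ⟨e, he⟩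
  have hr' : (1 + e) ^ p = 1 + e ^ p + p * e * (r : F) := by
    have := congrArg (Subtype.val) hr
    push_cast at this
    rw [one_pow, mul_one] at this
    exact this
  refine ⟨y + algebraMap K F c * e * r, add_mem hy (mul_mem (mul_mem
    ((R.algebraMap_mem_iff _).2 c.2) he) r.2), ?_⟩
  have hc' : (p : F) = algebraMap K F t * algebraMap K F c := by
    rw [← map_mul]
    have := congrArg (Subtype.val) hc
    push_cast at this
    rw [← this, map_natCast]
  rw [hr', hey, hc']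
  ring

end One

variable {R₁ : ConstRed A π F κ₁} {R₂ : ConstRed A π F κ₂} {Q₁ : Place k κ₁} {Q₂ : Place k κ₂}
  {T : Set (Place K F)}

variable [IsAlgClosed K] [IsFnField K F] [IsAlgClosed k] [IsFnField k κ₁] [IsFnField k κ₂]

namespace TubeData

variable {F₀ : Subfield F} {ϖ : A} (D : TubeData R₁ R₂ Q₁ Q₂ T F₀ ϖ)

include D

theorem one_add_inv_mem {g : F} (hg : g ∈ locRing R₁ R₂ T) :
    1 + algebraMap K F ϖ * g ∈ locRing R₁ R₂ T ∧ (1 + algebraMap K F ϖ * g)⁻¹ ∈ locRing R₁ R₂ T ∧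
      R₁.IsRed (1 + algebraMap K F ϖ * g) 1 ∧ R₂.IsRed (1 + algebraMap K F ϖ * g) 1 := by
  have h1 : R₁.IsRed (1 + algebraMap K F ϖ * g) 1 := by
    have := R₁.isRed_one.add ((R₁.isRed_coe ϖ).mul (R₁.isRed_rd hg.1))
    rwa [D.lev.red, map_zero, zero_mul, add_zero] at this
  have h2 : R₂.IsRed (1 + algebraMap K F ϖ * g) 1 := by
    have := R₂.isRed_one.add ((R₂.isRed_coe ϖ).mul (R₂.isRed_rd hg.2.1))
    rwa [D.lev.red, map_zero, zero_mul, add_zero] at this
  have hT : ∀ P ∈ T, P.ord (1 + algebraMap K F ϖ * g) = 0 := by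
    intro P hP
    obtain ⟨a, ha⟩ := exists_hasVal (ord_nonneg_of_mem P (hg.2.2 P hP))
    have haA := D.mem_of_value hg hP ha
    have h3 := (hasVal_one P).add ((hasVal_algebraMap P (ϖ : K)).mul ha)
    refine h3.ord_eq_zero fun h0 => ?_
    have h4 : (1 + ϖ * ⟨a, haA⟩ : A) = 0 := Subtype.ext h0
    have h5 := congrArg π h4
    rw [map_add, map_mul, D.lev.red, zero_mul, add_zero, map_one, map_zero] at h5
    exact one_ne_zero h5
  obtain ⟨h3, h4⟩ := D.unit (h1.ne_zero one_ne_zero) hT h1 one_ne_zero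
    (by simp)
  exact ⟨h3, h4, h1, h2⟩

/-- **(T3)** the parameter takes each value with multiplicity one -/
theorem ord_sub_eq_one {z : F} (hz : Param R₁ R₂ Q₁ Q₂ T ϖ z) {P : Place K F} (hP : P ∈ T)
    {b : K} (hb : HasVal P z b) : P.ord (z - algebraMap K F b) = 1 := by
  have hϖ := D.lev.red
  obtain ⟨hb0, ⟨hbA, hbπ⟩, hb', ⟨hbA', hbπ'⟩⟩ := hz.value D.toNode hϖ hP hb
  obtain ⟨z₁, hz1, hz1o⟩ := hz.red1
  obtain ⟨y₂, hy2, hy2o⟩ := hz.red2
  have hz10 : z₁ ≠ 0 := ne_zero_of_ord_eq_one hz1o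
  have hy20 : y₂ ≠ 0 := ne_zero_of_ord_eq_one hy2o
  obtain ⟨g, hg, hgo⟩ := D.unifP P hP
  obtain ⟨hc1, hc2, hc3, hc4⟩ := D.one_add_inv_mem hg
  set v := 1 + algebraMap K F ϖ * g with hv
  have hv0 : v ≠ 0 := hc3.ne_zero one_ne_zero
  have hzc : Param R₁ R₂ Q₁ Q₂ T ϖ (z * v) := by
    refine ⟨mul_mem hz.mem hc1, ?_, ⟨z₁, ?_, hz1o⟩, ⟨y₂, ?_, hy2o⟩⟩
    · rw [← div_div, div_eq_mul_inv _ v]
      exact mul_mem hz.mem' hc2
    · simpa using hz1.mul hc3
    · rw [← div_div]
      simpa using hy2.div hc4 one_ne_zero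
  have hzcb : HasVal P (z * v) b := by
    have h1 := hb.mul ((hasVal_one P).add ((hasVal_algebraMap P (ϖ : K)).mul
      (hasVal_zero_of_pos (by rw [hgo]; norm_num : 0 < P.ord g))))
    rwa [mul_zero, add_zero, mul_one] at h1
  have hzb : R₁.IsRed (z - algebraMap K F b) z₁ := by
    have := hz1.sub (R₁.isRed_algebraMap hbA)
    rwa [hbπ, map_zero, sub_zero] at this
  have hzb' : R₁.IsRed (z * v - algebraMap K F b) z₁ := by
    have := (hz1.mul hc3).sub (R₁.isRed_algebraMap hbA)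
    rwa [hbπ, map_zero, sub_zero, mul_one] at this
  have hu0 : z - algebraMap K F b ≠ 0 := hzb.ne_zero hz10
  have hu0' : z * v - algebraMap K F b ≠ 0 := hzb'.ne_zero hz10
  have hbF : algebraMap K F b ≠ 0 := by simpa using hb0
  have hz0 := hz.ne_zero
  by_contra hne
  have hpos := hb.ord_sub_pos (sub_ne_zero.1 hu0)
  have h2 : 2 ≤ P.ord (z - algebraMap K F b) := by omega
  have hg0 := ne_zero_of_ord_eq_one hgo
  have hϖF : algebraMap K F ϖ ≠ 0 := hz.ϖ_ne
  -- the second function has a simple zero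
  have h3 : P.ord (z * v - algebraMap K F b) = 1 := by
    have e : z * v - algebraMap K F b = algebraMap K F ϖ * z * g + (z - algebraMap K F b) := by
      rw [hv]; ring
    have h4 : P.ord (algebraMap K F ϖ * z * g) = 1 := by
      rw [P.ord_mul (mul_ne_zero hϖF hz0) hg0, P.ord_mul hϖF hz0, ord_algebraMap,
        hz.ord_eq_zero hP, hgo]
      norm_num
    rw [e, ord_add_eq_of_lt P (mul_ne_zero (mul_ne_zero hϖF hz0) hg0) (Or.inr (by omega)), h4]
  -- reductions of the quotient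
  set φ := (z - algebraMap K F b) / (z * v - algebraMap K F b) with hφ
  have hφ1 : R₁.IsRed φ 1 := by
    have := hzb.div hzb' hz10
    rwa [div_self hz10] at this
  have hzb2 : R₂.IsRed (z / algebraMap K F b) 0 := by
    have h5 := (R₂.isRed_algebraMap hbA').div hy2 hy20
    rw [hbπ', map_zero, zero_div] at h5
    convert h5 using 1
    rw [map_div₀]
    field_simp
  have hφ2 : R₂.IsRed φ 1 := by
    have h5 := hzb2.sub R₂.isRed_one
    have h6 := (hzb2.mul hc4).sub R₂.isRed_one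
    have h7 := h5.div h6 (by simp)
    rw [zero_mul, div_self (by simp : (0 - 1 : κ₂) ≠ 0)] at h7
    convert h7 using 1
    rw [hφ]
    field_simp
  have hφT : ∀ P' ∈ T, P' ≠ P → P'.ord φ = 0 := by
    intro P' hP' hPP'
    obtain ⟨b₁, hb₁⟩ := exists_hasVal (ord_nonneg_of_mem P' (hz.mem.2.2 P' hP'))
    obtain ⟨b₂, hb₂⟩ := exists_hasVal (ord_nonneg_of_mem P' (hzc.mem.2.2 P' hP'))
    have h5 : b₁ ≠ b := by
      rintro rfl
      exact hPP' (D.injective hz hP' hP hb₁ hb)
    have h6 : b₂ ≠ b := by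
      rintro rfl
      exact hPP' (D.injective hzc hP' hP hb₂ hzcb)
    have h7 := (hb₁.sub (hasVal_algebraMap P' b)).ord_eq_zero (sub_ne_zero.2 h5)
    have h8 := (hb₂.sub (hasVal_algebraMap P' b)).ord_eq_zero (sub_ne_zero.2 h6)
    rw [hφ, div_eq_mul_inv, P'.ord_mul hu0 (inv_ne_zero hu0'), P'.ord_inv, h7, h8]
    norm_num
  have hφP : P.ord φ = P.ord (z - algebraMap K F b) - 1 := by
    rw [hφ, div_eq_mul_inv, P.ord_mul hu0 (inv_ne_zero hu0'), P.ord_inv, h3]
    ring
  have hφL : φ ∈ locRing R₁ R₂ T := by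
    refine ⟨hφ1.mem, hφ2.mem, fun P' hP' => mem_of_ord_nonneg P' ?_⟩
    by_cases h5 : P' = P
    · rw [h5, hφP]; omega
    · rw [hφT P' hP' h5]
  obtain ⟨h5, h6⟩ := D.value hφL hφ1 (hasVal_one Q₁) hP
    (hasVal_zero_of_pos (by rw [hφP]; omega : 0 < P.ord φ))
  have h7 : (⟨0, h5⟩ : A) = 0 := rfl
  rw [h7, map_zero] at h6
  exact zero_ne_one h6

/-- **(T4)** a function with prescribed zeros and poles on the tube. -/
theorem exists_moving {z : F} (hz : Param R₁ R₂ Q₁ Q₂ T ϖ z) (s : Finset (Place K F))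
    (hs : ∀ P ∈ s, P ∈ T) (b : Place K F → K) (hb : ∀ P ∈ s, HasVal P z (b P))
    (m : Place K F → ℤ) :
    (∀ P ∈ T, (P ∈ s → P.ord (∏ P' ∈ s, (z - algebraMap K F (b P')) ^ m P') = m P) ∧
      (P ∉ s → P.ord (∏ P' ∈ s, (z - algebraMap K F (b P')) ^ m P') = 0)) ∧
    R₁.IsRed ((∏ P' ∈ s, (z - algebraMap K F (b P')) ^ m P') / z ^ (∑ P' ∈ s, m P')) 1 ∧
    R₂.IsRed ((∏ P' ∈ s, (z - algebraMap K F (b P')) ^ m P') /
      algebraMap K F (∏ P' ∈ s, (- b P') ^ m P')) 1 := by
  classical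
  have hϖ := D.lev.red
  obtain ⟨z₁, hz1, hz1o⟩ := hz.red1
  obtain ⟨y₂, hy2, hy2o⟩ := hz.red2
  have hz10 : z₁ ≠ 0 := ne_zero_of_ord_eq_one hz1o
  have hy20 : y₂ ≠ 0 := ne_zero_of_ord_eq_one hy2o
  have hz0 := hz.ne_zero
  have key1 : ∀ P ∈ s, z - algebraMap K F (b P) ≠ 0 ∧
      R₁.IsRed ((z - algebraMap K F (b P)) / z) 1 ∧
      R₂.IsRed ((z - algebraMap K F (b P)) / algebraMap K F (- b P)) 1 := by
    intro P hP
    obtain ⟨hb0, ⟨hbA, hbπ⟩, hb', ⟨hbA', hbπ'⟩⟩ := hz.value D.toNode hϖ (hs P hP) (hb P hP)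
    have h1 := (hz1.sub (R₁.isRed_algebraMap hbA))
    rw [hbπ, map_zero, sub_zero] at h1
    refine ⟨h1.ne_zero hz10, ?_, ?_⟩
    · have := h1.div hz1 hz10
      rwa [div_self hz10] at this
    · have h5 := (R₂.isRed_algebraMap hbA').div hy2 hy20
      rw [hbπ', map_zero, zero_div] at h5
      have h6 := R₂.isRed_one.sub h5
      rw [sub_zero] at h6
      convert h6 using 1
      have hbF : algebraMap K F (b P) ≠ 0 := by simpa using hb0
      have := hz.ϖ_ne
      rw [map_div₀, map_neg]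
      field_simp
      ring
  have key2 : ∀ P ∈ T, ∀ P' ∈ s, P.ord (z - algebraMap K F (b P')) = if P = P' then 1 else 0 := by
    intro P hP P' hP'
    split_ifs with h
    · subst h
      exact D.ord_sub_eq_one hz hP (hb P hP')
    · obtain ⟨b₁, hb₁⟩ := exists_hasVal (ord_nonneg_of_mem P (hz.mem.2.2 P hP))
      refine (hb₁.sub (hasVal_algebraMap P (b P'))).ord_eq_zero (sub_ne_zero.2 ?_)
      rintro rfl
      exact h (D.injective hz hP (hs P' hP') hb₁ (hb P' hP'))
  refine ⟨fun P hP => ?_, ?_, ?_⟩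
  · have h1 : ∀ s' ⊆ s, P.ord (∏ P' ∈ s', (z - algebraMap K F (b P')) ^ m P') =
        ∑ P' ∈ s', m P' * P.ord (z - algebraMap K F (b P')) := by
      intro s' hs'
      induction s' using Finset.induction_on with
      | empty => simp
      | insert a s' ha ih =>
        rw [Finset.prod_insert ha, Finset.sum_insert ha, P.ord_mul, ih, P.ord_zpow]
        · exact (Finset.subset_insert _ _).trans hs'
        · exact zpow_ne_zero _ (key1 a (hs' (Finset.mem_insert_self _ _))).1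
        · exact Finset.prod_ne_zero_iff.2 fun i hi =>
            zpow_ne_zero _ (key1 i (hs' (Finset.mem_insert_of_mem hi))).1
    have h2 : ∑ P' ∈ s, m P' * P.ord (z - algebraMap K F (b P')) =
        ∑ P' ∈ s, m P' * (if P = P' then 1 else 0) :=
      Finset.sum_congr rfl fun P' hP' => by rw [key2 P hP P' hP']
    rw [h1 s subset_rfl, h2]
    simp only [mul_ite, mul_one, mul_zero, Finset.sum_ite_eq]
    exact ⟨fun h => if_pos h, fun h => if_neg h⟩
  · rw [zpow_sum_eq s hz0, ← Finset.prod_div_distrib]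
    have := ConstRed.isRed_prod (R := R₁) s (y := fun P' => (z - algebraMap K F (b P')) ^ m P' /
      z ^ m P') (z := fun _ => (1 : κ₁)) fun i hi => by
        rw [← div_zpow]
        exact isRed_one_zpow (key1 i hi).2.1 _
    simpa using this
  · rw [map_prod, ← Finset.prod_div_distrib]
    have := ConstRed.isRed_prod (R := R₂) s (y := fun P' => (z - algebraMap K F (b P')) ^ m P' /
      algebraMap K F ((- b P') ^ m P')) (z := fun _ => (1 : κ₂)) fun i hi => by
        rw [map_zpow₀, ← div_zpow]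
        exact isRed_one_zpow (key1 i hi).2.2 _
    simpa using this

end TubeData

end Fermat.Agent.MazurP
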